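import Mathlib
import Fermat.Agent.Lib.GaussInt.TwoValSetup
import Fermat.Agent.Lib.Deuring.RedSpace
import Fermat.Agent.Lib.Deuring.Construct

set_option autoImplicit false
set_option linter.unusedSectionVars false

/-!
# Cluster T, WP N4 (b): the PAIR LATTICE (helper18)

`F / K` with two constant reductions `S₁ : ValSetup K F k Fk₁`, `S₂ : ValSetup K F k Fk₂` over the
same valuation ring `A` of `K`, with the same residue map.  For a `K`-subspace `W` of `F`,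

`pairRedSpace S₁ S₂ W = {(red₁ f, red₂ f) : f ∈ W ∩ O₁ ∩ O₂} ⊂ Fk₁ × Fk₂`.

* `mem_pairRedSpace_iff` : the span is the set itself;
* `finrank_pairRedSpace` : **(PL)** `dim_k pairRedSpace W = dim_K W` (both lattice properties,
  from helper5's `GaussInt.exists_orthonormal_pair`);
* `exists_pair_basis` : the orthonormal basis in the form used by the consumers;
* `pairRedSpace_mono`, `mul_mem_pairRedSpace`, `fst_mem_redSpace`, `snd_mem_redSpace`;
* divisor forms: `finrank_pairRedSpace_riemannRochSpace` (`dim V(D) = ℓ(D)`),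
  `mul_mem_pairRedSpace_riemannRochSpace` (`V(D) · V(D') ⊂ V(D + D')`).
-/

noncomputable section

open AlgebraicCurve Fermat.Agent.RR Fermat.Agent.Deuring

namespace Fermat.Agent.BadRed

variable {K F k Fk₁ Fk₂ : Type*} [Field K] [Field F] [Algebra K F]
  [Field k] [Field Fk₁] [Algebra k Fk₁] [Field Fk₂] [Algebra k Fk₂]

/-- the pair of reductions of a function. -/
def pairRed (S₁ : ValSetup K F k Fk₁) (S₂ : ValSetup K F k Fk₂) (f : F) : Fk₁ × Fk₂ :=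
  (S₁.red f, S₂.red f)

/-- the set of pairs of reductions of the elements of `W ∩ O₁ ∩ O₂`. -/
def pairRedSet (S₁ : ValSetup K F k Fk₁) (S₂ : ValSetup K F k Fk₂) (W : Submodule K F) :
    Set (Fk₁ × Fk₂) :=
  {y | ∃ x ∈ W, x ∈ S₁.Ov ∧ x ∈ S₂.Ov ∧ pairRed S₁ S₂ x = y}

/-- the pair reduction of a `K`-subspace `W` of `F`: the `k`-span of the pairs of reductions of
`W ∩ O₁ ∩ O₂` (the span is the set itself, see `mem_pairRedSpace_iff`). -/
def pairRedSpace (S₁ : ValSetup K F k Fk₁) (S₂ : ValSetup K F k Fk₂) (W : Submodule K F) :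
    Submodule k (Fk₁ × Fk₂) :=
  Submodule.span k (pairRedSet S₁ S₂ W)

/-- the two reductions are COMPATIBLE: they lie over the same valuation ring of the constants,
with the same residue map. -/
structure PairCompat (S₁ : ValSetup K F k Fk₁) (S₂ : ValSetup K F k Fk₂) : Prop where
  A_eq : S₁.A = S₂.A
  res_eq : ∀ (c : K) (h₁ : c ∈ S₁.A) (h₂ : c ∈ S₂.A), S₁.res ⟨c, h₁⟩ = S₂.res ⟨c, h₂⟩

variable {S₁ : ValSetup K F k Fk₁} {S₂ : ValSetup K F k Fk₂}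

namespace PairCompat

variable (h : PairCompat S₁ S₂)

include h in
theorem mem₂ {c : K} (hc : c ∈ S₁.A) : c ∈ S₂.A := h.A_eq ▸ hc

include h in
theorem mem₁ {c : K} (hc : c ∈ S₂.A) : c ∈ S₁.A := h.A_eq.symm ▸ hc

end PairCompat

@[simp]
theorem pairRed_zero : pairRed S₁ S₂ 0 = 0 := by
  unfold pairRed
  rw [S₁.red_zero, S₂.red_zero]
  rfl

@[simp]
theorem pairRed_one : pairRed S₁ S₂ 1 = 1 := by
  unfold pairRed
  rw [S₁.red_one, S₂.red_one]
  rfl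

theorem pairRed_add {f g : F} (hf₁ : f ∈ S₁.Ov) (hf₂ : f ∈ S₂.Ov) (hg₁ : g ∈ S₁.Ov)
    (hg₂ : g ∈ S₂.Ov) : pairRed S₁ S₂ (f + g) = pairRed S₁ S₂ f + pairRed S₁ S₂ g := by
  unfold pairRed
  rw [S₁.red_add hf₁ hg₁, S₂.red_add hf₂ hg₂]
  rfl

theorem pairRed_mul {f g : F} (hf₁ : f ∈ S₁.Ov) (hf₂ : f ∈ S₂.Ov) (hg₁ : g ∈ S₁.Ov)
    (hg₂ : g ∈ S₂.Ov) : pairRed S₁ S₂ (f * g) = pairRed S₁ S₂ f * pairRed S₁ S₂ g := by
  unfold pairRed
  rw [S₁.red_mul hf₁ hg₁, S₂.red_mul hf₂ hg₂]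
  rfl

theorem pairRed_smul (h : PairCompat S₁ S₂) {c : K} (hc : c ∈ S₁.A) {f : F} (hf₁ : f ∈ S₁.Ov)
    (hf₂ : f ∈ S₂.Ov) : pairRed S₁ S₂ (c • f) = S₁.res ⟨c, hc⟩ • pairRed S₁ S₂ f := by
  unfold pairRed
  rw [S₁.red_smul hc hf₁, S₂.red_smul (h.mem₂ hc) hf₂, ← h.res_eq c hc (h.mem₂ hc)]
  rfl

theorem pairRed_sum_smul (h : PairCompat S₁ S₂) {ι : Type*} (s : Finset ι) (c : ι → K)
    (w : ι → F) (hc : ∀ i, c i ∈ S₁.A) (hw₁ : ∀ i, w i ∈ S₁.Ov) (hw₂ : ∀ i, w i ∈ S₂.Ov) :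
    pairRed S₁ S₂ (∑ i ∈ s, c i • w i) = ∑ i ∈ s, S₁.res ⟨c i, hc i⟩ • pairRed S₁ S₂ (w i) := by
  classical
  induction s using Finset.induction_on with
  | empty => simp
  | insert a s ha ih =>
    rw [Finset.sum_insert ha, Finset.sum_insert ha,
      pairRed_add (S₁.smul_mem (hc a) (hw₁ a)) (S₂.smul_mem (h.mem₂ (hc a)) (hw₂ a))
        (Fermat.Agent.GaussInt.sum_smul_mem_Ov S₁ s c w hc hw₁)
        (Fermat.Agent.GaussInt.sum_smul_mem_Ov S₂ s c w (fun i => h.mem₂ (hc i)) hw₂),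
      ih, pairRed_smul h (hc a) (hw₁ a) (hw₂ a)]

theorem zero_mem_pairRedSet (W : Submodule K F) : (0 : Fk₁ × Fk₂) ∈ pairRedSet S₁ S₂ W :=
  ⟨0, zero_mem _, zero_mem _, zero_mem _, pairRed_zero⟩

theorem add_mem_pairRedSet (W : Submodule K F) {y y' : Fk₁ × Fk₂}
    (hy : y ∈ pairRedSet S₁ S₂ W) (hy' : y' ∈ pairRedSet S₁ S₂ W) :
    y + y' ∈ pairRedSet S₁ S₂ W := by
  obtain ⟨x, hxW, hx₁, hx₂, rfl⟩ := hy
  obtain ⟨x', hxW', hx₁', hx₂', rfl⟩ := hy'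
  exact ⟨x + x', add_mem hxW hxW', add_mem hx₁ hx₁', add_mem hx₂ hx₂',
    pairRed_add hx₁ hx₂ hx₁' hx₂'⟩

theorem smul_mem_pairRedSet (h : PairCompat S₁ S₂) (W : Submodule K F) (l : k)
    {y : Fk₁ × Fk₂} (hy : y ∈ pairRedSet S₁ S₂ W) : l • y ∈ pairRedSet S₁ S₂ W := by
  obtain ⟨x, hxW, hx₁, hx₂, rfl⟩ := hy
  obtain ⟨⟨a, ha⟩, rfl⟩ := S₁.res_surj l
  exact ⟨a • x, W.smul_mem a hxW, S₁.smul_mem ha hx₁, S₂.smul_mem (h.mem₂ ha) hx₂,
    pairRed_smul h ha hx₁ hx₂⟩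

/-- the span is the set itself. -/
theorem mem_pairRedSpace_iff (h : PairCompat S₁ S₂) (W : Submodule K F) {y : Fk₁ × Fk₂} :
    y ∈ pairRedSpace S₁ S₂ W ↔ ∃ x ∈ W, x ∈ S₁.Ov ∧ x ∈ S₂.Ov ∧ pairRed S₁ S₂ x = y := by
  constructor
  · intro hy
    unfold pairRedSpace at hy
    induction hy using Submodule.span_induction with
    | mem y hy => exact hy
    | zero => exact zero_mem_pairRedSet W
    | add y y' _ _ hy hy' => exact add_mem_pairRedSet W hy hy'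
    | smul l y _ hy => exact smul_mem_pairRedSet h W l hy
  · intro hy
    exact Submodule.subset_span hy

theorem pairRed_mem_pairRedSpace (W : Submodule K F) {x : F} (hxW : x ∈ W) (hx₁ : x ∈ S₁.Ov)
    (hx₂ : x ∈ S₂.Ov) : pairRed S₁ S₂ x ∈ pairRedSpace S₁ S₂ W :=
  Submodule.subset_span ⟨x, hxW, hx₁, hx₂, rfl⟩

theorem pairRedSpace_mono {W W' : Submodule K F} (hle : W ≤ W') :
    pairRedSpace S₁ S₂ W ≤ pairRedSpace S₁ S₂ W' := by
  apply Submodule.span_mono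
  rintro y ⟨x, hxW, hx₁, hx₂, rfl⟩
  exact ⟨x, hle hxW, hx₁, hx₂, rfl⟩

/-- the first component of an element of the pair reduction lies in the first reduction. -/
theorem fst_mem_redSpace (h : PairCompat S₁ S₂) (W : Submodule K F) {y : Fk₁ × Fk₂}
    (hy : y ∈ pairRedSpace S₁ S₂ W) : y.1 ∈ redSpace S₁ W := by
  obtain ⟨x, hxW, hx₁, -, rfl⟩ := (mem_pairRedSpace_iff h W).mp hy
  exact red_mem_redSpace S₁ W hxW hx₁

/-- the second component of an element of the pair reduction lies in the second reduction. -/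
theorem snd_mem_redSpace (h : PairCompat S₁ S₂) (W : Submodule K F) {y : Fk₁ × Fk₂}
    (hy : y ∈ pairRedSpace S₁ S₂ W) : y.2 ∈ redSpace S₂ W := by
  obtain ⟨x, hxW, -, hx₂, rfl⟩ := (mem_pairRedSpace_iff h W).mp hy
  exact red_mem_redSpace S₂ W hxW hx₂

/-- products: `V(W) · V(W') ⊂ V(W'')` if `W · W' ⊂ W''`. -/
theorem mul_mem_pairRedSpace (h : PairCompat S₁ S₂) {W W' W'' : Submodule K F}
    (hmul : ∀ x ∈ W, ∀ x' ∈ W', x * x' ∈ W'') {y y' : Fk₁ × Fk₂}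
    (hy : y ∈ pairRedSpace S₁ S₂ W) (hy' : y' ∈ pairRedSpace S₁ S₂ W') :
    y * y' ∈ pairRedSpace S₁ S₂ W'' := by
  obtain ⟨x, hxW, hx₁, hx₂, rfl⟩ := (mem_pairRedSpace_iff h W).mp hy
  obtain ⟨x', hxW', hx₁', hx₂', rfl⟩ := (mem_pairRedSpace_iff h W').mp hy'
  rw [← pairRed_mul hx₁ hx₂ hx₁' hx₂']
  exact pairRed_mem_pairRedSpace W'' (hmul x hxW x' hxW') (mul_mem hx₁ hx₁') (mul_mem hx₂ hx₂')

/-- the constants of the pair reduction: `(c, c)`. -/
theorem algebraMap_mem_pairRedSpace (h : PairCompat S₁ S₂) {W : Submodule K F}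
    (h1 : (1 : F) ∈ W) (c : k) :
    ((algebraMap k Fk₁ c, algebraMap k Fk₂ c) : Fk₁ × Fk₂) ∈ pairRedSpace S₁ S₂ W := by
  obtain ⟨⟨a, ha⟩, rfl⟩ := S₁.res_surj c
  have hmem : algebraMap K F a ∈ W := by
    rw [Algebra.algebraMap_eq_smul_one]
    exact W.smul_mem a h1
  have e : pairRed S₁ S₂ (algebraMap K F a)
      = (algebraMap k Fk₁ (S₁.res ⟨a, ha⟩), algebraMap k Fk₂ (S₁.res ⟨a, ha⟩)) := by
    unfold pairRed
    rw [S₁.red_algebraMap ha, S₂.red_algebraMap (h.mem₂ ha), ← h.res_eq a ha (h.mem₂ ha)]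
  rw [← e]
  exact pairRed_mem_pairRedSpace W hmem (S₁.algebraMap_mem ha) (S₂.algebraMap_mem (h.mem₂ ha))

/-- **orthonormal basis for the pair**: every finite-dimensional subspace `W` has a `K`-basis
`u` in `O₁ ∩ O₂` with `W ∩ O₁ ∩ O₂ = ⊕ A uᵢ` and `k`-linearly independent pairs of
reductions. -/
theorem exists_pair_basis (h : PairCompat S₁ S₂) (hL₁ : HasLattice S₁) (hL₂ : HasLattice S₂)
    (W : Submodule K F) [FiniteDimensional K W] :
    ∃ (n : ℕ) (u : Fin n → F), (∀ i, u i ∈ W) ∧ (∀ i, u i ∈ S₁.Ov) ∧ (∀ i, u i ∈ S₂.Ov) ∧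
      LinearIndependent K u ∧ Submodule.span K (Set.range u) = W ∧
      (∀ c : Fin n → K, ∑ i, c i • u i ∈ S₁.Ov → ∑ i, c i • u i ∈ S₂.Ov → ∀ i, c i ∈ S₁.A) ∧
      LinearIndependent k (fun i => pairRed S₁ S₂ (u i)) := by
  obtain ⟨n, u, huW, hu₁, hu₂, huli, huspan, -, -, -, horth, hli⟩ :=
    Fermat.Agent.GaussInt.exists_orthonormal_pair S₁ S₂ h.A_eq h.res_eq hL₁ hL₂ W
  exact ⟨n, u, huW, hu₁, hu₂, huli, huspan, horth, hli⟩

/-- the pair reduction of `W` is spanned by the pairs of reductions of a pair basis. -/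
theorem pairRedSpace_eq_span (h : PairCompat S₁ S₂) {W : Submodule K F} {n : ℕ}
    {u : Fin n → F} (hu₁ : ∀ i, u i ∈ S₁.Ov) (hu₂ : ∀ i, u i ∈ S₂.Ov)
    (hspan : Submodule.span K (Set.range u) = W)
    (horth : ∀ c : Fin n → K, ∑ i, c i • u i ∈ S₁.Ov → ∑ i, c i • u i ∈ S₂.Ov →
      ∀ i, c i ∈ S₁.A) :
    pairRedSpace S₁ S₂ W = Submodule.span k (Set.range fun i => pairRed S₁ S₂ (u i)) := by
  apply le_antisymm
  · intro y hy
    obtain ⟨x, hxW, hx₁, hx₂, rfl⟩ := (mem_pairRedSpace_iff h W).mp hy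
    rw [← hspan] at hxW
    obtain ⟨c, rfl⟩ := (Submodule.mem_span_range_iff_exists_fun K).mp hxW
    have hc := horth c hx₁ hx₂
    rw [pairRed_sum_smul h _ c u hc hu₁ hu₂]
    exact Submodule.sum_mem _ fun i _ =>
      Submodule.smul_mem _ _ (Submodule.subset_span ⟨i, rfl⟩)
  · rw [Submodule.span_le]
    rintro y ⟨i, rfl⟩
    refine pairRed_mem_pairRedSpace W ?_ (hu₁ i) (hu₂ i)
    rw [← hspan]
    exact Submodule.subset_span ⟨i, rfl⟩

/-- **(PL) the PAIR LATTICE property**: `dim_k {(red₁ f, red₂ f) : f ∈ W ∩ O₁ ∩ O₂} = dim_K W`. -/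
theorem finrank_pairRedSpace (h : PairCompat S₁ S₂) (hL₁ : HasLattice S₁) (hL₂ : HasLattice S₂)
    (W : Submodule K F) [FiniteDimensional K W] :
    Module.finrank k (pairRedSpace S₁ S₂ W) = Module.finrank K W := by
  obtain ⟨n, u, -, hu₁, hu₂, huli, hspan, horth, hli⟩ := exists_pair_basis h hL₁ hL₂ W
  have h1 : Module.finrank K W = n := by
    rw [← hspan, finrank_span_eq_card huli, Fintype.card_fin]
  have h2 : Module.finrank k (pairRedSpace S₁ S₂ W) = n := by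
    rw [pairRedSpace_eq_span h hu₁ hu₂ hspan horth, finrank_span_eq_card hli, Fintype.card_fin]
  rw [h1, h2]

theorem finiteDimensional_pairRedSpace (h : PairCompat S₁ S₂) (hL₁ : HasLattice S₁)
    (hL₂ : HasLattice S₂) (W : Submodule K F) [FiniteDimensional K W] :
    FiniteDimensional k (pairRedSpace S₁ S₂ W) := by
  obtain ⟨n, u, -, hu₁, hu₂, -, hspan, horth, -⟩ := exists_pair_basis h hL₁ hL₂ W
  rw [pairRedSpace_eq_span h hu₁ hu₂ hspan horth]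
  exact FiniteDimensional.span_of_finite k (Set.finite_range _)

/-- a nonzero element of `W` has, after scaling by a constant, a nonzero pair reduction in
`V(W)`: `W ≠ 0 ⟹ V(W) ≠ 0`, pointwise form. -/
theorem exists_smul_pairRed_ne_zero (h : PairCompat S₁ S₂) {x : F} (hx : x ≠ 0) :
    ∃ c : K, c ≠ 0 ∧ c • x ∈ S₁.Ov ∧ c • x ∈ S₂.Ov ∧ pairRed S₁ S₂ (c • x) ≠ 0 := by
  obtain ⟨d₁, hd₁, h₁, h₁'⟩ := S₁.scale x hx
  obtain ⟨d₂, hd₂, h₂, h₂'⟩ := S₂.scale x hx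
  have key : ∀ t : K, t⁻¹ • x = x * (algebraMap K F t)⁻¹ := fun t => by
    rw [Algebra.smul_def, map_inv₀, mul_comm]
  have hd₁' : algebraMap K F d₁ ≠ 0 := by simpa using hd₁
  have hd₂' : algebraMap K F d₂ ≠ 0 := by simpa using hd₂
  rcases S₁.A.mem_or_inv_mem (d₁ / d₂) with hq | hq
  · -- `|d₁| ≤ |d₂|`: scale by `d₂⁻¹`
    refine ⟨d₂⁻¹, inv_ne_zero hd₂, ?_, ?_, ?_⟩
    · have : d₂⁻¹ • x = algebraMap K F (d₁ / d₂) * (x * (algebraMap K F d₁)⁻¹) := by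
        rw [key, map_div₀]
        field_simp
      rw [this]
      exact S₁.Ov.mul_mem _ _ ((S₁.mem_Ov_iff _).mpr hq) h₁
    · rw [key]
      exact h₂
    · intro h0
      have h02 : S₂.red (d₂⁻¹ • x) = 0 := congrArg Prod.snd h0
      rw [key] at h02
      exact S₂.red_ne_zero h₂ h₂' (mul_ne_zero hx (inv_ne_zero hd₂')) h02
  · have hq' : d₂ / d₁ ∈ S₁.A := by rwa [inv_div] at hq
    refine ⟨d₁⁻¹, inv_ne_zero hd₁, ?_, ?_, ?_⟩
    · rw [key]
      exact h₁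
    · have : d₁⁻¹ • x = algebraMap K F (d₂ / d₁) * (x * (algebraMap K F d₂)⁻¹) := by
        rw [key, map_div₀]
        field_simp
      rw [this]
      exact S₂.Ov.mul_mem _ _ ((S₂.mem_Ov_iff _).mpr (h.mem₂ hq')) h₂
    · intro h0
      have h01 : S₁.red (d₁⁻¹ • x) = 0 := congrArg Prod.fst h0
      rw [key] at h01
      exact S₁.red_ne_zero h₁ h₁' (mul_ne_zero hx (inv_ne_zero hd₁')) h01

/-! ### Divisor forms -/

/-- **(PL)** for Riemann-Roch spaces: `dim_k V(D) = ℓ(D)`. -/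
theorem finrank_pairRedSpace_riemannRochSpace (h : PairCompat S₁ S₂) (hL₁ : HasLattice S₁)
    (hL₂ : HasLattice S₂) (D : Divisor K F) :
    Module.finrank k (pairRedSpace S₁ S₂ (riemannRochSpace D)) = ell D := by
  have : FiniteDimensional K (riemannRochSpace D) := finite_riemannRochSpace S₁.hF D
  exact finrank_pairRedSpace h hL₁ hL₂ (riemannRochSpace D)

theorem finiteDimensional_pairRedSpace_riemannRochSpace (h : PairCompat S₁ S₂)
    (hL₁ : HasLattice S₁) (hL₂ : HasLattice S₂) (D : Divisor K F) :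
    FiniteDimensional k (pairRedSpace S₁ S₂ (riemannRochSpace D)) := by
  have : FiniteDimensional K (riemannRochSpace D) := finite_riemannRochSpace S₁.hF D
  exact finiteDimensional_pairRedSpace h hL₁ hL₂ (riemannRochSpace D)

/-- `V(D) · V(D') ⊂ V(D + D')`. -/
theorem mul_mem_pairRedSpace_riemannRochSpace (h : PairCompat S₁ S₂) {D D' : Divisor K F}
    {y y' : Fk₁ × Fk₂} (hy : y ∈ pairRedSpace S₁ S₂ (riemannRochSpace D))
    (hy' : y' ∈ pairRedSpace S₁ S₂ (riemannRochSpace D')) :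
    y * y' ∈ pairRedSpace S₁ S₂ (riemannRochSpace (D + D')) :=
  mul_mem_pairRedSpace h (fun _ hx _ hx' => mul_mem_riemannRochSpace_add hx hx') hy hy'

/-- `V(D) ⊂ V(D')` for `D ≤ D'`. -/
theorem pairRedSpace_riemannRochSpace_mono {D D' : Divisor K F} (hle : D ≤ D') :
    pairRedSpace S₁ S₂ (riemannRochSpace D) ≤ pairRedSpace S₁ S₂ (riemannRochSpace D') :=
  pairRedSpace_mono (riemannRochSpace_mono hle)

end Fermat.Agent.BadRed
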