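import Mathlib
import Fermat.Agent.Lib.RR.NonSpecial
import Fermat.Agent.Lib.BadRed.Nodal.Setup

set_option autoImplicit false
set_option linter.style.haveILetI false
set_option linter.unusedSectionVars false

/-!
# Cluster T, WP N1: nodal non-special points

Two function fields `F₁ / k`, `F₂ / k` (the components), nodes `s₁ i ↔ s₂ i`, `i : ι`, `ι ≠ ∅`.
`exists_nodal_nonspecial`: outside any finite sets of places there are finite sets `T₁`, `T₂` of
smooth points with `|T₁| + |T₂| + 1 = g₁ + g₂ + |ι|` (`= g + 1` by the genus relation) such that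
every nodal pair `(a, b)` with at most simple poles in `(T₁, T₂)` is a constant pair `(c, c)`.

Proof.  `T₂` := `g₂` non-special points of `F₂` (`L₂(T₂) = k`, `exists_nonspecial`);
`T₁` := `g₁ + |ι| - 1` points of `F₁` with `L₁(T₁ - ∑ s₁ i) = 0` (the step lemma
`exists_place_ell_add_single_eq`, starting from `- ∑ s₁ i`).  Then `b = c` is constant, `a - c`
vanishes at all nodes, so `a - c ∈ L₁(T₁ - ∑ s₁ i) = 0`.
-/

noncomputable section

open AlgebraicCurve

namespace Fermat.Agent.BadRed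

open Fermat.Agent.RR

variable {K F : Type*} [Field K] [Field F] [Algebra K F]

/-- adding generic points keeps `ℓ = 0` up to degree `g - 1`. -/
theorem exists_sumPlaces_ell_eq_zero (h : IsRRField K F) [Infinite (Place K F)]
    (D₀ : Divisor K F) (h0 : ell D₀ = 0) (Z : Finset (Place K F)) (n : ℕ)
    (hn : Divisor.degree D₀ + n ≤ (genusFF K F : ℤ) - 1) :
    ∃ W : Finset (Place K F), Disjoint W Z ∧ W.card = n ∧ ell (D₀ + sumPlaces W) = 0 := by
  classical
  induction n with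
  | zero => exact ⟨∅, Finset.disjoint_empty_left Z, rfl, by rw [sumPlaces_empty, add_zero, h0]⟩
  | succ n ih =>
    obtain ⟨W, hWZ, hWcard, hell⟩ := ih (by push_cast at hn ⊢; omega)
    have hD : Divisor.degree (D₀ + sumPlaces W) + 1 - (genusFF K F : ℤ) <
        (ell (D₀ + sumPlaces W) : ℤ) := by
      rw [map_add, degree_sumPlaces h, hWcard, hell]
      push_cast at hn ⊢
      omega
    obtain ⟨P, hP, hPell⟩ := exists_place_ell_add_single_eq h (D₀ + sumPlaces W) hD (Z ∪ W)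
    rw [Finset.mem_union, not_or] at hP
    refine ⟨Finset.cons P W hP.2, ?_, ?_, ?_⟩
    · rw [Finset.disjoint_left]
      intro Q hQ
      rcases Finset.mem_cons.mp hQ with rfl | hQ
      · exact hP.1
      · exact Finset.disjoint_left.mp hWZ hQ
    · rw [Finset.card_cons, hWcard]
    · rw [sumPlaces_cons hP.2, ← add_assoc, hPell, hell]

/-- a function with at most simple poles in `T` and no other pole lies in `L(∑ T)`. -/
theorem mem_riemannRochSpace_sumPlaces {T : Finset (Place K F)} {f : F}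
    (h1 : ∀ Q, Q ∉ T → 0 ≤ Q.ord f) (h2 : ∀ Q ∈ T, -1 ≤ Q.ord f) :
    f ∈ riemannRochSpace (sumPlaces T) := by
  classical
  rw [mem_riemannRochSpace_iff]
  intro Q
  right
  by_cases hQ : Q ∈ T
  · rw [sumPlaces_apply_of_mem hQ]
    exact h2 Q hQ
  · rw [sumPlaces_apply_of_not_mem hQ]
    simpa using h1 Q hQ

theorem nodal_ord_neg (Q : Place K F) (f : F) : Q.ord (-f) = Q.ord f := by
  unfold Place.ord
  rw [Valuation.map_neg]

open Classical in
/-- the divisor of the nodes on one component. -/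
theorem degree_sumPlaces_image {ι : Type*} [Fintype ι] (h : IsRRField K F)
    (s : ι → Place K F) (hs : Function.Injective s) :
    Divisor.degree (sumPlaces (Finset.univ.image s)) = Fintype.card ι := by
  rw [degree_sumPlaces h, Finset.card_image_of_injective _ hs, Finset.card_univ]

/-- a constant function takes only its own value. -/
theorem valAt_algebraMap_iff (Q : Place K F) (c c' : K) :
    ValAt Q (algebraMap K F c) c' ↔ c = c' := by
  constructor
  · rintro (hc | hc)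
    · exact (algebraMap K F).injective hc
    · by_contra hne
      rw [← map_sub, Fermat.Agent.S24Res.ord_algebraMap] at hc
      exact lt_irrefl _ hc
  · rintro rfl
    exact Or.inl rfl

open Classical in
/-- the core of N1: if `L₂(T₂) = k` and `L₁(T₁ - ∑ s₁ i) = 0`, every nodal pair with at most
simple poles in `(T₁, T₂)` is a constant pair. -/
theorem nodal_pair_const {k F₁ F₂ ι : Type*} [Field k] [Field F₁] [Algebra k F₁]
    [Field F₂] [Algebra k F₂] [Fintype ι]
    (h₁ : IsRRField k F₁) (h₂ : IsRRField k F₂)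
    (s₁ : ι → Place k F₁) (s₂ : ι → Place k F₂)
    {T₁ : Finset (Place k F₁)} {T₂ : Finset (Place k F₂)}
    (hT₂ell : ell (sumPlaces T₂) = 1)
    (hT₁ell : ell (-sumPlaces (Finset.univ.image s₁) + sumPlaces T₁) = 0)
    (hnode₁ : ∀ i, s₁ i ∉ T₁)
    (a : F₁) (b : F₂)
    (ha1 : ∀ Q, Q ∉ T₁ → 0 ≤ Q.ord a) (ha2 : ∀ Q ∈ T₁, -1 ≤ Q.ord a)
    (hb1 : ∀ Q, Q ∉ T₂ → 0 ≤ Q.ord b) (hb2 : ∀ Q ∈ T₂, -1 ≤ Q.ord b)
    (hnode : ∀ i, ∃ c : k, ValAt (s₁ i) a c ∧ ValAt (s₂ i) b c) :
    ∃ c : k, a = algebraMap k F₁ c ∧ b = algebraMap k F₂ c := by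
  set N₁ : Finset (Place k F₁) := Finset.univ.image s₁ with hN₁
  have hbot : riemannRochSpace (-sumPlaces N₁ + sumPlaces T₁) = ⊥ := by
    haveI := finite_riemannRochSpace h₁ (-sumPlaces N₁ + sumPlaces T₁)
    exact Submodule.finrank_eq_zero.mp hT₁ell
  -- `b` is constant
  obtain ⟨c, hc⟩ := eq_algebraMap_of_mem_of_ell_eq_one h₂ (sumPlaces_nonneg T₂) hT₂ell
    (mem_riemannRochSpace_sumPlaces hb1 hb2)
  refine ⟨c, ?_, hc⟩
  -- `a - c` vanishes at the nodes
  have hval : ∀ i, ValAt (s₁ i) a c := by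
    intro i
    obtain ⟨c', h1, h2⟩ := hnode i
    rw [hc, valAt_algebraMap_iff] at h2
    rw [h2]
    exact h1
  by_contra hne
  have hf0 : a - algebraMap k F₁ c ≠ 0 := sub_ne_zero.mpr hne
  have hmem : a - algebraMap k F₁ c ∈ riemannRochSpace (-sumPlaces N₁ + sumPlaces T₁) := by
    rw [mem_riemannRochSpace_iff]
    intro Q
    right
    rw [Finsupp.add_apply, Finsupp.neg_apply, neg_add, neg_neg]
    -- bound for `ord (a - c)` from a bound `m ≤ 0` for `ord a`
    have hbound : ∀ m : ℤ, m ≤ 0 → m ≤ Q.ord a → m ≤ Q.ord (a - algebraMap k F₁ c) := by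
      intro m hm0 hma
      rcases eq_or_ne a 0 with rfl | ha
      · rw [zero_sub, nodal_ord_neg, Fermat.Agent.S24Res.ord_algebraMap]
        exact hm0
      rcases eq_or_ne c 0 with rfl | hc0
      · rw [map_zero, sub_zero]
        exact hma
      have hcne : -algebraMap k F₁ c ≠ 0 :=
        neg_ne_zero.mpr ((map_ne_zero (algebraMap k F₁)).mpr hc0)
      have hadd := Fermat.Agent.S24Res.ord_add_ge Q ha hcne (by rwa [← sub_eq_add_neg])
      rw [nodal_ord_neg, Fermat.Agent.S24Res.ord_algebraMap, ← sub_eq_add_neg] at hadd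
      exact le_trans (le_min hma hm0) hadd
    by_cases hQN : Q ∈ N₁
    · obtain ⟨i, -, rfl⟩ := Finset.mem_image.mp hQN
      rw [sumPlaces_apply_of_mem hQN, sumPlaces_apply_of_not_mem (hnode₁ i)]
      rcases hval i with h | h
      · exact absurd h hne
      · omega
    · rw [sumPlaces_apply_of_not_mem hQN]
      by_cases hQT : Q ∈ T₁
      · rw [sumPlaces_apply_of_mem hQT]
        have := hbound (-1) (by omega) (ha2 Q hQT)
        omega
      · rw [sumPlaces_apply_of_not_mem hQT]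
        have := hbound 0 le_rfl (ha1 Q hQT)
        omega
  rw [hbot, Submodule.mem_bot] at hmem
  exact hf0 hmem

/-- **N1: nodal non-special points.** -/
theorem exists_nodal_nonspecial {k F₁ F₂ ι : Type*} [Field k] [Field F₁] [Algebra k F₁]
    [Field F₂] [Algebra k F₂] [IsAlgClosed k] [Fintype ι] [Nonempty ι]
    (h₁ : IsRRField k F₁) (h₂ : IsRRField k F₂)
    (s₁ : ι → Place k F₁) (s₂ : ι → Place k F₂) (hs₁ : Function.Injective s₁)
    (_hs₂ : Function.Injective s₂)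
    (Z₁ : Finset (Place k F₁)) (Z₂ : Finset (Place k F₂)) :
    ∃ (T₁ : Finset (Place k F₁)) (T₂ : Finset (Place k F₂)),
      T₁.card + T₂.card + 1 = genusFF k F₁ + genusFF k F₂ + Fintype.card ι ∧
      Disjoint T₁ Z₁ ∧ Disjoint T₂ Z₂ ∧ (∀ i, s₁ i ∉ T₁) ∧ (∀ i, s₂ i ∉ T₂) ∧
      ∀ (a : F₁) (b : F₂),
        (∀ Q, Q ∉ T₁ → 0 ≤ Q.ord a) → (∀ Q ∈ T₁, -1 ≤ Q.ord a) →
        (∀ Q, Q ∉ T₂ → 0 ≤ Q.ord b) → (∀ Q ∈ T₂, -1 ≤ Q.ord b) →
        (∀ i, ∃ c : k, ValAt (s₁ i) a c ∧ ValAt (s₂ i) b c) →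
        ∃ c : k, a = algebraMap k F₁ c ∧ b = algebraMap k F₂ c := by
  classical
  haveI : Infinite k := IsAlgClosed.instInfinite
  haveI : Infinite (Place k F₁) := infinite_place h₁
  haveI : Infinite (Place k F₂) := infinite_place h₂
  set N₁ : Finset (Place k F₁) := Finset.univ.image s₁ with hN₁
  set N₂ : Finset (Place k F₂) := Finset.univ.image s₂ with hN₂
  have hcard : 0 < Fintype.card ι := Fintype.card_pos
  -- second component: non-special points
  obtain ⟨T₂, hT₂Z, hT₂card, hT₂ell⟩ := exists_nonspecial h₂ (Z₂ ∪ N₂) (genusFF k F₂) le_rfl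
  -- first component: `ℓ(T₁ - nodes) = 0`
  have hdeg0 : Divisor.degree (-sumPlaces N₁) = -(Fintype.card ι : ℤ) := by
    rw [map_neg, degree_sumPlaces_image h₁ s₁ hs₁]
  have hell0 : ell (-sumPlaces N₁) = 0 :=
    ell_eq_zero_of_degree_neg h₁ (by rw [hdeg0]; omega)
  obtain ⟨T₁, hT₁Z, hT₁card, hT₁ell⟩ := exists_sumPlaces_ell_eq_zero h₁ (-sumPlaces N₁) hell0
    (Z₁ ∪ N₁) (genusFF k F₁ + Fintype.card ι - 1) (by
      rw [hdeg0]
      have : ((genusFF k F₁ + Fintype.card ι - 1 : ℕ) : ℤ) =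
          (genusFF k F₁ : ℤ) + (Fintype.card ι : ℤ) - 1 := by
        rw [Nat.cast_sub (by omega)]
        push_cast
        ring
      rw [this]
      omega)
  have hnode₁ : ∀ i, s₁ i ∉ T₁ := fun i hi =>
    Finset.disjoint_left.mp hT₁Z hi
      (Finset.mem_union_right _ (Finset.mem_image_of_mem s₁ (Finset.mem_univ i)))
  have hnode₂ : ∀ i, s₂ i ∉ T₂ := fun i hi =>
    Finset.disjoint_left.mp hT₂Z hi
      (Finset.mem_union_right _ (Finset.mem_image_of_mem s₂ (Finset.mem_univ i)))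
  refine ⟨T₁, T₂, ?_, ?_, ?_, hnode₁, hnode₂, ?_⟩
  · rw [hT₁card, hT₂card]
    omega
  · exact Finset.disjoint_of_subset_right Finset.subset_union_left hT₁Z
  · exact Finset.disjoint_of_subset_right Finset.subset_union_left hT₂Z
  · intro a b ha1 ha2 hb1 hb2 hnode
    exact nodal_pair_const h₁ h₂ s₁ s₂ hT₂ell hT₁ell hnode₁ a b ha1 ha2 hb1 hb2 hnode

/-- **N1 for a nodal setup**: `g = genusFF K F` smooth points of the special fibre, outside any
given finite sets, such that every nodal pair with at most simple poles there is constant. -/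
theorem NodalSetup.exists_nonspecial {K F k Fk₁ Fk₂ ι : Type*} [Field K] [Field F] [Algebra K F]
    [Field k] [Field Fk₁] [Algebra k Fk₁] [Field Fk₂] [Algebra k Fk₂] [IsAlgClosed k]
    [Fintype ι] [Nonempty ι] (N : NodalSetup K F k Fk₁ Fk₂ ι) (hg : N.GenusRel)
    (Z₁ : Finset (Place k Fk₁)) (Z₂ : Finset (Place k Fk₂)) :
    ∃ (T₁ : Finset (Place k Fk₁)) (T₂ : Finset (Place k Fk₂)),
      T₁.card + T₂.card = genusFF K F ∧
      Disjoint T₁ Z₁ ∧ Disjoint T₂ Z₂ ∧ (∀ i, N.s₁ i ∉ T₁) ∧ (∀ i, N.s₂ i ∉ T₂) ∧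
      ∀ (a : Fk₁) (b : Fk₂),
        (∀ Q, Q ∉ T₁ → 0 ≤ Q.ord a) → (∀ Q ∈ T₁, -1 ≤ Q.ord a) →
        (∀ Q, Q ∉ T₂ → 0 ≤ Q.ord b) → (∀ Q ∈ T₂, -1 ≤ Q.ord b) →
        N.IsNodalFn a b →
        ∃ c : k, a = algebraMap k Fk₁ c ∧ b = algebraMap k Fk₂ c := by
  obtain ⟨T₁, T₂, hcard, hZ₁, hZ₂, hn₁, hn₂, hns⟩ :=
    exists_nodal_nonspecial N.S₁.hFk N.S₂.hFk N.s₁ N.s₂ N.s₁_inj N.s₂_inj Z₁ Z₂
  refine ⟨T₁, T₂, ?_, hZ₁, hZ₂, hn₁, hn₂, ?_⟩
  · have := hg
    unfold NodalSetup.GenusRel at this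
    omega
  · intro a b ha1 ha2 hb1 hb2 hnod
    exact hns a b ha1 ha2 hb1 hb2 (fun i => (hnod i).2.2)

end Fermat.Agent.BadRed
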