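import Mathlib
import Fermat.Agent.Lib.BadRed.Nodal.NS

set_option autoImplicit false
set_option linter.style.haveILetI false
set_option linter.unusedSectionVars false

/-!
# Cluster T, WP N1 (greedy form): nodal non-special points chosen one by one

`exists_nodal_nonspecial_list`: the nodal non-special points can be chosen ONE BY ONE, each new
point avoiding a finite set `avoid (points already chosen)`; the result is a list in REVERSE
chronological order (`GreedyChain avoid (x :: l)` iff `x ∉ avoid l.toFinset` and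
`GreedyChain avoid l`).  `exists_nodal_nonspecial_fin`: the same as a family `Rb : Fin g → _` in
chronological order.
-/

noncomputable section

open AlgebraicCurve

namespace Fermat.Agent.BadRed

open Fermat.Agent.RR

open Classical in
/-- `l` (reverse chronological order) is a greedy chain over `base` for `avoid`: every element
avoids `avoid` of the elements chosen before it (the elements after it in `l`, and `base`). -/
def GreedyChainOver {β : Type*} (avoid : Finset β → Finset β) (base : List β) : List β → Prop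
  | [] => True
  | x :: l => x ∉ avoid (l ++ base).toFinset ∧ GreedyChainOver avoid base l

/-- greedy chains (reverse chronological order). -/
def GreedyChain {β : Type*} (avoid : Finset β → Finset β) (l : List β) : Prop :=
  GreedyChainOver avoid [] l

theorem greedyChainOver_nil {β : Type*} (avoid : Finset β → Finset β) (base : List β) :
    GreedyChainOver avoid base [] := trivial

open Classical in
theorem greedyChainOver_cons {β : Type*} (avoid : Finset β → Finset β) (base : List β) (x : β)
    (l : List β) :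
    GreedyChainOver avoid base (x :: l) ↔
      x ∉ avoid (l ++ base).toFinset ∧ GreedyChainOver avoid base l := Iff.rfl

theorem GreedyChainOver.append {β : Type*} {avoid : Finset β → Finset β} {base l : List β}
    (hl : GreedyChainOver avoid base l) (hb : GreedyChain avoid base) :
    GreedyChain avoid (l ++ base) := by
  induction l with
  | nil => exact hb
  | cons x l ih =>
    rw [greedyChainOver_cons] at hl
    show GreedyChainOver avoid [] (x :: (l ++ base))
    rw [greedyChainOver_cons, List.append_nil]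
    exact ⟨hl.1, ih hl.2⟩

variable {K F : Type*} [Field K] [Field F] [Algebra K F]

open Classical in
/-- greedy choice of `n` places, each avoiding a finite set depending on the previous choices,
keeping `ℓ` constant. -/
theorem exists_greedy_list (h : IsRRField K F) [Infinite (Place K F)] {β : Type*}
    (emb : Place K F → β) (hemb : Function.Injective emb) (avoid : Finset β → Finset β)
    (base : List β) (Z : Finset (Place K F)) (D₀ : Divisor K F) (n : ℕ)
    (hn : Divisor.degree D₀ + n - (genusFF K F : ℤ) < (ell D₀ : ℤ)) :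
    ∃ l : List (Place K F), l.length = n ∧ l.Nodup ∧ (∀ Q ∈ l, Q ∉ Z) ∧
      GreedyChainOver avoid base (l.map emb) ∧ ell (D₀ + sumPlaces l.toFinset) = ell D₀ := by
  induction n with
  | zero =>
    refine ⟨[], rfl, List.nodup_nil, by simp, trivial, ?_⟩
    rw [List.toFinset_nil, sumPlaces_empty, add_zero]
  | succ n ih =>
    obtain ⟨l, hlen, hnd, hZ, hchain, hell⟩ := ih (by push_cast at hn ⊢; omega)
    have hD : Divisor.degree (D₀ + sumPlaces l.toFinset) + 1 - (genusFF K F : ℤ) <
        (ell (D₀ + sumPlaces l.toFinset) : ℤ) := by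
      rw [map_add, degree_sumPlaces h, List.toFinset_card_of_nodup hnd, hlen, hell]
      push_cast at hn ⊢
      omega
    obtain ⟨P, hP, hPell⟩ := exists_place_ell_add_single_eq h (D₀ + sumPlaces l.toFinset) hD
      (Z ∪ l.toFinset ∪ (avoid ((l.map emb) ++ base).toFinset).preimage emb hemb.injOn)
    rw [Finset.mem_union, Finset.mem_union, not_or, not_or, Finset.mem_preimage,
      List.mem_toFinset] at hP
    obtain ⟨⟨hPZ, hPl⟩, hPav⟩ := hP
    refine ⟨P :: l, by rw [List.length_cons, hlen], List.nodup_cons.mpr ⟨hPl, hnd⟩, ?_, ?_, ?_⟩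
    · intro Q hQ
      rcases List.mem_cons.mp hQ with rfl | hQ
      · exact hPZ
      · exact hZ Q hQ
    · rw [List.map_cons, greedyChainOver_cons]
      exact ⟨hPav, hchain⟩
    · rw [List.toFinset_cons, ← Finset.cons_eq_insert _ _ (by rwa [List.mem_toFinset]),
        sumPlaces_cons, ← add_assoc, hPell, hell]

theorem GreedyChainOver.nil_base {β : Type*} {avoid : Finset β → Finset β} {l : List β}
    (hl : GreedyChainOver avoid [] l) : GreedyChain avoid l := hl

open Classical in
/-- **N1, greedy list form**: the nodal non-special points can be chosen one by one, each new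
point avoiding `avoid (points already chosen)` (list in reverse chronological order). -/
theorem exists_nodal_nonspecial_list {k F₁ F₂ ι : Type*} [Field k] [Field F₁] [Algebra k F₁]
    [Field F₂] [Algebra k F₂] [IsAlgClosed k] [Fintype ι] [Nonempty ι]
    (h₁ : IsRRField k F₁) (h₂ : IsRRField k F₂)
    (s₁ : ι → Place k F₁) (s₂ : ι → Place k F₂) (hs₁ : Function.Injective s₁)
    (avoid : Finset (Place k F₁ ⊕ Place k F₂) → Finset (Place k F₁ ⊕ Place k F₂)) :
    ∃ l : List (Place k F₁ ⊕ Place k F₂),
      l.length + 1 = genusFF k F₁ + genusFF k F₂ + Fintype.card ι ∧ l.Nodup ∧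
      GreedyChain avoid l ∧
      (∀ i, Sum.inl (s₁ i) ∉ l) ∧ (∀ i, Sum.inr (s₂ i) ∉ l) ∧
      ∀ (a : F₁) (b : F₂),
        (∀ Q : Place k F₁, Sum.inl Q ∉ l → 0 ≤ Q.ord a) → (∀ Q : Place k F₁, -1 ≤ Q.ord a) →
        (∀ Q : Place k F₂, Sum.inr Q ∉ l → 0 ≤ Q.ord b) → (∀ Q : Place k F₂, -1 ≤ Q.ord b) →
        (∀ i, ∃ c : k, ValAt (s₁ i) a c ∧ ValAt (s₂ i) b c) →
        ∃ c : k, a = algebraMap k F₁ c ∧ b = algebraMap k F₂ c := by
  haveI : Infinite k := IsAlgClosed.instInfinite
  haveI : Infinite (Place k F₁) := infinite_place h₁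
  haveI : Infinite (Place k F₂) := infinite_place h₂
  set N₁ : Finset (Place k F₁) := Finset.univ.image s₁ with hN₁
  set N₂ : Finset (Place k F₂) := Finset.univ.image s₂ with hN₂
  have hcard : 0 < Fintype.card ι := Fintype.card_pos
  -- second component
  obtain ⟨l₂, hlen₂, hnd₂, hZ₂, hchain₂, hell₂⟩ := exists_greedy_list h₂ Sum.inr
    Sum.inr_injective avoid [] N₂ 0 (genusFF k F₂) (by
      rw [map_zero, ell_zero h₂]
      push_cast
      omega)
  rw [zero_add, ell_zero h₂] at hell₂
  -- first component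
  have hdeg0 : Divisor.degree (-sumPlaces N₁) = -(Fintype.card ι : ℤ) := by
    rw [map_neg, degree_sumPlaces_image h₁ s₁ hs₁]
  have hell0 : ell (-sumPlaces N₁) = 0 :=
    ell_eq_zero_of_degree_neg h₁ (by rw [hdeg0]; omega)
  obtain ⟨l₁, hlen₁, hnd₁, hZ₁, hchain₁, hell₁⟩ := exists_greedy_list h₁ Sum.inl
    Sum.inl_injective avoid (l₂.map Sum.inr) N₁ (-sumPlaces N₁)
    (genusFF k F₁ + Fintype.card ι - 1) (by
      rw [hdeg0, hell0]
      have : ((genusFF k F₁ + Fintype.card ι - 1 : ℕ) : ℤ) =
          (genusFF k F₁ : ℤ) + (Fintype.card ι : ℤ) - 1 := by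
        rw [Nat.cast_sub (by omega)]
        push_cast
        ring
      rw [this]
      push_cast
      omega)
  rw [hell0] at hell₁
  have hmem₁ : ∀ Q : Place k F₁, Sum.inl Q ∈ l₁.map Sum.inl ++ l₂.map Sum.inr ↔ Q ∈ l₁ := by
    intro Q
    simp
  have hmem₂ : ∀ Q : Place k F₂, Sum.inr Q ∈ l₁.map Sum.inl ++ l₂.map Sum.inr ↔ Q ∈ l₂ := by
    intro Q
    simp
  refine ⟨l₁.map Sum.inl ++ l₂.map Sum.inr, ?_, ?_, ?_, ?_, ?_, ?_⟩
  · rw [List.length_append, List.length_map, List.length_map, hlen₁, hlen₂]
    omega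
  · refine List.Nodup.append (hnd₁.map Sum.inl_injective) (hnd₂.map Sum.inr_injective) ?_
    intro x hx₁ hx₂
    obtain ⟨Q₁, -, rfl⟩ := List.mem_map.mp hx₁
    obtain ⟨Q₂, -, h⟩ := List.mem_map.mp hx₂
    exact Sum.inr_ne_inl h
  · exact hchain₁.append hchain₂.nil_base
  · intro i hi
    rw [hmem₁] at hi
    exact hZ₁ _ hi (Finset.mem_image_of_mem s₁ (Finset.mem_univ i))
  · intro i hi
    rw [hmem₂] at hi
    exact hZ₂ _ hi (Finset.mem_image_of_mem s₂ (Finset.mem_univ i))
  · intro a b ha1 ha2 hb1 hb2 hnode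
    refine nodal_pair_const h₁ h₂ s₁ s₂ (T₁ := l₁.toFinset) (T₂ := l₂.toFinset) hell₂ hell₁
      ?_ a b ?_ ?_ ?_ ?_ hnode
    · intro i hi
      rw [List.mem_toFinset] at hi
      exact hZ₁ _ hi (Finset.mem_image_of_mem s₁ (Finset.mem_univ i))
    · intro Q hQ
      rw [List.mem_toFinset] at hQ
      exact ha1 Q (by rwa [hmem₁])
    · intro Q _
      exact ha2 Q
    · intro Q hQ
      rw [List.mem_toFinset] at hQ
      exact hb1 Q (by rwa [hmem₂])
    · intro Q _
      exact hb2 Q

open Classical in
/-- in a greedy chain every element avoids `avoid` of the elements after it. -/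
theorem GreedyChain.getElem_notMem {β : Type*} {avoid : Finset β → Finset β} {l : List β}
    (hl : GreedyChain avoid l) (p : ℕ) (hp : p < l.length) :
    l[p] ∉ avoid (l.drop (p + 1)).toFinset := by
  induction l generalizing p with
  | nil => simp at hp
  | cons x l ih =>
    have hl' : x ∉ avoid (l ++ []).toFinset ∧ GreedyChainOver avoid [] l := hl
    rw [List.append_nil] at hl'
    cases p with
    | zero => simpa using hl'.1
    | succ p =>
      have := ih hl'.2 p (by simpa using hp)
      simpa using this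

open Classical in
/-- **N1, greedy form, indexed chronologically**: `Rb i` avoids `avoid {Rb j | j < i}`. -/
theorem exists_nodal_nonspecial_fin {k F₁ F₂ ι : Type*} [Field k] [Field F₁] [Algebra k F₁]
    [Field F₂] [Algebra k F₂] [IsAlgClosed k] [Fintype ι] [Nonempty ι]
    (h₁ : IsRRField k F₁) (h₂ : IsRRField k F₂)
    (s₁ : ι → Place k F₁) (s₂ : ι → Place k F₂) (hs₁ : Function.Injective s₁)
    (avoid : Finset (Place k F₁ ⊕ Place k F₂) → Finset (Place k F₁ ⊕ Place k F₂))
    (g : ℕ) (hg : g + 1 = genusFF k F₁ + genusFF k F₂ + Fintype.card ι) :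
    ∃ Rb : Fin g → Place k F₁ ⊕ Place k F₂,
      Function.Injective Rb ∧
      (∀ i, Rb i ∉ avoid ((Finset.univ.filter (fun j => j < i)).image Rb)) ∧
      (∀ i j, Rb i ≠ Sum.inl (s₁ j)) ∧ (∀ i j, Rb i ≠ Sum.inr (s₂ j)) ∧
      ∀ (a : F₁) (b : F₂),
        (∀ Q : Place k F₁, (∀ i, Rb i ≠ Sum.inl Q) → 0 ≤ Q.ord a) →
        (∀ Q : Place k F₁, -1 ≤ Q.ord a) →
        (∀ Q : Place k F₂, (∀ i, Rb i ≠ Sum.inr Q) → 0 ≤ Q.ord b) →
        (∀ Q : Place k F₂, -1 ≤ Q.ord b) →
        (∀ i, ∃ c : k, ValAt (s₁ i) a c ∧ ValAt (s₂ i) b c) →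
        ∃ c : k, a = algebraMap k F₁ c ∧ b = algebraMap k F₂ c := by
  obtain ⟨l, hlen, hnd, hchain, hn₁, hn₂, hns⟩ :=
    exists_nodal_nonspecial_list h₁ h₂ s₁ s₂ hs₁ avoid
  have hlg : l.length = g := by omega
  have hidx : ∀ i : Fin g, g - 1 - (i : ℕ) < l.length := fun i => by
    have := i.2
    omega
  set Rb : Fin g → Place k F₁ ⊕ Place k F₂ := fun i => l[g - 1 - (i : ℕ)]'(hidx i) with hRb
  have hRb_mem : ∀ i, Rb i ∈ l := fun i => List.getElem_mem _
  have hmem_Rb : ∀ x ∈ l, ∃ i, Rb i = x := by
    intro x hx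
    obtain ⟨q, hq, rfl⟩ := List.getElem_of_mem hx
    refine ⟨⟨g - 1 - q, by omega⟩, ?_⟩
    show l[g - 1 - (g - 1 - q)]'_ = l[q]
    congr 1
    omega
  refine ⟨Rb, ?_, ?_, ?_, ?_, ?_⟩
  · intro i j hij
    have h1 := (List.Nodup.getElem_inj_iff hnd).mp hij
    have hi := i.2
    have hj := j.2
    apply Fin.ext
    omega
  · intro i
    have h1 := hchain.getElem_notMem (g - 1 - (i : ℕ)) (hidx i)
    have h2 : (Finset.univ.filter (fun j => j < i)).image Rb =
        (l.drop (g - 1 - (i : ℕ) + 1)).toFinset := by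
      ext x
      rw [Finset.mem_image, List.mem_toFinset]
      constructor
      · rintro ⟨j, hj, rfl⟩
        rw [Finset.mem_filter] at hj
        have hji : (j : ℕ) < (i : ℕ) := hj.2
        have hi := i.2
        rw [List.mem_iff_getElem]
        refine ⟨(i : ℕ) - 1 - (j : ℕ), ?_, ?_⟩
        · rw [List.length_drop]
          omega
        · rw [List.getElem_drop]
          show l[_] = l[_]
          congr 1
          omega
      · intro hx
        rw [List.mem_iff_getElem] at hx
        obtain ⟨q, hq, rfl⟩ := hx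
        rw [List.length_drop] at hq
        have hi := i.2
        refine ⟨⟨(i : ℕ) - 1 - q, by omega⟩, ?_, ?_⟩
        · rw [Finset.mem_filter]
          refine ⟨Finset.mem_univ _, ?_⟩
          show (i : ℕ) - 1 - q < (i : ℕ)
          omega
        · rw [List.getElem_drop]
          show l[_] = l[_]
          congr 1
          show g - 1 - ((i : ℕ) - 1 - q) = g - 1 - (i : ℕ) + 1 + q
          omega
    rw [h2]
    convert h1
  · intro i j h
    exact hn₁ j (h ▸ hRb_mem i)
  · intro i j h
    exact hn₂ j (h ▸ hRb_mem i)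
  · intro a b ha1 ha2 hb1 hb2 hnode
    refine hns a b ?_ ha2 ?_ hb2 hnode
    · intro Q hQ
      apply ha1 Q
      intro i hi
      exact hQ (hi ▸ hRb_mem i)
    · intro Q hQ
      apply hb1 Q
      intro i hi
      exact hQ (hi ▸ hRb_mem i)

end Fermat.Agent.BadRed
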