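import Mathlib
import Fermat.Agent.S18.NSBuild
import Fermat.Agent.Lib.BadRed.Nodal.NSDef
import Fermat.Agent.Lib.BadRed.Nodal.NSGreedy
import Fermat.Agent.Lib.BadRed.Nodal.RRNodal
import Fermat.Agent.Lib.BadRed.Nodal.Interp1

set_option autoImplicit false
set_option linter.style.haveILetI false
set_option linter.unusedSectionVars false

/-!
# Cluster T, WP N2b: construction of `NodalNS` from the lifting property (LIFT) (helper7)

Input: a nodal reduction package `N` with the genus relation, divisors `D₀` on the generic fibre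
and `R₁`, `R₂` of positive degree on the two components, away from the nodes, and

* (LIFT) for `m ≥ m₀` every pair of `nodalRR s₁ s₂ (m R₁) (m R₂)` is the pair reduction of a
  function of `L(m D₀) ∩ O₁ ∩ O₂`   (`NodalSeed.exists_lift`, N4 step S1).

Output: `Nonempty (NodalNS N (genusFF K F))`.  No base function and no hypothesis on the
reduction of the support of `D₀` is needed: the points `Rb i` (N1, `exists_nodal_nonspecial_fin`)
are chosen outside the supports of `R₁`, `R₂` and outside the (finite) image under `r` of the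
support of `D₀`; the parameter `t i` is a lift of an interpolated nodal pair `(a, b)` (helper92's
`Interp1.exists_param`, `Interp1.exists_unit_fn`): `a`, `b` vanish at the nodes, the pair has a
simple zero at `Rb i` and is a unit at the `Rb j`, `j ≠ i`; `R i` is the zero of `t i` in the disc
of `Rb i` (`push`).
-/

noncomputable section

open AlgebraicCurve Fermat.Agent.RR Fermat.Agent.Deuring

namespace Fermat.Agent.BadRed

variable {K F k Fk₁ Fk₂ : Type*} [Field K] [Field F] [Algebra K F]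
  [Field k] [Field Fk₁] [Algebra k Fk₁] [Field Fk₂] [Algebra k Fk₂] {ι : Type*}

variable (N : NodalSetup K F k Fk₁ Fk₂ ι)

/-- a unit of both valuation rings has a zero in the residue disc of a smooth point where its
pair reduction vanishes. -/
theorem NodalSetup.exists_zero_of_pairOrd_pos {f : F} (h₁ : N.S₁.red f ≠ 0)
    (h₂ : N.S₂.red f ≠ 0) (Q : Place k Fk₁ ⊕ Place k Fk₂)
    (hn₁ : ∀ i, Q ≠ Sum.inl (N.s₁ i)) (hn₂ : ∀ i, Q ≠ Sum.inr (N.s₂ i))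
    (hQ : 0 < pairOrd Q (N.S₁.red f) (N.S₂.red f)) :
    ∃ R : Place K F, N.r R = some Q ∧ 0 < R.ord f := by
  rcases Q with Q | Q
  · have hpush := N.push₁ f (N.S₁.mem_of_red_ne_zero h₁) (N.S₁.inv_mem_of_red_ne_zero h₁)
      (N.S₁.ne_zero_of_red_ne_zero h₁) Q (fun i h => hn₁ i (h ▸ rfl))
    obtain ⟨R, hR, hpos⟩ := Fermat.Agent.S18Key.exists_of_mapDomain_pos N.r _ _
      (by rw [hpush]; exact hQ)
    rw [divOf_apply] at hpos
    exact ⟨R, hR, hpos⟩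
  · have hpush := N.push₂ f (N.S₂.mem_of_red_ne_zero h₂) (N.S₂.inv_mem_of_red_ne_zero h₂)
      (N.S₂.ne_zero_of_red_ne_zero h₂) Q (fun i h => hn₂ i (h ▸ rfl))
    obtain ⟨R, hR, hpos⟩ := Fermat.Agent.S18Key.exists_of_mapDomain_pos N.r _ _
      (by rw [hpush]; exact hQ)
    rw [divOf_apply] at hpos
    exact ⟨R, hR, hpos⟩

/-- the interpolated nodal pair at `Rb i`: both functions vanish at the nodes, the pair has a
simple zero at `Rb i` and order `0` at the other `Rb j`. -/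
theorem NodalSetup.exists_pair_at [Infinite k] [Fintype ι] {g : ℕ}
    (Rb : Fin g → Place k Fk₁ ⊕ Place k Fk₂) (hinj : Function.Injective Rb)
    (R₁ : Divisor k Fk₁) (R₂ : Divisor k Fk₂)
    (hn₁ : ∀ i, R₁ (N.s₁ i) = 0) (hn₂ : ∀ i, R₂ (N.s₂ i) = 0)
    (hRb₁ : ∀ i Q, Rb i = Sum.inl Q → R₁ Q = 0) (hRb₂ : ∀ i Q, Rb i = Sum.inr Q → R₂ Q = 0)
    (hnode₁ : ∀ i j, Rb i ≠ Sum.inl (N.s₁ j)) (hnode₂ : ∀ i j, Rb i ≠ Sum.inr (N.s₂ j))
    (hdeg₁ : 2 * (genusFF k Fk₁ : ℤ) + Fintype.card ι < Divisor.degree R₁)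
    (hdeg₂ : 2 * (genusFF k Fk₂ : ℤ) + Fintype.card ι < Divisor.degree R₂) (i : Fin g) :
    ∃ (a : Fk₁) (b : Fk₂), a ≠ 0 ∧ b ≠ 0 ∧ (a, b) ∈ nodalRR N.s₁ N.s₂ R₁ R₂ ∧
      pairOrd (Rb i) a b = 1 ∧ ∀ j, j ≠ i → pairOrd (Rb j) a b = 0 := by
  classical
  set Z₁ : Finset (Place k Fk₁) := Finset.univ.image N.s₁ with hZ₁
  set Z₂ : Finset (Place k Fk₂) := Finset.univ.image N.s₂ with hZ₂
  set U₁ : Finset (Place k Fk₁) := ((Finset.univ.erase i).image Rb).toLeft with hU₁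
  set U₂ : Finset (Place k Fk₂) := ((Finset.univ.erase i).image Rb).toRight with hU₂
  have hcard₁ : (Z₁.card : ℤ) ≤ Fintype.card ι := by
    exact_mod_cast (Finset.card_image_le).trans (le_of_eq Finset.card_univ)
  have hcard₂ : (Z₂.card : ℤ) ≤ Fintype.card ι := by
    exact_mod_cast (Finset.card_image_le).trans (le_of_eq Finset.card_univ)
  have hmemZ₁ : ∀ P, P ∈ Z₁ ↔ ∃ j, N.s₁ j = P := fun P => by
    rw [hZ₁, Finset.mem_image]
    exact ⟨fun ⟨j, _, h⟩ => ⟨j, h⟩, fun ⟨j, h⟩ => ⟨j, Finset.mem_univ _, h⟩⟩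
  have hmemZ₂ : ∀ P, P ∈ Z₂ ↔ ∃ j, N.s₂ j = P := fun P => by
    rw [hZ₂, Finset.mem_image]
    exact ⟨fun ⟨j, _, h⟩ => ⟨j, h⟩, fun ⟨j, h⟩ => ⟨j, Finset.mem_univ _, h⟩⟩
  have hmemU₁ : ∀ P, P ∈ U₁ ↔ ∃ j, j ≠ i ∧ Rb j = Sum.inl P := fun P => by
    rw [hU₁, Finset.mem_toLeft, Finset.mem_image]
    constructor
    · rintro ⟨j, hj, h⟩
      exact ⟨j, (Finset.mem_erase.mp hj).1, h⟩
    · rintro ⟨j, hj, h⟩
      exact ⟨j, Finset.mem_erase.mpr ⟨hj, Finset.mem_univ _⟩, h⟩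
  have hmemU₂ : ∀ P, P ∈ U₂ ↔ ∃ j, j ≠ i ∧ Rb j = Sum.inr P := fun P => by
    rw [hU₂, Finset.mem_toRight, Finset.mem_image]
    constructor
    · rintro ⟨j, hj, h⟩
      exact ⟨j, (Finset.mem_erase.mp hj).1, h⟩
    · rintro ⟨j, hj, h⟩
      exact ⟨j, Finset.mem_erase.mpr ⟨hj, Finset.mem_univ _⟩, h⟩
  have hZR₁ : ∀ P ∈ Z₁, R₁ P = 0 := fun P hP => by
    obtain ⟨j, rfl⟩ := (hmemZ₁ P).mp hP
    exact hn₁ j
  have hZR₂ : ∀ P ∈ Z₂, R₂ P = 0 := fun P hP => by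
    obtain ⟨j, rfl⟩ := (hmemZ₂ P).mp hP
    exact hn₂ j
  have hUR₁ : ∀ P ∈ U₁, R₁ P = 0 ∧ P ∉ Z₁ := fun P hP => by
    obtain ⟨j, -, hj⟩ := (hmemU₁ P).mp hP
    refine ⟨hRb₁ j P hj, fun hZ => ?_⟩
    obtain ⟨j', rfl⟩ := (hmemZ₁ P).mp hZ
    exact hnode₁ j j' hj
  have hUR₂ : ∀ P ∈ U₂, R₂ P = 0 ∧ P ∉ Z₂ := fun P hP => by
    obtain ⟨j, -, hj⟩ := (hmemU₂ P).mp hP
    refine ⟨hRb₂ j P hj, fun hZ => ?_⟩
    obtain ⟨j', rfl⟩ := (hmemZ₂ P).mp hZ
    exact hnode₂ j j' hj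
  have hval₁ : ∀ a : Fk₁, (∀ P ∈ Z₁, 0 < P.ord a) → ∀ j, ValAt (N.s₁ j) a 0 := fun a ha j =>
    (valAt_zero_right_iff _ _).mpr (Or.inr (ha _ ((hmemZ₁ _).mpr ⟨j, rfl⟩)))
  have hval₂ : ∀ b : Fk₂, (∀ P ∈ Z₂, 0 < P.ord b) → ∀ j, ValAt (N.s₂ j) b 0 := fun b hb j =>
    (valAt_zero_right_iff _ _).mpr (Or.inr (hb _ ((hmemZ₂ _).mpr ⟨j, rfl⟩)))
  rcases hi : Rb i with Q | Q
  · obtain ⟨a, haR, ha0, haZ, haQ, haU⟩ := Interp1.exists_param N.S₁.hFk R₁ Z₁ U₁ Q hZR₁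
      (fun P hP => ⟨(hUR₁ P hP).1, (hUR₁ P hP).2, fun hPQ => by
        obtain ⟨j, hji, hj⟩ := (hmemU₁ P).mp hP
        rw [hPQ, ← hi] at hj
        exact hji (hinj hj)⟩)
      ⟨hRb₁ i Q hi, fun hZ => by
        obtain ⟨j', hj'⟩ := (hmemZ₁ Q).mp hZ
        exact hnode₁ i j' (hj' ▸ hi)⟩ (by omega)
    obtain ⟨b, hbR, hb0, hbZ, hbU⟩ := Interp1.exists_unit_fn N.S₂.hFk R₂ Z₂ U₂ hZR₂ hUR₂
      (by omega)
    refine ⟨a, b, ha0, hb0, ⟨haR, hbR, fun j => ⟨0, hval₁ a haZ j, hval₂ b hbZ j⟩⟩, haQ, ?_⟩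
    intro j hj
    rcases hRj : Rb j with P | P
    · exact haU P ((hmemU₁ P).mpr ⟨j, hj, hRj⟩)
    · exact hbU P ((hmemU₂ P).mpr ⟨j, hj, hRj⟩)
  · obtain ⟨b, hbR, hb0, hbZ, hbQ, hbU⟩ := Interp1.exists_param N.S₂.hFk R₂ Z₂ U₂ Q hZR₂
      (fun P hP => ⟨(hUR₂ P hP).1, (hUR₂ P hP).2, fun hPQ => by
        obtain ⟨j, hji, hj⟩ := (hmemU₂ P).mp hP
        rw [hPQ, ← hi] at hj
        exact hji (hinj hj)⟩)
      ⟨hRb₂ i Q hi, fun hZ => by
        obtain ⟨j', hj'⟩ := (hmemZ₂ Q).mp hZ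
        exact hnode₂ i j' (hj' ▸ hi)⟩ (by omega)
    obtain ⟨a, haR, ha0, haZ, haU⟩ := Interp1.exists_unit_fn N.S₁.hFk R₁ Z₁ U₁ hZR₁ hUR₁
      (by omega)
    refine ⟨a, b, ha0, hb0, ⟨haR, hbR, fun j => ⟨0, hval₁ a haZ j, hval₂ b hbZ j⟩⟩, hbQ, ?_⟩
    intro j hj
    rcases hRj : Rb j with P | P
    · exact haU P ((hmemU₁ P).mpr ⟨j, hj, hRj⟩)
    · exact hbU P ((hmemU₂ P).mpr ⟨j, hj, hRj⟩)

/-- the lifting property (LIFT) for the divisors `D₀`, `R₁`, `R₂`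
(`NodalSeed.exists_lift`). -/
def NodalSetup.HasLift (D₀ : Divisor K F) (R₁ : Divisor k Fk₁) (R₂ : Divisor k Fk₂) : Prop :=
  ∃ m₀ : ℕ, ∀ m : ℕ, m₀ ≤ m → ∀ (a : Fk₁) (b : Fk₂),
    (a, b) ∈ nodalRR N.s₁ N.s₂ (m • R₁) (m • R₂) →
    ∃ f : F, f ∈ riemannRochSpace (m • D₀) ∧ f ∈ N.S₁.Ov ∧ f ∈ N.S₂.Ov ∧
      N.S₁.red f = a ∧ N.S₂.red f = b

open Classical in
/-- the points of `C₁ ⊔ C₂` to avoid: the supports of `R₁`, `R₂` and the reductions of the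
points of the support of `D₀`. -/
def NodalSetup.liftAvoid (D₀ : Divisor K F) (R₁ : Divisor k Fk₁) (R₂ : Divisor k Fk₂) :
    Finset (Place k Fk₁ ⊕ Place k Fk₂) :=
  R₁.support.image Sum.inl ∪ R₂.support.image Sum.inr ∪
    (D₀.support.image N.r).eraseNone

theorem NodalSetup.notMem_liftAvoid {D₀ : Divisor K F} {R₁ : Divisor k Fk₁}
    {R₂ : Divisor k Fk₂} {X : Place k Fk₁ ⊕ Place k Fk₂} (h : X ∉ N.liftAvoid D₀ R₁ R₂) :
    (∀ Q, X = Sum.inl Q → R₁ Q = 0) ∧ (∀ Q, X = Sum.inr Q → R₂ Q = 0) ∧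
      ∀ P, N.r P = some X → D₀ P = 0 := by
  classical
  unfold NodalSetup.liftAvoid at h
  rw [Finset.mem_union, Finset.mem_union, not_or, not_or] at h
  obtain ⟨⟨h1, h2⟩, h3⟩ := h
  refine ⟨fun Q hQ => ?_, fun Q hQ => ?_, fun P hP => ?_⟩
  · by_contra hne
    exact h1 (Finset.mem_image.mpr ⟨Q, Finsupp.mem_support_iff.mpr hne, hQ.symm⟩)
  · by_contra hne
    exact h2 (Finset.mem_image.mpr ⟨Q, Finsupp.mem_support_iff.mpr hne, hQ.symm⟩)
  · by_contra hne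
    apply h3
    rw [Finset.mem_eraseNone]
    exact Finset.mem_image.mpr ⟨P, Finsupp.mem_support_iff.mpr hne, hP⟩

/-- **N2b, lifting form: construction of `NodalNS` from (LIFT).** -/
theorem NodalSetup.nonempty_nodalNS_of_lift [IsAlgClosed k] [Fintype ι] [Nonempty ι]
    (hg : N.GenusRel) (D₀ : Divisor K F) (R₁ : Divisor k Fk₁) (R₂ : Divisor k Fk₂)
    (hR₁ : 0 < Divisor.degree R₁) (hR₂ : 0 < Divisor.degree R₂)
    (hn₁ : ∀ i, R₁ (N.s₁ i) = 0) (hn₂ : ∀ i, R₂ (N.s₂ i) = 0)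
    (hlift : N.HasLift D₀ R₁ R₂) : Nonempty (NodalNS N (genusFF K F)) := by
  classical
  haveI : Infinite k := IsAlgClosed.instInfinite
  haveI : Infinite (Place k Fk₁) := infinite_place N.S₁.hFk
  obtain ⟨Rb, hinj, havoid, hnode₁, hnode₂, hns⟩ :=
    exists_nodal_nonspecial_fin N.S₁.hFk N.S₂.hFk N.s₁ N.s₂ N.s₁_inj
      (fun _ => N.liftAvoid D₀ R₁ R₂) (genusFF K F) hg
  have hav := fun i => N.notMem_liftAvoid (havoid i)
  obtain ⟨m₀, hm₀⟩ := hlift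
  -- the multiple
  set m : ℕ := max m₀ (2 * (genusFF k Fk₁ + genusFF k Fk₂) + Fintype.card ι + 1) with hm
  have hm1 : m₀ ≤ m := le_max_left _ _
  have hm2 : 2 * (genusFF k Fk₁ + genusFF k Fk₂) + Fintype.card ι + 1 ≤ m := le_max_right _ _
  have hm2' : (2 * ((genusFF k Fk₁ : ℤ) + genusFF k Fk₂) + Fintype.card ι + 1 : ℤ) ≤ m := by
    exact_mod_cast hm2
  have hdeg₁ : 2 * (genusFF k Fk₁ : ℤ) + Fintype.card ι < Divisor.degree (m • R₁) := by
    rw [map_nsmul, nsmul_eq_mul]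
    have h3 : (m : ℤ) ≤ m * Divisor.degree R₁ := by
      have := Int.natCast_nonneg m
      nlinarith
    have := Int.natCast_nonneg (genusFF k Fk₂)
    omega
  have hdeg₂ : 2 * (genusFF k Fk₂ : ℤ) + Fintype.card ι < Divisor.degree (m • R₂) := by
    rw [map_nsmul, nsmul_eq_mul]
    have h3 : (m : ℤ) ≤ m * Divisor.degree R₂ := by
      have := Int.natCast_nonneg m
      nlinarith
    have := Int.natCast_nonneg (genusFF k Fk₁)
    omega
  -- the parameters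
  have hpar : ∀ i, ∃ t : F, t ∈ riemannRochSpace (m • D₀) ∧ t ∈ N.S₁.Ov ∧ t ∈ N.S₂.Ov ∧
      N.S₁.red t ≠ 0 ∧ N.S₂.red t ≠ 0 ∧ pairOrd (Rb i) (N.S₁.red t) (N.S₂.red t) = 1 ∧
        ∀ j, j ≠ i → pairOrd (Rb j) (N.S₁.red t) (N.S₂.red t) = 0 := by
    intro i
    obtain ⟨a, b, ha0, hb0, hab, hself, hother⟩ := N.exists_pair_at Rb hinj (m • R₁) (m • R₂)
      (fun j => by rw [Finsupp.smul_apply, hn₁ j, smul_zero])
      (fun j => by rw [Finsupp.smul_apply, hn₂ j, smul_zero])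
      (fun j Q hQ => by rw [Finsupp.smul_apply, (hav j).1 Q hQ, smul_zero])
      (fun j Q hQ => by rw [Finsupp.smul_apply, (hav j).2.1 Q hQ, smul_zero])
      hnode₁ hnode₂ hdeg₁ hdeg₂ i
    obtain ⟨t, ht, ht₁, ht₂, hra, hrb⟩ := hm₀ m hm1 a b hab
    refine ⟨t, ht, ht₁, ht₂, by rw [hra]; exact ha0, by rw [hrb]; exact hb0, ?_, ?_⟩
    · rw [hra, hrb]; exact hself
    · intro j hj
      rw [hra, hrb]; exact hother j hj
  choose t ht ht₁ ht₂ hred₁ hred₂ hself hother using hpar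
  -- the lifts
  have hlifts : ∀ i, ∃ R : Place K F, N.r R = some (Rb i) ∧ 0 < R.ord (t i) := fun i =>
    N.exists_zero_of_pairOrd_pos (hred₁ i) (hred₂ i) (Rb i) (hnode₁ i) (hnode₂ i)
      (by rw [hself i]; norm_num)
  choose R hrR hRpos using hlifts
  -- the base point
  obtain ⟨Q₀, hQ₀⟩ := Infinite.exists_notMem_finset
    ((Finset.univ.image N.s₁) ∪ (Finset.univ.image Rb).toLeft)
  rw [Finset.mem_union, not_or] at hQ₀
  have hQ₀n : ∀ i, Q₀ ≠ N.s₁ i := fun i h =>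
    hQ₀.1 (Finset.mem_image.mpr ⟨i, Finset.mem_univ _, h.symm⟩)
  have hQ₀R : ∀ i, Rb i ≠ Sum.inl Q₀ := fun i h =>
    hQ₀.2 (Finset.mem_toLeft.mpr (Finset.mem_image.mpr ⟨i, Finset.mem_univ _, h⟩))
  obtain ⟨P0, hP0⟩ := N.r_surj₁ Q₀ hQ₀n
  refine ⟨{
    Rb := Rb
    Rb_inj := hinj
    R := R
    r_R := hrR
    t := t
    t_mem₁ := ht₁
    t_mem₂ := ht₂
    t_red₁ := hred₁
    t_red₂ := hred₂
    ord_t_self := hself
    ord_t_other := fun i j hij => hother i j (Ne.symm hij)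
    t_reg := fun i j P hP => by
      have h0 : t i ≠ 0 := N.S₁.ne_zero_of_red_ne_zero (hred₁ i)
      have h1 := ((mem_riemannRochSpace_iff.mp (ht i)) P).resolve_left h0
      rw [Finsupp.smul_apply, (hav j).2.2 P hP, smul_zero, neg_zero] at h1
      exact h1
    t_R := hRpos
    nonspecial := fun f b hnod h1 h2 h3 => by
      refine hns f b h1 ?_ h2 ?_ (fun i => (hnod i).2.2)
      · intro Q
        by_cases hQ : ∃ i, Rb i = Sum.inl Q
        · obtain ⟨i, hi⟩ := hQ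
          have := h3 i
          rw [hi] at this
          exact this
        · push Not at hQ
          have := h1 Q hQ
          omega
      · intro Q
        by_cases hQ : ∃ i, Rb i = Sum.inr Q
        · obtain ⟨i, hi⟩ := hQ
          have := h3 i
          rw [hi] at this
          exact this
        · push Not at hQ
          have := h2 Q hQ
          omega
    P0 := P0
    P0_ord := ⟨_, hP0⟩
    r_P0 := fun i h => hQ₀R i (by
      rw [hP0] at h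
      exact (Option.some.inj h).symm) }⟩

end Fermat.Agent.BadRed
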