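import Fermat.Agent.Lib.BadRed.Nodal.Setup
import Fermat.Prelude.Def_AlgebraicCurve_BaseChangeGalois

set_option autoImplicit false

/-!
# Cluster T, abstract nodal package: the statement consumed by the bridge  (architect helper81)

Definitions only.

* `NodalSetup.IsInertial N t` : a semilinear automorphism `t` of `F / K` which preserves both
  valuation rings, is trivial on both residue fields and on the reduction of places
  (for `X₀(q N₀)`: the elements of the inertia group at `q`; `r (t • P) = r P` is the
  canonicity of the nodal Deuring construction, WP N4 step S9).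
* `AbstractToricKeyStatement N` : function form of "inertial automorphisms act trivially on the
  toric part `W₀[n]`": if `n ∣ div g` and both reductions of `g` are `1`, then `t g / g` is a
  constant times an `n`-th power.  (WP N3, from the gluing argument and the nodal KEY LEMMA N2.)
-/

noncomputable section

open AlgebraicCurve Fermat.Agent.RR Fermat.Agent.Deuring

namespace Fermat.Agent.BadRed

variable {K F k Fk₁ Fk₂ : Type*} [Field K] [Field F] [Algebra K F]
  [Field k] [Field Fk₁] [Algebra k Fk₁] [Field Fk₂] [Algebra k Fk₂] {ι : Type*}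

/-- A semilinear automorphism of `F / K` which is trivial on the special fibre of the nodal
package. -/
structure NodalSetup.IsInertial (N : NodalSetup K F k Fk₁ Fk₂ ι) (t : SemilinearAut K F) :
    Prop where
  mem₁ : ∀ f : F, f ∈ N.S₁.Ov → t • f ∈ N.S₁.Ov
  red₁ : ∀ f : F, f ∈ N.S₁.Ov → N.S₁.red (t • f) = N.S₁.red f
  mem₂ : ∀ f : F, f ∈ N.S₂.Ov → t • f ∈ N.S₂.Ov
  red₂ : ∀ f : F, f ∈ N.S₂.Ov → N.S₂.red (t • f) = N.S₂.red f
  r_smul : ∀ P : Place K F, N.r (t • P) = N.r P

/-- **(E1'), abstract form**: inertial automorphisms act trivially on the toric part. -/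
def AbstractToricKeyStatement [Fintype ι] (N : NodalSetup K F k Fk₁ Fk₂ ι) : Prop :=
  N.GenusRel → ∀ n : ℕ, (n : K) ≠ 0 → ((n : K))⁻¹ ∈ N.S₁.A →
    ∀ t : SemilinearAut K F, N.IsInertial t →
      ∀ g : F, g ≠ 0 → (∀ P : Place K F, (n : ℤ) ∣ P.ord g) →
        g ∈ N.S₁.Ov → N.S₁.red g = 1 → g ∈ N.S₂.Ov → N.S₂.red g = 1 →
          ∃ (u : F) (c : K), c ≠ 0 ∧ u ^ n * g = algebraMap K F c * (t • g)

end Fermat.Agent.BadRed
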