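import Mathlib
import Fermat.Agent.S18.KeyLocal
import Fermat.Agent.Lib.BadRed.Nodal.NSDef

set_option autoImplicit false

/-!
# Cluster T, N2a: one side of a nodal reduction (`NSide`), basic calculus

Port of `Fermat.Agent.S18.KeyBasic` / `KeyLocal` (helper61) to a PARTIAL reduction map
`r : Place K F → Option X` (`X = Place k Fk₁ ⊕ Place k Fk₂` in the application, `emb = Sum.inl`
or `Sum.inr`), with `push` only at the smooth points `sm Q`.
-/

noncomputable section

open AlgebraicCurve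

namespace Fermat.Agent.BadRed

/-- One side of a nodal reduction: a `RedSetup` with a partial reduction map. -/
structure NSide (K F k Fk X : Type*) [Field K] [Field F] [Algebra K F]
    [Field k] [Field Fk] [Algebra k Fk] where
  /-- the valuation ring of the constant field -/
  A : ValuationSubring K
  /-- the (Gauss) valuation ring of the function field -/
  Ov : ValuationSubring F
  /-- residue map of the constants -/
  res : A →+* k
  /-- residue map of the function field -/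
  ρ : Ov →+* Fk
  /-- partial reduction of places -/
  r : Place K F → Option X
  /-- the component, inside the special fibre -/
  emb : Place k Fk → X
  /-- the smooth points of the component -/
  sm : Place k Fk → Prop
  hF : Fermat.Agent.RR.IsRRField K F
  mem_Ov_iff : ∀ c : K, algebraMap K F c ∈ Ov ↔ c ∈ A
  ρ_algebraMap : ∀ (c : K) (hc : c ∈ A) (hc' : algebraMap K F c ∈ Ov),
    ρ ⟨algebraMap K F c, hc'⟩ = algebraMap k Fk (res ⟨c, hc⟩)
  ρ_eq_zero_iff : ∀ f : Ov, ρ f = 0 ↔ ¬ IsUnit f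
  scale : ∀ f : F, f ≠ 0 → ∃ c : K, c ≠ 0 ∧
    f * (algebraMap K F c)⁻¹ ∈ Ov ∧ (f * (algebraMap K F c)⁻¹)⁻¹ ∈ Ov
  /-- `r_* (div f) = div (ρ f)` at the smooth points, for units `f` of `Ov` -/
  push : ∀ (f : F) (hf : f ∈ Ov), f⁻¹ ∈ Ov → f ≠ 0 → ∀ Q : Place k Fk, sm Q →
    Finsupp.mapDomain r (Fermat.Agent.RR.divOf hF f) (some (emb Q)) = Q.ord (ρ ⟨f, hf⟩)

namespace NK

open Fermat.Agent.S18Key (ord_neg' ord_nonneg_add ord_nonneg_sub ord_nonneg_mul ord_const_nonneg
  ord_one_nonneg ord_add_ge_of_ge ord_add_eq_of_lt mapDomain_apply_eq_sum sum_le_mapDomain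
  mapDomain_nonneg le_mapDomain add_le_mapDomain kl_ord_const_mul kl_ord_mul_const
  kl_ord_div_const kl_ord_sum_ge kl_ord_prod kl_ord_pow kl_ord_sub_ge_of_ge
  kl_ne_zero_of_ord_ne_zero kl_const_eq_zero_of_ord_pos)

variable {K F k Fk X : Type*} [Field K] [Field F] [Algebra K F] [Field k] [Field Fk]
  [Algebra k Fk]

variable (S : NSide K F k Fk X)

open Classical in
/-- the residue map as a total function (zero outside `Ov`). -/
def _root_.Fermat.Agent.BadRed.NSide.red (x : F) : Fk := if h : x ∈ S.Ov then S.ρ ⟨x, h⟩ else 0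

/-- units of `Ov`. -/
structure _root_.Fermat.Agent.BadRed.NSide.IsU (x : F) : Prop where
  ne_zero : x ≠ 0
  mem : x ∈ S.Ov
  inv_mem : x⁻¹ ∈ S.Ov

variable {S}

theorem red_of_mem {x : F} (h : x ∈ S.Ov) : S.red x = S.ρ ⟨x, h⟩ := by
  unfold NSide.red
  rw [dif_pos h]

theorem red_zero : S.red (0 : F) = 0 := by
  rw [red_of_mem (zero_mem _)]
  exact map_zero S.ρ

theorem red_one : S.red (1 : F) = 1 := by
  rw [red_of_mem (one_mem _)]
  exact map_one S.ρ

theorem red_add {x y : F} (hx : x ∈ S.Ov) (hy : y ∈ S.Ov) : S.red (x + y) = S.red x + S.red y := by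
  rw [red_of_mem hx, red_of_mem hy, red_of_mem (add_mem hx hy), ← map_add]
  rfl

theorem red_mul {x y : F} (hx : x ∈ S.Ov) (hy : y ∈ S.Ov) : S.red (x * y) = S.red x * S.red y := by
  rw [red_of_mem hx, red_of_mem hy, red_of_mem (mul_mem hx hy), ← map_mul]
  rfl

theorem red_neg {x : F} (hx : x ∈ S.Ov) : S.red (-x) = -S.red x := by
  rw [red_of_mem hx, red_of_mem (neg_mem hx), ← map_neg]
  rfl

theorem red_sub {x y : F} (hx : x ∈ S.Ov) (hy : y ∈ S.Ov) : S.red (x - y) = S.red x - S.red y := by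
  rw [sub_eq_add_neg, red_add hx (neg_mem hy), red_neg hy, sub_eq_add_neg]

theorem red_pow {x : F} (hx : x ∈ S.Ov) (n : ℕ) : S.red (x ^ n) = S.red x ^ n := by
  rw [red_of_mem hx, red_of_mem (pow_mem hx n), ← map_pow]
  rfl

theorem isUnit_iff_inv_mem (a : S.Ov) : IsUnit a ↔ (a : F) ≠ 0 ∧ (a : F)⁻¹ ∈ S.Ov := by
  constructor
  · intro h
    obtain ⟨b, hb⟩ := isUnit_iff_exists_inv.mp h
    have h1 : (a : F) * (b : F) = 1 := by
      have := congrArg (Subtype.val) hb
      simpa using this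
    have hne : (a : F) ≠ 0 := left_ne_zero_of_mul_eq_one h1
    refine ⟨hne, ?_⟩
    have : (a : F)⁻¹ = (b : F) := inv_eq_of_mul_eq_one_right h1
    rw [this]
    exact b.2
  · rintro ⟨hne, hinv⟩
    exact ⟨⟨a, ⟨(a : F)⁻¹, hinv⟩, Subtype.ext (mul_inv_cancel₀ hne),
      Subtype.ext (inv_mul_cancel₀ hne)⟩, rfl⟩

theorem red_eq_zero_iff {x : F} (hx : x ∈ S.Ov) : S.red x = 0 ↔ x = 0 ∨ x⁻¹ ∉ S.Ov := by
  rw [red_of_mem hx, S.ρ_eq_zero_iff, isUnit_iff_inv_mem]
  simp only [not_and_or, not_not]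

theorem red_ne_zero_iff {x : F} (hx : x ∈ S.Ov) : S.red x ≠ 0 ↔ S.IsU x := by
  rw [Ne, red_eq_zero_iff hx, not_or, not_not]
  exact ⟨fun h => ⟨h.1, hx, h.2⟩, fun h => ⟨h.ne_zero, h.inv_mem⟩⟩


theorem _root_.Fermat.Agent.BadRed.NSide.IsU.red_ne_zero {x : F} (h : S.IsU x) : S.red x ≠ 0 := (red_ne_zero_iff h.mem).mpr h

theorem _root_.Fermat.Agent.BadRed.NSide.IsU.inv {x : F} (h : S.IsU x) : S.IsU x⁻¹ :=
  ⟨inv_ne_zero h.ne_zero, h.inv_mem, by rw [inv_inv]; exact h.mem⟩

theorem _root_.Fermat.Agent.BadRed.NSide.IsU.mul {x y : F} (hx : S.IsU x) (hy : S.IsU y) : S.IsU (x * y) :=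
  ⟨mul_ne_zero hx.ne_zero hy.ne_zero, mul_mem hx.mem hy.mem, by
    rw [mul_inv]; exact mul_mem hx.inv_mem hy.inv_mem⟩

theorem _root_.Fermat.Agent.BadRed.NSide.IsU.div {x y : F} (hx : S.IsU x) (hy : S.IsU y) : S.IsU (x / y) := by
  rw [div_eq_mul_inv]; exact hx.mul hy.inv

theorem _root_.Fermat.Agent.BadRed.NSide.IsU.pow {x : F} (hx : S.IsU x) (n : ℕ) : S.IsU (x ^ n) :=
  ⟨pow_ne_zero n hx.ne_zero, pow_mem hx.mem n, by rw [← inv_pow]; exact pow_mem hx.inv_mem n⟩

theorem isU_one : S.IsU (1 : F) := ⟨one_ne_zero, one_mem _, by rw [inv_one]; exact one_mem _⟩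

theorem _root_.Fermat.Agent.BadRed.NSide.IsU.neg {x : F} (hx : S.IsU x) : S.IsU (-x) :=
  ⟨neg_ne_zero.mpr hx.ne_zero, neg_mem hx.mem, by rw [inv_neg]; exact neg_mem hx.inv_mem⟩

theorem _root_.Fermat.Agent.BadRed.NSide.IsU.red_inv {x : F} (h : S.IsU x) : S.red x⁻¹ = (S.red x)⁻¹ := by
  have h1 : S.red x * S.red x⁻¹ = 1 := by
    rw [← red_mul h.mem h.inv_mem, mul_inv_cancel₀ h.ne_zero, red_one]
  exact eq_inv_of_mul_eq_one_right h1

theorem isU_of_red_ne_zero {x : F} (hx : x ∈ S.Ov) (h : S.red x ≠ 0) : S.IsU x :=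
  (red_ne_zero_iff hx).mp h

/-- an element of `Ov` which is not a unit: its residue vanishes. -/
theorem red_eq_zero_of_not_isU {x : F} (hx : x ∈ S.Ov) (h : ¬ S.IsU x) : S.red x = 0 := by
  by_contra h0
  exact h (isU_of_red_ne_zero hx h0)

/-- `x ∈ Ov` or `x⁻¹ ∈ Ov`. -/
theorem mem_or_inv_mem (x : F) : x ∈ S.Ov ∨ x⁻¹ ∈ S.Ov := S.Ov.mem_or_inv_mem x

/-- if `x ∉ Ov` then `x⁻¹` is in the maximal ideal. -/
theorem red_inv_eq_zero_of_not_mem {x : F} (hx : x ∉ S.Ov) : x⁻¹ ∈ S.Ov ∧ S.red x⁻¹ = 0 := by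
  have h1 : x⁻¹ ∈ S.Ov := (mem_or_inv_mem x).resolve_left hx
  refine ⟨h1, ?_⟩
  rw [red_eq_zero_iff h1]
  right
  rwa [inv_inv]

/-! ### constants -/

theorem const_mem_iff (c : K) : algebraMap K F c ∈ S.Ov ↔ c ∈ S.A := S.mem_Ov_iff c

theorem red_const {c : K} (hc : c ∈ S.A) :
    S.red (algebraMap K F c) = algebraMap k Fk (S.res ⟨c, hc⟩) := by
  rw [red_of_mem ((const_mem_iff c).mpr hc)]
  exact S.ρ_algebraMap c hc _

/-- a constant of `A` whose inverse is in `A` is a unit of `Ov`. -/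
theorem isU_const {c : K} (hc0 : c ≠ 0) (hc : c ∈ S.A) (hci : c⁻¹ ∈ S.A) :
    S.IsU (algebraMap K F c) :=
  ⟨by simpa using hc0, (const_mem_iff c).mpr hc, by
    rw [← map_inv₀]; exact (const_mem_iff _).mpr hci⟩

theorem inv_mem_A_of_isU_const {c : K} (h : S.IsU (algebraMap K F c)) : c⁻¹ ∈ S.A := by
  have := h.inv_mem
  rw [← map_inv₀] at this
  exact (const_mem_iff _).mp this

theorem mem_A_of_isU_const {c : K} (h : S.IsU (algebraMap K F c)) : c ∈ S.A :=
  (const_mem_iff _).mp h.mem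

/-- the residue of a constant of `A` vanishes iff the constant is not a unit of `A`. -/
theorem res_eq_zero_iff {c : K} (hc : c ∈ S.A) : S.res ⟨c, hc⟩ = 0 ↔ c = 0 ∨ c⁻¹ ∉ S.A := by
  have h1 : S.red (algebraMap K F c) = 0 ↔ S.res ⟨c, hc⟩ = 0 := by
    rw [red_const hc]
    exact (map_eq_zero_iff _ (algebraMap k Fk).injective)
  rw [← h1, red_eq_zero_iff ((const_mem_iff c).mpr hc), ← map_inv₀, const_mem_iff]
  simp

/-- the order of a nonzero residue constant is `0`. -/
theorem ord_red_const (Q : Place k Fk) {c : K} (hc : c ∈ S.A) :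
    Q.ord (S.red (algebraMap K F c)) = 0 := by
  rw [red_const hc]
  exact Fermat.Agent.S24Res.ord_algebraMap Q _

/-- scaling: every nonzero `f` is a constant times a unit. -/
theorem exists_scale {f : F} (hf : f ≠ 0) :
    ∃ c : K, c ≠ 0 ∧ S.IsU (f / algebraMap K F c) := by
  obtain ⟨c, hc, h1, h2⟩ := S.scale f hf
  refine ⟨c, hc, ⟨?_, ?_, ?_⟩⟩
  · exact div_ne_zero hf (by simpa using hc)
  · rw [div_eq_mul_inv]; exact h1
  · rw [div_eq_mul_inv]; exact h2

/-! ### fibre sums -/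

/-- `r_* (div f) = div (red f)` for units, at the smooth points. -/
theorem push_eq {f : F} (hf : S.IsU f) (Q : Place k Fk) (hQ : S.sm Q) :
    Finsupp.mapDomain S.r (Fermat.Agent.RR.divOf S.hF f) (some (S.emb Q)) = Q.ord (S.red f) := by
  rw [red_of_mem hf.mem]
  exact S.push f hf.mem hf.inv_mem hf.ne_zero Q hQ

theorem push_nonneg {f : F} (hf : S.IsU f) (Q : Place k Fk) (hQ : S.sm Q)
    (h : ∀ P, S.r P = some (S.emb Q) → 0 ≤ P.ord f) : 0 ≤ Q.ord (S.red f) := by
  rw [← push_eq hf Q hQ]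
  exact mapDomain_nonneg _ _ _ fun P hP => by
    rw [Fermat.Agent.RR.divOf_apply]; exact h P hP

theorem push_ge {f : F} (hf : S.IsU f) (Q : Place k Fk) (hQ : S.sm Q)
    (h : ∀ P, S.r P = some (S.emb Q) → 0 ≤ P.ord f) (P1 : Place K F)
    (h1 : S.r P1 = some (S.emb Q)) :
    P1.ord f ≤ Q.ord (S.red f) := by
  rw [← push_eq hf Q hQ]
  have := le_mapDomain S.r (Fermat.Agent.RR.divOf S.hF f) (some (S.emb Q)) (fun P hP => by
    rw [Fermat.Agent.RR.divOf_apply]; exact h P hP) P1 h1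
  rwa [Fermat.Agent.RR.divOf_apply] at this

theorem push_ge_two {f : F} (hf : S.IsU f) (Q : Place k Fk) (hQ : S.sm Q)
    (h : ∀ P, S.r P = some (S.emb Q) → 0 ≤ P.ord f) (P1 P2 : Place K F) (hne : P1 ≠ P2)
    (h1 : S.r P1 = some (S.emb Q)) (h2 : S.r P2 = some (S.emb Q)) :
    P1.ord f + P2.ord f ≤ Q.ord (S.red f) := by
  rw [← push_eq hf Q hQ]
  have := add_le_mapDomain S.r (Fermat.Agent.RR.divOf S.hF f) (some (S.emb Q)) (fun P hP => by
    rw [Fermat.Agent.RR.divOf_apply]; exact h P hP) P1 P2 hne h1 h2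
  rwa [Fermat.Agent.RR.divOf_apply, Fermat.Agent.RR.divOf_apply] at this

/-- no poles in the fibre and residue of order `0`: no zeros in the fibre. -/
theorem push_eq_zero {f : F} (hf : S.IsU f) (Q : Place k Fk) (hQ : S.sm Q)
    (h : ∀ P, S.r P = some (S.emb Q) → 0 ≤ P.ord f) (h0 : Q.ord (S.red f) = 0) (P1 : Place K F)
    (h1 : S.r P1 = some (S.emb Q)) : P1.ord f = 0 := by
  have := push_ge hf Q hQ h P1 h1
  have := h P1 h1
  omega

/-- no poles in the fibre and residue of order `1`: at most one zero in the fibre. -/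
theorem push_eq_one_unique {f : F} (hf : S.IsU f) (Q : Place k Fk) (hQ : S.sm Q)
    (h : ∀ P, S.r P = some (S.emb Q) → 0 ≤ P.ord f) (h0 : Q.ord (S.red f) = 1)
    (P1 P2 : Place K F) (h1 : S.r P1 = some (S.emb Q)) (h2 : S.r P2 = some (S.emb Q))
    (hz1 : 0 < P1.ord f) (hz2 : 0 < P2.ord f) : P1 = P2 := by
  by_contra hne
  have := push_ge_two hf Q hQ h P1 P2 hne h1 h2
  omega

theorem push_eq_one_ord {f : F} (hf : S.IsU f) (Q : Place k Fk) (hQ : S.sm Q)
    (h : ∀ P, S.r P = some (S.emb Q) → 0 ≤ P.ord f) (h0 : Q.ord (S.red f) = 1) (P1 : Place K F)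
    (h1 : S.r P1 = some (S.emb Q)) (hz1 : 0 < P1.ord f) : P1.ord f = 1 := by
  have := push_ge hf Q hQ h P1 h1
  omega

/-! ### values -/

/-- the value at `P` of a function of `Ov` without poles in the residue disc of `P` lies in
`A`. -/
theorem value_mem_A {f : F} (hf : f ∈ S.Ov) (P : Place K F) (Q : Place k Fk) (hQ : S.sm Q)
    (hPQ : S.r P = some (S.emb Q))
    (hreg : ∀ P', S.r P' = some (S.emb Q) → 0 ≤ P'.ord f) (c : K)
    (hc : f = algebraMap K F c ∨ 0 < P.ord (f - algebraMap K F c)) : c ∈ S.A := by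
  by_contra hcA
  have hcO : algebraMap K F c ∉ S.Ov := fun h => hcA ((const_mem_iff c).mp h)
  rcases hc with hc | hc
  · exact hcO (hc ▸ hf)
  have hc0 : c ≠ 0 := by
    rintro rfl
    exact hcA (zero_mem _)
  have hcF : algebraMap K F c ≠ 0 := by simpa using hc0
  obtain ⟨hci, hci0⟩ := red_inv_eq_zero_of_not_mem hcO
  -- g = c⁻¹ f - 1 = c⁻¹ (f - c)
  set g : F := (algebraMap K F c)⁻¹ * f - 1 with hg
  have hgmem : g ∈ S.Ov := sub_mem (mul_mem hci hf) (one_mem _)
  have hgred : S.red g = -1 := by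
    rw [hg, red_sub (mul_mem hci hf) (one_mem _), red_mul hci hf, hci0, zero_mul, red_one, zero_sub]
  have hgU : S.IsU g := isU_of_red_ne_zero hgmem (by rw [hgred]; simp)
  have hgeq : g = (algebraMap K F c)⁻¹ * (f - algebraMap K F c) := by
    rw [hg, mul_sub, inv_mul_cancel₀ hcF]
  have hfc : f - algebraMap K F c ≠ 0 := by
    intro h0
    rw [h0] at hc
    simp at hc
  have hordc : ∀ P' : Place K F, P'.ord ((algebraMap K F c)⁻¹) = 0 := fun P' => by
    rw [← map_inv₀]; exact Fermat.Agent.S24Res.ord_algebraMap P' _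
  have hordg : ∀ P' : Place K F, P'.ord g = P'.ord (f - algebraMap K F c) := fun P' => by
    rw [hgeq, P'.ord_mul (inv_ne_zero hcF) hfc, hordc, zero_add]
  have h1 : 0 < Q.ord (S.red g) := by
    have := push_ge hgU Q hQ (fun P' hP' => by
      rw [hordg]
      exact ord_nonneg_sub P' (hreg P' hP') (ord_const_nonneg P' c)) P hPQ
    rw [hordg] at this
    omega
  rw [hgred, ord_neg'] at h1
  simp at h1

/-- evaluation commutes with reduction. -/
theorem value_red {f : F} (hf : f ∈ S.Ov) (P : Place K F) (Q : Place k Fk) (hQ : S.sm Q)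
    (hPQ : S.r P = some (S.emb Q))
    (hreg : ∀ P', S.r P' = some (S.emb Q) → 0 ≤ P'.ord f) (c : K) (hcA : c ∈ S.A)
    (hc : f = algebraMap K F c ∨ 0 < P.ord (f - algebraMap K F c)) :
    S.red f = S.red (algebraMap K F c) ∨ 0 < Q.ord (S.red f - S.red (algebraMap K F c)) := by
  have hcO : algebraMap K F c ∈ S.Ov := (const_mem_iff c).mpr hcA
  rcases hc with hc | hc
  · left; rw [← hc]
  by_cases hU : S.IsU (f - algebraMap K F c)
  · right
    rw [← red_sub hf hcO]
    have := push_ge hU Q hQ (fun P' hP' =>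
      ord_nonneg_sub P' (hreg P' hP') (ord_const_nonneg P' c)) P hPQ
    omega
  · left
    have := red_eq_zero_of_not_isU (sub_mem hf hcO) hU
    rw [red_sub hf hcO, sub_eq_zero] at this
    exact this

/-! ### sums, constants -/

theorem kl_red_sum {ι : Type*} (I : Finset ι) (f : ι → F) (h : ∀ i ∈ I, f i ∈ S.Ov) :
    S.red (∑ i ∈ I, f i) = ∑ i ∈ I, S.red (f i) := by
  classical
  induction I using Finset.induction_on with
  | empty => simp [red_zero]
  | insert a s ha ih =>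
    have h2 : ∀ i ∈ s, f i ∈ S.Ov := fun i hi => h i (Finset.mem_insert_of_mem hi)
    rw [Finset.sum_insert ha, Finset.sum_insert ha,
      red_add (h a (Finset.mem_insert_self a s)) (sum_mem h2), ih h2]

/-- the residue of a constant of the maximal ideal of `A` vanishes. -/
theorem kl_red_const_eq_zero {c : K} (hc : c ∈ S.A) (hci : c⁻¹ ∉ S.A) :
    S.red (algebraMap K F c) = 0 := by
  rw [red_const hc, (res_eq_zero_iff hc).mpr (Or.inr hci), map_zero]

/-- the residue of a unit constant of `A` does not vanish. -/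
theorem kl_red_const_ne_zero {c : K} (hc0 : c ≠ 0) (hc : c ∈ S.A) (hci : c⁻¹ ∈ S.A) :
    S.red (algebraMap K F c) ≠ 0 :=
  (isU_const hc0 hc hci).red_ne_zero

/-- the order of `red c * f`, `c` a constant of `A`: either the product vanishes or the order is
that of `f`. -/
theorem kl_ord_red_const_mul (Q : Place k Fk) {c : K} (hc : c ∈ S.A) (f : Fk) :
    S.red (algebraMap K F c) * f = 0 ∨
      Q.ord (S.red (algebraMap K F c) * f) = Q.ord f := by
  rw [red_const hc]
  by_cases h0 : S.res ⟨c, hc⟩ = 0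
  · left
    rw [h0, map_zero, zero_mul]
  · right
    exact kl_ord_const_mul Q h0 f

theorem kl_ord_red_const_mul_ge (Q : Place k Fk) {c : K} (hc : c ∈ S.A) (f : Fk) {n : ℤ}
    (hn : n ≤ 0) (hf : n ≤ Q.ord f) : n ≤ Q.ord (S.red (algebraMap K F c) * f) := by
  rcases kl_ord_red_const_mul (S := S) Q hc f with h | h
  · rw [h]; simpa using hn
  · rw [h]; exact hf


/-- the order of `red c * f` for a unit constant `c` of `A`. -/
theorem kl_ord_red_unit_mul (Q : Place k Fk) {c : K} (hc0 : c ≠ 0) (hc : c ∈ S.A)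
    (hci : c⁻¹ ∈ S.A) (f : Fk) : Q.ord (S.red (algebraMap K F c) * f) = Q.ord f := by
  rcases kl_ord_red_const_mul (S := S) Q hc f with h | h
  · have hf : f = 0 := by
      rcases mul_eq_zero.mp h with h' | h'
      · exact absurd h' (kl_red_const_ne_zero hc0 hc hci)
      · exact h'
    rw [hf, mul_zero]
  · exact h

/-- if all orders of a unit vanish on a fibre, the residue has order `0` there. -/
theorem kl_push_zero {f : F} (hf : S.IsU f) (Q : Place k Fk) (hQ : S.sm Q)
    (h : ∀ P, S.r P = some (S.emb Q) → P.ord f = 0) : Q.ord (S.red f) = 0 := by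
  have h1 := push_nonneg hf Q hQ fun P hP => (h P hP).ge
  have h2 := push_nonneg hf.inv Q hQ fun P hP => by
    rw [P.ord_inv, h P hP]; simp
  rw [hf.red_inv, Q.ord_inv] at h2
  omega

/-! ### simple zeros -/

/-- a unit of `Ov`, regular on the fibre of `Q`, whose residue has a simple zero at `Q` and which
vanishes at `P1` in the fibre: its divisor on the fibre is `P1`. -/
theorem kl_simple_zero {f : F} (hf : S.IsU f) (Q : Place k Fk) (hQ : S.sm Q)
    (hreg : ∀ P, S.r P = some (S.emb Q) → 0 ≤ P.ord f) (h1 : Q.ord (S.red f) = 1)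
    (P1 : Place K F) (hP1 : S.r P1 = some (S.emb Q)) (hz : 0 < P1.ord f) (v : Place K F)
    (hv : S.r v = some (S.emb Q)) :
    v.ord f = Finsupp.single P1 (1 : ℤ) v := by
  have hP1o : P1.ord f = 1 := push_eq_one_ord hf Q hQ hreg h1 P1 hP1 hz
  by_cases hvP : v = P1
  · subst hvP
    rw [Finsupp.single_eq_same, hP1o]
  · rw [Finsupp.single_eq_of_ne (by exact hvP)]
    have h2 := push_ge_two hf Q hQ hreg v P1 hvP hv hP1
    have h3 := hreg v hv
    omega

/-! ### the local data -/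

/-- local data for a parameter `t` at a smooth point `Q`, `R` the zero of `t` in the disc of `Q`
and `Pi ≠ R` another point of the disc: the value `a` of `t` at `Pi`. -/
structure KLSelf (S : NSide K F k Fk X) (t : F) (Q : Place k Fk) (R Pi : Place K F) (a : K) :
    Prop where
  a_ne : a ≠ 0
  a_mem : a ∈ S.A
  a_inv : a⁻¹ ∉ S.A
  t_isU : S.IsU t
  s_isU : S.IsU (t - algebraMap K F a)
  red_s : S.red (t - algebraMap K F a) = S.red t
  ord_t_self : ∀ v, S.r v = some (S.emb Q) → v.ord t = Finsupp.single R (1 : ℤ) v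
  ord_s_self : ∀ v, S.r v = some (S.emb Q) →
    v.ord (t - algebraMap K F a) = Finsupp.single Pi (1 : ℤ) v

theorem kl_exists_self {t : F} (ht : t ∈ S.Ov) (Q : Place k Fk) (hQ : S.sm Q)
    (hord : Q.ord (S.red t) = 1) (htreg : ∀ P, S.r P = some (S.emb Q) → 0 ≤ P.ord t)
    (R : Place K F) (hR : S.r R = some (S.emb Q)) (htR : 0 < R.ord t)
    (Pi : Place K F) (hr : S.r Pi = some (S.emb Q)) (hne : Pi ≠ R) :
    ∃ a : K, KLSelf S t Q R Pi a := by
  have htU : S.IsU t := by
    refine isU_of_red_ne_zero ht ?_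
    apply kl_ne_zero_of_ord_ne_zero Q
    rw [hord]
    exact one_ne_zero
  -- the value of `t` at `Pi`
  obtain ⟨a, ha⟩ := Fermat.Agent.RR.exists_const_sub S.hF Pi (htreg Pi hr)
  have haA : a ∈ S.A := value_mem_A ht Pi Q hQ hr htreg a ha
  have hvr := value_red ht Pi Q hQ hr htreg a haA ha
  rw [red_const haA] at hvr
  have hres : S.res ⟨a, haA⟩ = 0 :=
    kl_const_eq_zero_of_ord_pos Q (by rw [hord]; exact one_pos) hvr
  have ha0 : a ≠ 0 := by
    rintro rfl
    rw [map_zero, sub_zero] at ha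
    rcases ha with ha | ha
    · exact htU.ne_zero ha
    · exact hne (push_eq_one_unique htU Q hQ htreg hord Pi R hr hR ha htR)
  have hai : a⁻¹ ∉ S.A := by
    rcases (res_eq_zero_iff haA).mp hres with h | h
    · exact absurd h ha0
    · exact h
  have hs : 0 < Pi.ord (t - algebraMap K F a) := by
    rcases ha with ha | ha
    · have := htR
      rw [ha, Fermat.Agent.S24Res.ord_algebraMap] at this
      exact absurd this (lt_irrefl _)
    · exact ha
  have haO : algebraMap K F a ∈ S.Ov := (const_mem_iff a).mpr haA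
  have hsmem : t - algebraMap K F a ∈ S.Ov := sub_mem ht haO
  have hreds : S.red (t - algebraMap K F a) = S.red t := by
    rw [red_sub ht haO, kl_red_const_eq_zero haA hai, sub_zero]
  have hsU : S.IsU (t - algebraMap K F a) :=
    isU_of_red_ne_zero hsmem (by rw [hreds]; exact htU.red_ne_zero)
  have hsreg : ∀ P, S.r P = some (S.emb Q) → 0 ≤ P.ord (t - algebraMap K F a) := fun P hP =>
    ord_nonneg_sub P (htreg P hP) (ord_const_nonneg P a)
  refine ⟨a, ⟨ha0, haA, hai, htU, hsU, hreds, ?_, ?_⟩⟩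
  · intro v hv
    exact kl_simple_zero htU Q hQ htreg hord R hR htR v hv
  · intro v hv
    exact kl_simple_zero hsU Q hQ hsreg (by rw [hreds]; exact hord) Pi hr hs v hv

/-- the orders of `t` and of `t - a`, `a` in the maximal ideal of `A`, on the disc of a smooth
point where the reduction of `t` is a unit. -/
theorem kl_ord_other {t : F} (ht : t ∈ S.Ov) (Q : Place k Fk) (hQ : S.sm Q)
    (hred : S.red t ≠ 0) (hord : Q.ord (S.red t) = 0)
    (htreg : ∀ P, S.r P = some (S.emb Q) → 0 ≤ P.ord t) {a : K} (haA : a ∈ S.A)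
    (hai : a⁻¹ ∉ S.A) (v : Place K F) (hv : S.r v = some (S.emb Q)) :
    v.ord t = 0 ∧ v.ord (t - algebraMap K F a) = 0 := by
  have htU : S.IsU t := isU_of_red_ne_zero ht hred
  have haO : algebraMap K F a ∈ S.Ov := (const_mem_iff a).mpr haA
  have hsmem : t - algebraMap K F a ∈ S.Ov := sub_mem ht haO
  have hreds : S.red (t - algebraMap K F a) = S.red t := by
    rw [red_sub ht haO, kl_red_const_eq_zero haA hai, sub_zero]
  have hsU : S.IsU (t - algebraMap K F a) :=
    isU_of_red_ne_zero hsmem (by rw [hreds]; exact htU.red_ne_zero)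
  have hsreg : ∀ P, S.r P = some (S.emb Q) → 0 ≤ P.ord (t - algebraMap K F a) := fun P hP =>
    ord_nonneg_sub P (htreg P hP) (ord_const_nonneg P a)
  exact ⟨push_eq_zero htU Q hQ htreg hord v hv,
    push_eq_zero hsU Q hQ hsreg (by rw [hreds]; exact hord) v hv⟩

end NK

end Fermat.Agent.BadRed
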