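import Mathlib
import Fermat.Agent.Lib.BadRed.Nodal.Side

set_option autoImplicit false

/-!
# Cluster T, N2a: the two sides of a nodal setup, two-sided lemmas

* `NK.side₁`, `NK.side₂` : the two `NSide`s of a `NodalSetup`;
* `NK.exists_scale₂` : max-norm scaling (`x / c ∈ O₁ ∩ O₂`, a unit of one of them);
* `NK.red_const_of_reg` : a function of `O₁ ∩ O₂`, regular off the discs of the `Rb j`, whose
  reductions have at most simple poles at the `Rb j`, has CONSTANT reductions `(c, c)`;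
* `NK.kl_final₂` : … and it cannot vanish at `P0` unless both reductions vanish;
* `NK.kl_normalise₂`, `NK.kl_exists_self₂`, `NK.kl_ord_other₂` : normalisation and local data.
-/

noncomputable section

open AlgebraicCurve Fermat.Agent.RR Fermat.Agent.Deuring

namespace Fermat.Agent.BadRed

namespace NK

open Fermat.Agent.S18Key (ord_neg' ord_nonneg_add ord_nonneg_sub ord_nonneg_mul ord_const_nonneg
  ord_one_nonneg ord_add_ge_of_ge ord_add_eq_of_lt mapDomain_apply_eq_sum sum_le_mapDomain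
  mapDomain_nonneg le_mapDomain add_le_mapDomain kl_ord_const_mul kl_ord_mul_const
  kl_ord_div_const kl_ord_sum_ge kl_ord_prod kl_ord_pow kl_ord_sub_ge_of_ge
  kl_ne_zero_of_ord_ne_zero kl_const_eq_zero_of_ord_pos)

variable {K F k Fk₁ Fk₂ : Type*} [Field K] [Field F] [Algebra K F]
  [Field k] [Field Fk₁] [Algebra k Fk₁] [Field Fk₂] [Algebra k Fk₂] {ι : Type*}

/-- the first side of a nodal setup. -/
def side₁ (N : NodalSetup K F k Fk₁ Fk₂ ι) : NSide K F k Fk₁ (Place k Fk₁ ⊕ Place k Fk₂) where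
  A := N.S₁.A
  Ov := N.S₁.Ov
  res := N.S₁.res
  ρ := N.S₁.ρ
  r := N.r
  emb := Sum.inl
  sm := fun Q => ∀ i, Q ≠ N.s₁ i
  hF := N.S₁.hF
  mem_Ov_iff := N.S₁.mem_Ov_iff
  ρ_algebraMap := N.S₁.ρ_algebraMap
  ρ_eq_zero_iff := N.S₁.ρ_eq_zero_iff
  scale := N.S₁.scale
  push := fun f hf hfi hf0 Q hQ => by
    have := N.push₁ f hf hfi hf0 Q hQ
    rwa [ValSetup.red, dif_pos hf] at this

/-- the second side of a nodal setup. -/
def side₂ (N : NodalSetup K F k Fk₁ Fk₂ ι) : NSide K F k Fk₂ (Place k Fk₁ ⊕ Place k Fk₂) where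
  A := N.S₂.A
  Ov := N.S₂.Ov
  res := N.S₂.res
  ρ := N.S₂.ρ
  r := N.r
  emb := Sum.inr
  sm := fun Q => ∀ i, Q ≠ N.s₂ i
  hF := N.S₂.hF
  mem_Ov_iff := N.S₂.mem_Ov_iff
  ρ_algebraMap := N.S₂.ρ_algebraMap
  ρ_eq_zero_iff := N.S₂.ρ_eq_zero_iff
  scale := N.S₂.scale
  push := fun f hf hfi hf0 Q hQ => by
    have := N.push₂ f hf hfi hf0 Q hQ
    rwa [ValSetup.red, dif_pos hf] at this

variable (N : NodalSetup K F k Fk₁ Fk₂ ι)

theorem side₁_red (f : F) : (side₁ N).red f = N.S₁.red f := rfl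

theorem side₂_red (f : F) : (side₂ N).red f = N.S₂.red f := rfl

theorem mem_A₂_iff (c : K) : c ∈ N.S₂.A ↔ c ∈ N.S₁.A := by rw [N.A_eq]

/-- units of both valuation rings. -/
structure IsU₂ (x : F) : Prop where
  u₁ : (side₁ N).IsU x
  u₂ : (side₂ N).IsU x

/-- the smooth points of the special fibre. -/
def IsSm (X : Place k Fk₁ ⊕ Place k Fk₂) : Prop :=
  Sum.elim (fun Q => ∀ i, Q ≠ N.s₁ i) (fun Q => ∀ i, Q ≠ N.s₂ i) X

theorem isSm_of_r {P : Place K F} {X : Place k Fk₁ ⊕ Place k Fk₂} (h : N.r P = some X) :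
    IsSm N X := by
  cases X with
  | inl Q => intro i hi; exact N.r_ne_node₁ P i (by rw [h, hi])
  | inr Q => intro i hi; exact N.r_ne_node₂ P i (by rw [h, hi])

/-- the order at `X` of the reduction of `f` (on the component of `X`). -/
def ordRed (X : Place k Fk₁ ⊕ Place k Fk₂) (f : F) : ℤ :=
  pairOrd X (N.S₁.red f) (N.S₂.red f)

/-- the reductions of a function without poles on the disc of a smooth point `X` is regular at
`X`. -/
theorem ordRed_nonneg {f : F} (X : Place k Fk₁ ⊕ Place k Fk₂) (hX : IsSm N X)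
    (h : ∀ P, N.r P = some X → 0 ≤ P.ord f) : 0 ≤ ordRed N X f := by
  cases X with
  | inl Q =>
    show 0 ≤ Q.ord (N.S₁.red f)
    by_cases h0 : N.S₁.red f = 0
    · rw [h0, Place.ord_zero]
    · have hU : (side₁ N).IsU f :=
        isU_of_red_ne_zero (S := side₁ N) (ValSetup.mem_of_red_ne_zero _ h0) h0
      exact push_nonneg (S := side₁ N) hU Q hX h
  | inr Q =>
    show 0 ≤ Q.ord (N.S₂.red f)
    by_cases h0 : N.S₂.red f = 0
    · rw [h0, Place.ord_zero]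
    · have hU : (side₂ N).IsU f :=
        isU_of_red_ne_zero (S := side₂ N) (ValSetup.mem_of_red_ne_zero _ h0) h0
      exact push_nonneg (S := side₂ N) hU Q hX h

/-- **max-norm scaling**. -/
theorem exists_scale₂ {x : F} (hx : x ≠ 0) : ∃ c : K, c ≠ 0 ∧
    x / algebraMap K F c ∈ N.S₁.Ov ∧ x / algebraMap K F c ∈ N.S₂.Ov ∧
      (N.S₁.red (x / algebraMap K F c) ≠ 0 ∨ N.S₂.red (x / algebraMap K F c) ≠ 0) := by
  obtain ⟨c₁, hc₁, hU₁⟩ := exists_scale (S := side₁ N) hx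
  obtain ⟨c₂, hc₂, hU₂⟩ := exists_scale (S := side₂ N) hx
  have hc₁F : algebraMap K F c₁ ≠ 0 := by simpa using hc₁
  have hc₂F : algebraMap K F c₂ ≠ 0 := by simpa using hc₂
  rcases N.S₁.A.mem_or_inv_mem (c₁ / c₂) with h | h
  · refine ⟨c₂, hc₂, ?_, hU₂.mem, Or.inr hU₂.red_ne_zero⟩
    have e : x / algebraMap K F c₂ = x / algebraMap K F c₁ * algebraMap K F (c₁ / c₂) := by
      rw [map_div₀]; field_simp
    rw [e]
    exact mul_mem hU₁.mem ((N.S₁.mem_Ov_iff _).mpr h)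
  · rw [inv_div] at h
    refine ⟨c₁, hc₁, hU₁.mem, ?_, Or.inl hU₁.red_ne_zero⟩
    have e : x / algebraMap K F c₁ = x / algebraMap K F c₂ * algebraMap K F (c₂ / c₁) := by
      rw [map_div₀]; field_simp
    rw [e]
    exact mul_mem hU₂.mem ((N.S₂.mem_Ov_iff _).mpr ((mem_A₂_iff N _).mpr h))

variable {N}

/-- a function of `O₁ ∩ O₂`, regular off the discs of the `Rb j`, `j ∈ I`, whose reductions have
at most simple poles at the `Rb j`: the reductions are the same constant. -/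
theorem red_const_of_reg {g : ℕ} (NS : NodalNS N g) (I : Finset (Fin g)) {W : F}
    (h₁ : W ∈ N.S₁.Ov) (h₂ : W ∈ N.S₂.Ov)
    (hreg : ∀ v, (∀ j ∈ I, N.r v ≠ some (NS.Rb j)) → 0 ≤ v.ord W)
    (hpole : ∀ j ∈ I, -1 ≤ ordRed N (NS.Rb j) W) :
    ∃ c : k, N.S₁.red W = algebraMap k Fk₁ c ∧ N.S₂.red W = algebraMap k Fk₂ c := by
  have hnode : N.IsNodalFn (N.S₁.red W) (N.S₂.red W) :=
    N.node W h₁ h₂ (fun P hP => hreg P (fun j _ => by rw [hP]; simp))
  have hsm : ∀ X, IsSm N X → (∀ j ∈ I, NS.Rb j ≠ X) → 0 ≤ ordRed N X W := fun X hX hne =>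
    ordRed_nonneg N X hX (fun P hP => hreg P (fun j hj h' => hne j hj (by
      rw [hP] at h'; exact (Option.some.inj h').symm)))
  refine NS.nonspecial _ _ hnode ?_ ?_ ?_
  · intro Q hQ
    by_cases hs : ∀ i, Q ≠ N.s₁ i
    · exact hsm (Sum.inl Q) hs (fun j _ => hQ j)
    · push Not at hs
      obtain ⟨i, rfl⟩ := hs
      exact (hnode i).1
  · intro Q hQ
    by_cases hs : ∀ i, Q ≠ N.s₂ i
    · exact hsm (Sum.inr Q) hs (fun j _ => hQ j)
    · push Not at hs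
      obtain ⟨i, rfl⟩ := hs
      exact (hnode i).2.1
  · intro i
    by_cases hi : i ∈ I
    · exact hpole i hi
    · have := hsm (NS.Rb i) (isSm_of_r N (NS.r_R i)) (fun j hj h' => hi (NS.Rb_inj h' ▸ hj))
      unfold ordRed at this
      omega

/-- final contradiction: a function of `O₁ ∩ O₂` with a nonzero reduction, regular off the discs
`I`, whose reductions have at most simple poles at the `Rb j`, `j ∈ I`, cannot vanish at `P0`. -/
theorem kl_final₂ {g : ℕ} (NS : NodalNS N g) (I : Finset (Fin g)) {W : F}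
    (h₁ : W ∈ N.S₁.Ov) (h₂ : W ∈ N.S₂.Ov) (hne : N.S₁.red W ≠ 0 ∨ N.S₂.red W ≠ 0)
    (hreg : ∀ v, (∀ j ∈ I, N.r v ≠ some (NS.Rb j)) → 0 ≤ v.ord W)
    (hpole : ∀ j ∈ I, -1 ≤ ordRed N (NS.Rb j) W)
    (hz : 0 < NS.P0.ord W) : False := by
  obtain ⟨c, hc₁, hc₂⟩ := red_const_of_reg NS I h₁ h₂ hreg hpole
  obtain ⟨X, hX⟩ := NS.P0_ord
  have hXsm := isSm_of_r N hX
  have hXne : ∀ j, NS.Rb j ≠ X := fun j h => NS.r_P0 j (by rw [hX, h])
  have hregX : ∀ P, N.r P = some X → 0 ≤ P.ord W := fun P hP =>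
    hreg P (fun j _ h' => hXne j (by rw [hP] at h'; exact (Option.some.inj h').symm))
  have hc0 : c = 0 := by
    by_contra hc
    cases X with
    | inl Q =>
      have hU : (side₁ N).IsU W := isU_of_red_ne_zero (S := side₁ N) h₁ (by
        rw [side₁_red, hc₁]; simpa using hc)
      have := push_ge (S := side₁ N) hU Q hXsm hregX NS.P0 hX
      rw [side₁_red, hc₁, Fermat.Agent.S24Res.ord_algebraMap] at this
      omega
    | inr Q =>
      have hU : (side₂ N).IsU W := isU_of_red_ne_zero (S := side₂ N) h₂ (by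
        rw [side₂_red, hc₂]; simpa using hc)
      have := push_ge (S := side₂ N) hU Q hXsm hregX NS.P0 hX
      rw [side₂_red, hc₂, Fermat.Agent.S24Res.ord_algebraMap] at this
      omega
  subst hc0
  rcases hne with h | h
  · exact h (by rw [hc₁, map_zero])
  · exact h (by rw [hc₂, map_zero])

/-! ### normalisation -/

/-- normalisation of the value at `P0`, one side. -/
theorem kl_normalise₁ {Fk X : Type*} [Field Fk] [Algebra k Fk] (S : NSide K F k Fk X)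
    (P0 : Place K F) (Q : Place k Fk) (hQ : S.sm Q)
    (hP0 : S.r P0 = some (S.emb Q)) {u₁ : F} (hU : S.IsU u₁)
    (h0 : ∀ P, S.r P = some (S.emb Q) → P.ord u₁ = 0) :
    ∃ c₀ : K, c₀ ≠ 0 ∧ c₀ ∈ S.A ∧ c₀⁻¹ ∈ S.A ∧
      (u₁ / algebraMap K F c₀ = 1 ∨ 0 < P0.ord (u₁ / algebraMap K F c₀ - 1)) := by
  have hreg : ∀ P, S.r P = some (S.emb Q) → 0 ≤ P.ord u₁ := fun P hP => (h0 P hP).ge
  obtain ⟨c₀, hc₀⟩ := Fermat.Agent.RR.exists_const_sub S.hF P0 (hreg P0 hP0)
  have hc₀A : c₀ ∈ S.A := value_mem_A hU.mem P0 Q hQ hP0 hreg c₀ hc₀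
  have hc₀0 : c₀ ≠ 0 := by
    rintro rfl
    rw [map_zero, sub_zero] at hc₀
    rcases hc₀ with h | h
    · exact hU.ne_zero h
    · rw [h0 P0 hP0] at h; exact lt_irrefl _ h
  have hvr := value_red hU.mem P0 Q hQ hP0 hreg c₀ hc₀A hc₀
  have hpz : Q.ord (S.red u₁) = 0 := kl_push_zero hU Q hQ h0
  have hc₀i : c₀⁻¹ ∈ S.A := by
    by_contra hci
    rw [kl_red_const_eq_zero hc₀A hci, sub_zero] at hvr
    rcases hvr with h | h
    · exact hU.red_ne_zero h
    · rw [hpz] at h; exact lt_irrefl _ h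
  have hcU : S.IsU (algebraMap K F c₀) := isU_const hc₀0 hc₀A hc₀i
  refine ⟨c₀, hc₀0, hc₀A, hc₀i, ?_⟩
  rcases hc₀ with h | h
  · left; rw [h]; exact div_self hcU.ne_zero
  · right
    have e2 : u₁ / algebraMap K F c₀ - 1 = (u₁ - algebraMap K F c₀) / algebraMap K F c₀ := by
      rw [sub_div, div_self hcU.ne_zero]
    rw [e2, kl_ord_div_const P0 hc₀0]; exact h

/-- normalisation: a function whose divisor is ordinary with trivial reduction is, up to a
constant, a unit of both valuation rings taking the value `1` at `P0`. -/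
theorem kl_normalise₂ {g : ℕ} (NS : NodalNS N g) (I : Finset (Fin g)) {u₀ : F} (hu₀ : u₀ ≠ 0)
    (hoff : ∀ v, (∀ j ∈ I, N.r v ≠ some (NS.Rb j)) → v.ord u₀ = 0)
    (hdisc : ∀ j ∈ I, Finsupp.mapDomain N.r (divOf N.S₁.hF u₀) (some (NS.Rb j)) = 0) :
    ∃ c : K, c ≠ 0 ∧ IsU₂ N (u₀ / algebraMap K F c) ∧
      (u₀ / algebraMap K F c = 1 ∨ 0 < NS.P0.ord (u₀ / algebraMap K F c - 1)) := by
  obtain ⟨c₁, hc₁, hm₁, hm₂, hne⟩ := exists_scale₂ N hu₀
  have hord : ∀ P : Place K F, P.ord (u₀ / algebraMap K F c₁) = P.ord u₀ := fun P =>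
    kl_ord_div_const P hc₁ u₀
  have hdiv : divOf N.S₁.hF (u₀ / algebraMap K F c₁) = divOf N.S₁.hF u₀ := by
    ext P; rw [divOf_apply, divOf_apply, hord]
  -- the reductions are constant
  have hpole : ∀ j ∈ I, -1 ≤ ordRed N (NS.Rb j) (u₀ / algebraMap K F c₁) := by
    intro j hj
    have hsm := isSm_of_r N (NS.r_R j)
    have hd := hdisc j hj
    rw [← hdiv] at hd
    have key : ordRed N (NS.Rb j) (u₀ / algebraMap K F c₁) = 0 := by
      revert hd hsm
      generalize NS.Rb j = X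
      intro hsm hd
      cases X with
      | inl Q =>
        show Q.ord (N.S₁.red _) = 0
        by_cases h0 : N.S₁.red (u₀ / algebraMap K F c₁) = 0
        · rw [h0, Place.ord_zero]
        · have hU : (side₁ N).IsU (u₀ / algebraMap K F c₁) :=
            isU_of_red_ne_zero (S := side₁ N) hm₁ h0
          exact (push_eq (S := side₁ N) hU Q hsm).symm.trans hd
      | inr Q =>
        show Q.ord (N.S₂.red _) = 0
        by_cases h0 : N.S₂.red (u₀ / algebraMap K F c₁) = 0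
        · rw [h0, Place.ord_zero]
        · have hU : (side₂ N).IsU (u₀ / algebraMap K F c₁) :=
            isU_of_red_ne_zero (S := side₂ N) hm₂ h0
          exact (push_eq (S := side₂ N) hU Q hsm).symm.trans hd
    rw [key]; norm_num
  obtain ⟨cb, hcb₁, hcb₂⟩ := red_const_of_reg NS I hm₁ hm₂
    (fun v hv => by rw [hord, hoff v hv]) hpole
  have hcb0 : cb ≠ 0 := by
    rintro rfl
    rcases hne with h | h
    · exact h (by rw [hcb₁, map_zero])
    · exact h (by rw [hcb₂, map_zero])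
  have hU₁ : (side₁ N).IsU (u₀ / algebraMap K F c₁) :=
    isU_of_red_ne_zero (S := side₁ N) hm₁ (by rw [side₁_red, hcb₁]; simpa using hcb0)
  have hU₂ : (side₂ N).IsU (u₀ / algebraMap K F c₁) :=
    isU_of_red_ne_zero (S := side₂ N) hm₂ (by rw [side₂_red, hcb₂]; simpa using hcb0)
  -- the value at `P0`
  obtain ⟨X, hX⟩ := NS.P0_ord
  have hXsm := isSm_of_r N hX
  have hXne : ∀ j, NS.Rb j ≠ X := fun j h => NS.r_P0 j (by rw [hX, h])
  have h0X : ∀ P, N.r P = some X → P.ord (u₀ / algebraMap K F c₁) = 0 := fun P hP => by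
    rw [hord]
    exact hoff P (fun j _ h' => hXne j (by rw [hP] at h'; exact (Option.some.inj h').symm))
  have hc₀ : ∃ c₀ : K, c₀ ≠ 0 ∧ c₀ ∈ N.S₁.A ∧ c₀⁻¹ ∈ N.S₁.A ∧
      (u₀ / algebraMap K F c₁ / algebraMap K F c₀ = 1 ∨
        0 < NS.P0.ord (u₀ / algebraMap K F c₁ / algebraMap K F c₀ - 1)) := by
    cases X with
    | inl Q => exact kl_normalise₁ (side₁ N) NS.P0 Q hXsm hX hU₁ h0X
    | inr Q =>
      obtain ⟨c₀, h1, h2, h3, h4⟩ := kl_normalise₁ (side₂ N) NS.P0 Q hXsm hX hU₂ h0X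
      exact ⟨c₀, h1, (mem_A₂_iff N _).mp h2, (mem_A₂_iff N _).mp h3, h4⟩
  obtain ⟨c₀, hc₀0, hc₀A, hc₀i, hval⟩ := hc₀
  have e : u₀ / algebraMap K F (c₁ * c₀) = u₀ / algebraMap K F c₁ / algebraMap K F c₀ := by
    rw [map_mul, div_div]
  refine ⟨c₁ * c₀, mul_ne_zero hc₁ hc₀0, ?_, ?_⟩
  · rw [e]
    exact ⟨hU₁.div (isU_const (S := side₁ N) hc₀0 hc₀A hc₀i),
      hU₂.div (isU_const (S := side₂ N) hc₀0 ((mem_A₂_iff N _).mpr hc₀A)
        ((mem_A₂_iff N _).mpr hc₀i))⟩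
  · rw [e]; exact hval

/-! ### local data -/

theorem kl_t_isU₂ {g : ℕ} (NS : NodalNS N g) (i : Fin g) : IsU₂ N (NS.t i) :=
  ⟨isU_of_red_ne_zero (S := side₁ N) (NS.t_mem₁ i) (NS.t_red₁ i),
    isU_of_red_ne_zero (S := side₂ N) (NS.t_mem₂ i) (NS.t_red₂ i)⟩

/-- `t i - a` is a unit of both valuation rings, for `a` in the maximal ideal of `A`. -/
theorem kl_s_isU₂ {g : ℕ} (NS : NodalNS N g) (i : Fin g) {a : K} (haA : a ∈ N.S₁.A)
    (hai : a⁻¹ ∉ N.S₁.A) :
    IsU₂ N (NS.t i - algebraMap K F a) ∧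
      (side₁ N).red (NS.t i - algebraMap K F a) = (side₁ N).red (NS.t i) ∧
      (side₂ N).red (NS.t i - algebraMap K F a) = (side₂ N).red (NS.t i) := by
  have haA₂ : a ∈ N.S₂.A := (mem_A₂_iff N _).mpr haA
  have hai₂ : a⁻¹ ∉ N.S₂.A := fun h => hai ((mem_A₂_iff N _).mp h)
  have hO₁ : algebraMap K F a ∈ N.S₁.Ov := (N.S₁.mem_Ov_iff a).mpr haA
  have hO₂ : algebraMap K F a ∈ N.S₂.Ov := (N.S₂.mem_Ov_iff a).mpr haA₂
  have hr₁ : (side₁ N).red (NS.t i - algebraMap K F a) = (side₁ N).red (NS.t i) := by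
    rw [red_sub (S := side₁ N) (NS.t_mem₁ i) hO₁, kl_red_const_eq_zero (S := side₁ N) haA hai,
      sub_zero]
  have hr₂ : (side₂ N).red (NS.t i - algebraMap K F a) = (side₂ N).red (NS.t i) := by
    rw [red_sub (S := side₂ N) (NS.t_mem₂ i) hO₂, kl_red_const_eq_zero (S := side₂ N) haA₂ hai₂,
      sub_zero]
  exact ⟨⟨isU_of_red_ne_zero (S := side₁ N) (sub_mem (NS.t_mem₁ i) hO₁)
      (by rw [hr₁]; exact NS.t_red₁ i),
    isU_of_red_ne_zero (S := side₂ N) (sub_mem (NS.t_mem₂ i) hO₂)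
      (by rw [hr₂]; exact NS.t_red₂ i)⟩, hr₁, hr₂⟩

/-- orders of `t i`, `t i - a` on the disc of `Rb j`, `j ≠ i`. -/
theorem kl_ord_other₂ {g : ℕ} (NS : NodalNS N g) (i j : Fin g) (hij : i ≠ j) {a : K}
    (haA : a ∈ N.S₁.A) (hai : a⁻¹ ∉ N.S₁.A) (v : Place K F) (hv : N.r v = some (NS.Rb j)) :
    v.ord (NS.t i) = 0 ∧ v.ord (NS.t i - algebraMap K F a) = 0 := by
  have hsm := isSm_of_r N hv
  have hord := NS.ord_t_other i j hij
  have hreg := NS.t_reg i j
  revert hv hsm hord hreg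
  generalize NS.Rb j = X
  intro hv hsm hord hreg
  cases X with
  | inl Q =>
    exact kl_ord_other (S := side₁ N) (NS.t_mem₁ i) Q hsm (NS.t_red₁ i) hord hreg haA hai v hv
  | inr Q =>
    exact kl_ord_other (S := side₂ N) (NS.t_mem₂ i) Q hsm (NS.t_red₂ i) hord hreg
      ((mem_A₂_iff N _).mpr haA) (fun h => hai ((mem_A₂_iff N _).mp h)) v hv

/-- local data at an index `i`, for a point `Pi ≠ R i` of the residue disc of `Rb i`. -/
theorem kl_exists_self₂ {g : ℕ} (NS : NodalNS N g) (i : Fin g) (Pi : Place K F)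
    (hr : N.r Pi = some (NS.Rb i)) (hne : Pi ≠ NS.R i) :
    ∃ a : K, a ≠ 0 ∧ a ∈ N.S₁.A ∧ a⁻¹ ∉ N.S₁.A ∧
      (∀ v, N.r v = some (NS.Rb i) → v.ord (NS.t i) = Finsupp.single (NS.R i) (1 : ℤ) v) ∧
      (∀ v, N.r v = some (NS.Rb i) →
        v.ord (NS.t i - algebraMap K F a) = Finsupp.single Pi (1 : ℤ) v) := by
  have hsm := isSm_of_r N hr
  have hord := NS.ord_t_self i
  have hreg := NS.t_reg i i
  have hR := NS.r_R i
  revert hr hsm hord hreg hR
  generalize NS.Rb i = X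
  intro hr hsm hord hreg hR
  cases X with
  | inl Q =>
    obtain ⟨a, ha⟩ := kl_exists_self (S := side₁ N) (NS.t_mem₁ i) Q hsm hord hreg (NS.R i) hR
      (NS.t_R i) Pi hr hne
    exact ⟨a, ha.a_ne, ha.a_mem, ha.a_inv, ha.ord_t_self, ha.ord_s_self⟩
  | inr Q =>
    obtain ⟨a, ha⟩ := kl_exists_self (S := side₂ N) (NS.t_mem₂ i) Q hsm hord hreg (NS.R i) hR
      (NS.t_R i) Pi hr hne
    exact ⟨a, ha.a_ne, (mem_A₂_iff N _).mp ha.a_mem,
      fun h => ha.a_inv ((mem_A₂_iff N _).mpr h), ha.ord_t_self, ha.ord_s_self⟩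

end NK

end Fermat.Agent.BadRed
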