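import Mathlib
import Fermat.Agent.Lib.BadRed.Nodal.KeyTwo

set_option autoImplicit false

/-!
# Cluster T, N2a: the core of the nodal KEY LEMMA

One-sided computations (`klY`, `kl_T_red`, …) and the two-sided core contradiction `kl_core₂`.
Port of `Fermat.Agent.S18.KeyLemma` (helper61) to pairs of reductions.
-/

noncomputable section

open AlgebraicCurve Fermat.Agent.RR Fermat.Agent.Deuring

namespace Fermat.Agent.BadRed

namespace NK

open Fermat.Agent.S18Key (ord_neg' ord_nonneg_add ord_nonneg_sub ord_nonneg_mul ord_const_nonneg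
  ord_one_nonneg ord_add_ge_of_ge ord_add_eq_of_lt mapDomain_apply_eq_sum sum_le_mapDomain
  mapDomain_nonneg le_mapDomain add_le_mapDomain kl_ord_const_mul kl_ord_mul_const
  kl_ord_div_const kl_ord_sum_ge kl_ord_prod kl_ord_pow kl_ord_sub_ge_of_ge
  kl_ne_zero_of_ord_ne_zero kl_const_eq_zero_of_ord_pos)

variable {K F k : Type*} [Field K] [Field F] [Algebra K F] [Field k]

/-! ### first order expansions over a subring -/

/-- `z = 1 + a c + a² y` with `y ∈ R`. -/
def KLExpR (R : Subring F) (a z c : F) : Prop :=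
  ∃ y ∈ R, z = 1 + a * c + a ^ 2 * y

theorem KLExpR.base (R : Subring F) (a c : F) : KLExpR R a (1 + a * c) c :=
  ⟨0, zero_mem _, by ring⟩

theorem KLExpR.one (R : Subring F) (a : F) : KLExpR R a 1 0 :=
  ⟨0, zero_mem _, by ring⟩

theorem KLExpR.mul {R : Subring F} {a z c z' c' : F} (ha : a ∈ R) (hc : c ∈ R) (hc' : c' ∈ R)
    (h : KLExpR R a z c) (h' : KLExpR R a z' c') : KLExpR R a (z * z') (c + c') := by
  obtain ⟨y, hy, rfl⟩ := h
  obtain ⟨y', hy', rfl⟩ := h'
  refine ⟨y + y' + c * c' + a * (c * y' + c' * y) + a ^ 2 * (y * y'), ?_, by ring⟩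
  exact add_mem (add_mem (add_mem (add_mem hy hy') (mul_mem hc hc'))
    (mul_mem ha (add_mem (mul_mem hc hy') (mul_mem hc' hy)))) (mul_mem (pow_mem ha 2) (mul_mem hy hy'))

theorem KLExpR.pow {R : Subring F} {a z c : F} (ha : a ∈ R) (hc : c ∈ R) (h : KLExpR R a z c)
    (n : ℕ) : KLExpR R a (z ^ n) ((n : F) * c) := by
  induction n with
  | zero => simpa using KLExpR.one R a
  | succ n ih =>
    have h1 : ((n : F) * c) ∈ R := mul_mem (natCast_mem _ n) hc
    have := KLExpR.mul ha h1 hc ih h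
    rw [pow_succ]
    have e : ((n + 1 : ℕ) : F) * c = (n : F) * c + c := by push_cast; ring
    rw [e]
    exact this

theorem KLExpR.prod {R : Subring F} {ι' : Type*} (I : Finset ι') {a : F} (z c : ι' → F)
    (ha : a ∈ R) (hc : ∀ i ∈ I, c i ∈ R) (h : ∀ i ∈ I, KLExpR R a (z i) (c i)) :
    KLExpR R a (∏ i ∈ I, z i) (∑ i ∈ I, c i) := by
  classical
  induction I using Finset.induction_on with
  | empty => simpa using KLExpR.one R a
  | insert b s hb ih =>
    have hc2 : ∀ i ∈ s, c i ∈ R := fun i hi => hc i (Finset.mem_insert_of_mem hi)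
    have h2 : ∀ i ∈ s, KLExpR R a (z i) (c i) := fun i hi => h i (Finset.mem_insert_of_mem hi)
    rw [Finset.prod_insert hb, Finset.sum_insert hb]
    exact KLExpR.mul ha (hc b (Finset.mem_insert_self b s)) (sum_mem hc2)
      (h b (Finset.mem_insert_self b s)) (ih hc2 h2)

/-! ### one-sided computations -/

section OneSide

variable {Fk X : Type*} [Field Fk] [Algebra k Fk] {S : NSide K F k Fk X} {ι' : Type*}

/-- the function `Y` of the main argument. -/
def klY (I : Finset ι') (t : ι' → F) (aI : ι' → K) (astar : K) (m : ℕ) (y : F) : F :=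
  (m : F) * ∑ i ∈ I, algebraMap K F (aI i / astar) * (t i - algebraMap K F (aI i))⁻¹ +
    algebraMap K F astar * y

variable {I : Finset ι'} {t : ι' → F} {aI : ι' → K} {astar : K} {m : ℕ} {y : F}

theorem klσ_mem (hsU : ∀ i ∈ I, S.IsU (t i - algebraMap K F (aI i)))
    (hcA : ∀ i ∈ I, aI i / astar ∈ S.A) :
    ∀ i ∈ I, algebraMap K F (aI i / astar) * (t i - algebraMap K F (aI i))⁻¹ ∈ S.Ov :=
  fun i hi => mul_mem ((const_mem_iff _).mpr (hcA i hi)) (hsU i hi).inv_mem

theorem klY_mem (hsU : ∀ i ∈ I, S.IsU (t i - algebraMap K F (aI i)))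
    (hcA : ∀ i ∈ I, aI i / astar ∈ S.A) (haA : astar ∈ S.A) (hy : y ∈ S.Ov) :
    klY I t aI astar m y ∈ S.Ov :=
  add_mem (mul_mem (natCast_mem _ m) (sum_mem (klσ_mem hsU hcA)))
    (mul_mem ((const_mem_iff _).mpr haA) hy)

theorem red_klY (hsU : ∀ i ∈ I, S.IsU (t i - algebraMap K F (aI i)))
    (hreds : ∀ i ∈ I, S.red (t i - algebraMap K F (aI i)) = S.red (t i))
    (hcA : ∀ i ∈ I, aI i / astar ∈ S.A) (haA : astar ∈ S.A) (hai : astar⁻¹ ∉ S.A)
    (hy : y ∈ S.Ov) :
    S.red (klY I t aI astar m y) = S.red (algebraMap K F (m : K)) *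
      ∑ i ∈ I, S.red (algebraMap K F (aI i / astar)) * (S.red (t i))⁻¹ := by
  have haO : algebraMap K F astar ∈ S.Ov := (const_mem_iff _).mpr haA
  have hmO : (m : F) ∈ S.Ov := natCast_mem _ m
  have hmF : (m : F) = algebraMap K F (m : K) := (map_natCast (algebraMap K F) m).symm
  have hσmem := klσ_mem hsU hcA
  have hredσ : ∀ i ∈ I,
      S.red (algebraMap K F (aI i / astar) * (t i - algebraMap K F (aI i))⁻¹) =
        S.red (algebraMap K F (aI i / astar)) * (S.red (t i))⁻¹ := by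
    intro i hi
    rw [red_mul ((const_mem_iff _).mpr (hcA i hi)) (hsU i hi).inv_mem, (hsU i hi).red_inv,
      hreds i hi]
  unfold klY
  rw [red_add (mul_mem hmO (sum_mem hσmem)) (mul_mem haO hy), red_mul hmO (sum_mem hσmem),
    red_mul haO hy, kl_red_const_eq_zero haA hai, zero_mul, add_zero, kl_red_sum I _ hσmem, hmF]
  congr 1
  exact Finset.sum_congr rfl hredσ

theorem ord_red_klY_ge (Q : Place k Fk)
    (hsU : ∀ i ∈ I, S.IsU (t i - algebraMap K F (aI i)))
    (hreds : ∀ i ∈ I, S.red (t i - algebraMap K F (aI i)) = S.red (t i))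
    (hcA : ∀ i ∈ I, aI i / astar ∈ S.A) (haA : astar ∈ S.A) (hai : astar⁻¹ ∉ S.A)
    (hy : y ∈ S.Ov) (hord : ∀ i ∈ I, Q.ord (S.red (t i)) ≤ 1) :
    -1 ≤ Q.ord (S.red (klY I t aI astar m y)) := by
  rw [red_klY hsU hreds hcA haA hai hy]
  refine kl_ord_red_const_mul_ge Q (natCast_mem _ m) _ (by norm_num) ?_
  refine kl_ord_sum_ge Q I _ (by norm_num) fun i hi => ?_
  refine kl_ord_red_const_mul_ge Q (hcA i hi) _ (by norm_num) ?_
  rw [Q.ord_inv]
  have := hord i hi
  omega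

theorem ord_red_klY_eq (Q : Place k Fk)
    (hsU : ∀ i ∈ I, S.IsU (t i - algebraMap K F (aI i)))
    (hreds : ∀ i ∈ I, S.red (t i - algebraMap K F (aI i)) = S.red (t i))
    (hcA : ∀ i ∈ I, aI i / astar ∈ S.A) (haA : astar ∈ S.A) (hai : astar⁻¹ ∉ S.A)
    (hy : y ∈ S.Ov) (hm0 : (m : K) ≠ 0) (hmA : ((m : K))⁻¹ ∈ S.A)
    {istar : ι'} (hstar : istar ∈ I) (hastar : aI istar = astar) (ha0 : astar ≠ 0)
    (h1 : Q.ord (S.red (t istar)) = 1)
    (h0 : ∀ i ∈ I, i ≠ istar → Q.ord (S.red (t i)) ≤ 0) :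
    Q.ord (S.red (klY I t aI astar m y)) = -1 := by
  classical
  rw [red_klY hsU hreds hcA haA hai hy,
    kl_ord_red_unit_mul Q hm0 (natCast_mem _ m) hmA, ← Finset.add_sum_erase I _ hstar]
  have hordσs : Q.ord (S.red (algebraMap K F (aI istar / astar)) * (S.red (t istar))⁻¹) = -1 := by
    rw [hastar, div_self ha0, map_one, red_one, one_mul, Q.ord_inv, h1]
  rw [ord_add_eq_of_lt Q (by rw [hordσs]; norm_num)]
  · exact hordσs
  · refine kl_ord_sum_ge Q _ _ le_rfl fun i hi => ?_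
    refine kl_ord_red_const_mul_ge Q (hcA i (Finset.mem_of_mem_erase hi)) _ le_rfl ?_
    rw [Q.ord_inv]
    have := h0 i (Finset.mem_of_mem_erase hi) (Finset.ne_of_mem_erase hi)
    omega

/-- `V = 1 + a Y` is a unit with reduction `1`. -/
theorem klV_isU {a : K} (haA : a ∈ S.A) (hai : a⁻¹ ∉ S.A) {Y : F} (hY : Y ∈ S.Ov) :
    S.IsU (1 + algebraMap K F a * Y) ∧ S.red (1 + algebraMap K F a * Y) = 1 := by
  have haO : algebraMap K F a ∈ S.Ov := (const_mem_iff a).mpr haA
  have hreda : S.red (algebraMap K F a) = 0 := kl_red_const_eq_zero haA hai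
  have hVmem : 1 + algebraMap K F a * Y ∈ S.Ov := add_mem (one_mem _) (mul_mem haO hY)
  have hredV : S.red (1 + algebraMap K F a * Y) = 1 := by
    rw [red_add (one_mem _) (mul_mem haO hY), red_one, red_mul haO hY, hreda, zero_mul, add_zero]
  exact ⟨isU_of_red_ne_zero hVmem (by rw [hredV]; exact one_ne_zero), hredV⟩

/-- the reduction of `W = (u - 1) / τ`. -/
theorem kl_W_red {u Y : F} {a τ : K} (haA : a ∈ S.A) (hai : a⁻¹ ∉ S.A) (hτ : τ ≠ 0)
    (hY : Y ∈ S.Ov)
    (hX : (u * (1 + algebraMap K F a * Y) - 1) / algebraMap K F τ ∈ S.Ov) (hc : a / τ ∈ S.A) :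
    (u - 1) / algebraMap K F τ ∈ S.Ov ∧
      S.red ((u - 1) / algebraMap K F τ) =
        S.red ((u * (1 + algebraMap K F a * Y) - 1) / algebraMap K F τ) -
          S.red (algebraMap K F (a / τ)) * S.red Y := by
  obtain ⟨hVU, hredV⟩ := klV_isU (S := S) haA hai hY
  have hτF0 : algebraMap K F τ ≠ 0 := by simpa using hτ
  have hcO : algebraMap K F (a / τ) ∈ S.Ov := (const_mem_iff _).mpr hc
  have hT : u * (1 + algebraMap K F a * Y) - 1 - algebraMap K F a * Y =
      (u - 1) * (1 + algebraMap K F a * Y) := by ring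
  have e : ((u - 1) * (1 + algebraMap K F a * Y)) / algebraMap K F τ =
      (u * (1 + algebraMap K F a * Y) - 1) / algebraMap K F τ -
        algebraMap K F (a / τ) * Y := by
    rw [← hT, sub_div, map_div₀]
    field_simp
  have hTmem : ((u - 1) * (1 + algebraMap K F a * Y)) / algebraMap K F τ ∈ S.Ov := by
    rw [e]; exact sub_mem hX (mul_mem hcO hY)
  have hr : S.red (((u - 1) * (1 + algebraMap K F a * Y)) / algebraMap K F τ) =
      S.red ((u * (1 + algebraMap K F a * Y) - 1) / algebraMap K F τ) -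
        S.red (algebraMap K F (a / τ)) * S.red Y := by
    rw [e, red_sub hX (mul_mem hcO hY), red_mul hcO hY]
  have hWe : (u - 1) / algebraMap K F τ =
      ((u - 1) * (1 + algebraMap K F a * Y)) / algebraMap K F τ *
        (1 + algebraMap K F a * Y)⁻¹ := by
    have := hVU.ne_zero
    field_simp
  refine ⟨by rw [hWe]; exact mul_mem hTmem hVU.inv_mem, ?_⟩
  rw [hWe, red_mul hTmem hVU.inv_mem, hVU.red_inv, hredV, inv_one, mul_one, hr]

/-- the pole order of the reduction of `W` at a smooth point. -/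
theorem kl_W_ord_ge {u Y : F} {a τ : K} (haA : a ∈ S.A) (hai : a⁻¹ ∉ S.A) (hτ : τ ≠ 0)
    (hY : Y ∈ S.Ov)
    (hX : (u * (1 + algebraMap K F a * Y) - 1) / algebraMap K F τ ∈ S.Ov) (hc : a / τ ∈ S.A)
    (Q : Place k Fk) (hQ : S.sm Q)
    (hXreg : ∀ P, S.r P = some (S.emb Q) → 0 ≤ P.ord (u * (1 + algebraMap K F a * Y) - 1))
    (hYord : -1 ≤ Q.ord (S.red Y)) :
    -1 ≤ Q.ord (S.red ((u - 1) / algebraMap K F τ)) := by
  rw [(kl_W_red haA hai hτ hY hX hc).2]
  refine kl_ord_sub_ge_of_ge Q (by norm_num) ?_ ?_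
  · have h0 : 0 ≤ Q.ord (S.red ((u * (1 + algebraMap K F a * Y) - 1) / algebraMap K F τ)) := by
      by_cases hU : S.IsU ((u * (1 + algebraMap K F a * Y) - 1) / algebraMap K F τ)
      · exact push_nonneg hU Q hQ fun P hP => by
          rw [kl_ord_div_const P hτ]; exact hXreg P hP
      · rw [red_eq_zero_of_not_isU hX hU, Place.ord_zero]
    omega
  · exact kl_ord_red_const_mul_ge Q hc _ (by norm_num) hYord

/-- the reduction of `W` does not vanish on the side of `Rb istar` if `a / τ` is a unit. -/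
theorem kl_W_ne_zero {u Y : F} {a τ : K} (haA : a ∈ S.A) (hai : a⁻¹ ∉ S.A) (hτ : τ ≠ 0)
    (hY : Y ∈ S.Ov)
    (hX : (u * (1 + algebraMap K F a * Y) - 1) / algebraMap K F τ ∈ S.Ov) (hc : a / τ ∈ S.A)
    (Q : Place k Fk) (hQ : S.sm Q)
    (hXreg : ∀ P, S.r P = some (S.emb Q) → 0 ≤ P.ord (u * (1 + algebraMap K F a * Y) - 1))
    (hY3 : Q.ord (S.red Y) = -1) (ha0 : a ≠ 0) (hci : (a / τ)⁻¹ ∈ S.A) :
    S.red ((u - 1) / algebraMap K F τ) ≠ 0 := by
  rw [(kl_W_red haA hai hτ hY hX hc).2]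
  intro h0
  rw [sub_eq_zero] at h0
  have hreg : 0 ≤ Q.ord (S.red ((u * (1 + algebraMap K F a * Y) - 1) / algebraMap K F τ)) := by
    by_cases hU : S.IsU ((u * (1 + algebraMap K F a * Y) - 1) / algebraMap K F τ)
    · exact push_nonneg hU Q hQ fun P hP => by
        rw [kl_ord_div_const P hτ]; exact hXreg P hP
    · rw [red_eq_zero_of_not_isU hX hU, Place.ord_zero]
  have hcne : a / τ ≠ 0 := div_ne_zero ha0 hτ
  rw [h0, kl_ord_red_unit_mul Q hcne hc hci, hY3] at hreg
  omega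

/-- if `a / τ` is not a unit, the reduction of `W` is that of `X / τ`. -/
theorem kl_W_red_of_not_unit {u Y : F} {a τ : K} (haA : a ∈ S.A) (hai : a⁻¹ ∉ S.A) (hτ : τ ≠ 0)
    (hY : Y ∈ S.Ov)
    (hX : (u * (1 + algebraMap K F a * Y) - 1) / algebraMap K F τ ∈ S.Ov) (hc : a / τ ∈ S.A)
    (hci : (a / τ)⁻¹ ∉ S.A) :
    S.red ((u - 1) / algebraMap K F τ) =
      S.red ((u * (1 + algebraMap K F a * Y) - 1) / algebraMap K F τ) := by
  rw [(kl_W_red haA hai hτ hY hX hc).2, kl_red_const_eq_zero hc hci, zero_mul, sub_zero]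

end OneSide

end NK

end Fermat.Agent.BadRed
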