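import Mathlib
import Fermat.Agent.S18.KeyGlue
import Fermat.Agent.S18.KeyJacobi
import Fermat.Agent.Lib.BadRed.Nodal.KeyMain
import Fermat.Agent.Lib.BadRed.Nodal.RRNodal

set_option autoImplicit false

/-!
# Cluster T, N2c: nodal Jacobi inversion, and the nodal KEY LEMMA with `NodalNS` as a hypothesis

Port of `Fermat.Agent.S18Key.exists_jacobi` (helper7) to the two-component nodal setting.

* `NJ.exists_jacobi_pair` : **Jacobi inversion**, general form: an ordinary divisor `D` of
  degree `0` whose reduction (at the smooth points) is the divisor of a NODAL pair `(a, b)`,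
  `a, b ≠ 0`, is linearly equivalent to `∑ P i - ∑ R i` with `P i` in the residue disc of `Rb i`.
* `NJ.nodalJacobi : NodalJacobiStatement N g NS` : the case `(a, b) = (1, 1)` (`RedTrivial`).
* `NJ.nodalKeyOfNS : NodalKeyOfNS N` : the nodal KEY LEMMA (with N2a = `NK.nodalMain`).
* `NJ.nodalKey_pair` : the KEY LEMMA for divisors whose reduction is the divisor of a nodal pair
  (the form `(NK')` needed for Frobenius).

Proof of the inversion: Riemann's inequality gives `φ ≠ 0` in `L(D + ∑ R i)`; scale `φ` by the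
max norm (`NK.exists_scale₂`); `φ` has no pole in the annuli, so its pair of reductions is nodal
(`N.node`); the pair `(a, b) * red φ` is nodal with at most simple poles at the `Rb i`, hence a
constant pair `(c, c)` (`NS.nonspecial`), `c ≠ 0`; so `φ` is a unit of both valuation rings and
`E = D + ∑ R i + div φ ≥ 0` has a point `P i` in the disc of every `Rb i`; `deg E = g` gives
`E = ∑ P i`.
-/

noncomputable section

open AlgebraicCurve Fermat.Agent.RR Fermat.Agent.Deuring

namespace Fermat.Agent.BadRed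

namespace NJ

open Fermat.Agent.S18Key (mapDomain_apply_eq_sum mapDomain_nonneg le_mapDomain kl_ord_div_const
  sum_single_apply_self sum_single_apply_other riemann_of_isRRField ord_nonneg_mul)

section ValAt

variable {k' F' : Type*} [Field k'] [Field F'] [Algebra k' F']

theorem vanAt_mul_of_nonneg {Q : Place k' F'} {x y : F'} (hx : VanAt Q x)
    (hy : 0 ≤ Q.ord y) : VanAt Q (x * y) := by
  rcases eq_or_ne x 0 with rfl | hx0
  · rw [zero_mul]; exact vanAt_zero Q
  rcases eq_or_ne y 0 with rfl | hy0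
  · rw [mul_zero]; exact vanAt_zero Q
  right
  rw [Q.ord_mul hx0 hy0]
  have := hx.resolve_left hx0
  omega

/-- values are multiplicative. -/
theorem valAt_mul {Q : Place k' F'} {f g : F'} {c d : k'} (hf : ValAt Q f c)
    (hg : ValAt Q g d) (hg0 : 0 ≤ Q.ord g) : ValAt Q (f * g) (c * d) := by
  rw [valAt_iff_vanAt] at hf hg ⊢
  have h1 := vanAt_mul_of_nonneg hf hg0
  have h2 := hg.smul c
  have e : f * g - algebraMap k' F' (c * d) =
      (f - algebraMap k' F' c) * g + c • (g - algebraMap k' F' d) := by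
    rw [map_mul, Algebra.smul_def]; ring
  rw [e]
  exact h1.add h2

end ValAt

variable {K F k Fk₁ Fk₂ : Type*} [Field K] [Field F] [Algebra K F]
  [Field k] [Field Fk₁] [Algebra k Fk₁] [Field Fk₂] [Algebra k Fk₂] {ι : Type*}

variable {N : NodalSetup K F k Fk₁ Fk₂ ι}

/-- nodal pairs are closed under multiplication. -/
theorem isNodalFn_mul {a a' : Fk₁} {b b' : Fk₂} (h : N.IsNodalFn a b)
    (h' : N.IsNodalFn a' b') : N.IsNodalFn (a * a') (b * b') := by
  intro i
  obtain ⟨h1, h2, c, hc1, hc2⟩ := h i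
  obtain ⟨h1', h2', c', hc1', hc2'⟩ := h' i
  exact ⟨ord_nonneg_mul _ h1 h1', ord_nonneg_mul _ h2 h2', c * c', valAt_mul hc1 hc1' h1',
    valAt_mul hc2 hc2' h2'⟩

theorem isNodalFn_one : N.IsNodalFn (1 : Fk₁) (1 : Fk₂) := fun i =>
  ⟨by simp, by simp, 1, Or.inl (map_one _).symm, Or.inl (map_one _).symm⟩

/-- **Jacobi inversion**, general form: `D` ordinary of degree `0`, with reduction (at the smooth
points) the divisor of the nodal pair `(a, b)`. -/
theorem exists_jacobi_pair {g : ℕ} (NS : NodalNS N g) (hg : genusFF K F = g)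
    (D : Divisor K F) (hdeg : Divisor.degree D = 0) {a : Fk₁} {b : Fk₂} (ha : a ≠ 0)
    (hb : b ≠ 0) (hab : N.IsNodalFn a b) (hordD : N.IsOrdDiv D)
    (hred : ∀ X, NK.IsSm N X → Finsupp.mapDomain N.r D (some X) = pairOrd X a b) :
    ∃ (φ : F) (P : Fin g → Place K F), φ ≠ 0 ∧ (∀ i, N.r (P i) = some (NS.Rb i)) ∧
      ∀ v : Place K F, D v + v.ord φ =
        ∑ i, (Finsupp.single (P i) (1 : ℤ) v - Finsupp.single (NS.R i) (1 : ℤ) v) := by
  classical
  have hF : IsRRField K F := N.S₁.hF
  have hRinj : Function.Injective NS.R := fun i j hij =>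
    NS.Rb_inj (Option.some.inj (by rw [← NS.r_R i, ← NS.r_R j, hij]))
  set DR : Divisor K F := ∑ i, Finsupp.single (NS.R i) (1 : ℤ) with hDR
  have hdegR : Divisor.degree DR = g := by
    rw [hDR, map_sum]
    simp [Divisor.degree_single, hF.deg_one]
  obtain ⟨φ0, hφ0, hE0⟩ := riemann_of_isRRField hF g hg.le (D + DR)
    (by rw [map_add, hdeg, hdegR, zero_add])
  obtain ⟨c, hc, hm₁, hm₂, hne⟩ := NK.exists_scale₂ N hφ0
  set φ : F := φ0 / algebraMap K F c with hφ
  have hφne : φ ≠ 0 := div_ne_zero hφ0 (by simpa using hc)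
  have hord : ∀ v : Place K F, v.ord φ = v.ord φ0 := fun v => kl_ord_div_const v hc φ0
  set E : Divisor K F := D + DR + divOf hF φ with hE
  have hEapp : ∀ v, E v = D v + DR v + v.ord φ := fun v => by
    rw [hE, Finsupp.add_apply, Finsupp.add_apply, divOf_apply]
  have hEnn : ∀ v, 0 ≤ E v := fun v => by
    rw [hEapp, hord]
    have := hE0 v
    rw [Finsupp.add_apply] at this
    exact this
  -- the divisor of the `Rb i`
  set DRb : (Place k Fk₁ ⊕ Place k Fk₂) →₀ ℤ := ∑ i, Finsupp.single (NS.Rb i) (1 : ℤ) with hDRb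
  have hDRb_self : ∀ i, DRb (NS.Rb i) = 1 := fun i => sum_single_apply_self NS.Rb NS.Rb_inj i
  have hDRb_other : ∀ X, (∀ i, X ≠ NS.Rb i) → DRb X = 0 := fun X hX =>
    sum_single_apply_other NS.Rb X hX
  have hDRb_nn : ∀ X, 0 ≤ DRb X := fun X => by
    rw [hDRb, Finsupp.finsetSum_apply]
    refine Finset.sum_nonneg fun i _ => ?_
    rw [Finsupp.single_apply]
    split_ifs <;> norm_num
  have hmapDR : ∀ X, Finsupp.mapDomain N.r DR (some X) = DRb X := by
    intro X
    rw [hDR, Finsupp.mapDomain_finsetSum, hDRb, Finsupp.finsetSum_apply, Finsupp.finsetSum_apply]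
    refine Finset.sum_congr rfl fun i _ => ?_
    rw [Finsupp.mapDomain_single, NS.r_R, Finsupp.single_apply, Finsupp.single_apply]
    simp only [Option.some.injEq]
  -- `φ` has no pole in the annuli
  have hDRnone : ∀ v, N.r v = none → DR v = 0 := fun v hv =>
    sum_single_apply_other NS.R v (fun i h => by
      rw [h, NS.r_R] at hv
      exact Option.some_ne_none _ hv)
  have hDnone : ∀ v, N.r v = none → D v = 0 := fun v hv => by
    by_contra h
    obtain ⟨Q, hQ⟩ := hordD v h
    rw [hv] at hQ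
    exact Option.some_ne_none _ hQ.symm
  have hreg : ∀ v, N.r v = none → 0 ≤ v.ord φ := fun v hv => by
    have := hEnn v
    rw [hEapp, hDnone v hv, hDRnone v hv] at this
    linarith
  have hnodeφ : N.IsNodalFn (N.S₁.red φ) (N.S₂.red φ) := N.node φ hm₁ hm₂ hreg
  have hAB := isNodalFn_mul hab hnodeφ
  -- push forward at the smooth points
  have hmapE : ∀ X, NK.IsSm N X →
      Sum.elim (fun _ => N.S₁.red φ ≠ 0) (fun _ => N.S₂.red φ ≠ 0) X →
      Finsupp.mapDomain N.r E (some X) =
        DRb X + pairOrd X (a * N.S₁.red φ) (b * N.S₂.red φ) := by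
    intro X hX hnz
    rw [hE, Finsupp.mapDomain_add, Finsupp.mapDomain_add, Finsupp.add_apply, Finsupp.add_apply,
      hmapDR, hred X hX]
    cases X with
    | inl Q =>
      have hnz' : N.S₁.red φ ≠ 0 := hnz
      have hU : (NK.side₁ N).IsU φ := NK.isU_of_red_ne_zero (S := NK.side₁ N) hm₁ hnz'
      have hp : Finsupp.mapDomain N.r (divOf hF φ) (some (Sum.inl Q)) = Q.ord (N.S₁.red φ) :=
        NK.push_eq (S := NK.side₁ N) hU Q hX
      rw [hp, pairOrd_inl, pairOrd_inl, Q.ord_mul ha hnz']
      ring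
    | inr Q =>
      have hnz' : N.S₂.red φ ≠ 0 := hnz
      have hU : (NK.side₂ N).IsU φ := NK.isU_of_red_ne_zero (S := NK.side₂ N) hm₂ hnz'
      have hp : Finsupp.mapDomain N.r (divOf hF φ) (some (Sum.inr Q)) = Q.ord (N.S₂.red φ) :=
        NK.push_eq (S := NK.side₂ N) hU Q hX
      rw [hp, pairOrd_inr, pairOrd_inr, Q.ord_mul hb hnz']
      ring
  have hpole : ∀ X, NK.IsSm N X →
      -DRb X ≤ pairOrd X (a * N.S₁.red φ) (b * N.S₂.red φ) := by
    intro X hX
    by_cases hnz : Sum.elim (fun _ => N.S₁.red φ ≠ 0) (fun _ => N.S₂.red φ ≠ 0) X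
    · have h1 := mapDomain_nonneg N.r E (some X) (fun P _ => hEnn P)
      rw [hmapE X hX hnz] at h1
      linarith
    · have h0 : pairOrd X (a * N.S₁.red φ) (b * N.S₂.red φ) = 0 := by
        cases X with
        | inl Q =>
          have h' : N.S₁.red φ = 0 := not_not.mp hnz
          rw [pairOrd_inl, h', mul_zero, Place.ord_zero]
        | inr Q =>
          have h' : N.S₂.red φ = 0 := not_not.mp hnz
          rw [pairOrd_inr, h', mul_zero, Place.ord_zero]
      rw [h0]
      have := hDRb_nn X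
      linarith
  -- the pair is constant
  obtain ⟨c', hc'₁, hc'₂⟩ := NS.nonspecial _ _ hAB
    (fun Q hQ => by
      by_cases hs : ∀ i, Q ≠ N.s₁ i
      · have := hpole (Sum.inl Q) hs
        rw [hDRb_other _ (fun i h => hQ i h.symm), neg_zero, pairOrd_inl] at this
        exact this
      · push Not at hs
        obtain ⟨i, rfl⟩ := hs
        exact (hAB i).1)
    (fun Q hQ => by
      by_cases hs : ∀ i, Q ≠ N.s₂ i
      · have := hpole (Sum.inr Q) hs
        rw [hDRb_other _ (fun i h => hQ i h.symm), neg_zero, pairOrd_inr] at this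
        exact this
      · push Not at hs
        obtain ⟨i, rfl⟩ := hs
        exact (hAB i).2.1)
    (fun i => by
      have := hpole (NS.Rb i) (NK.isSm_of_r N (NS.r_R i))
      rw [hDRb_self] at this
      exact this)
  have hc'0 : c' ≠ 0 := by
    rintro rfl
    rw [map_zero] at hc'₁ hc'₂
    rcases hne with h | h
    · exact mul_ne_zero ha h hc'₁
    · exact mul_ne_zero hb h hc'₂
  have hnz₁ : N.S₁.red φ ≠ 0 := by
    intro h
    rw [h, mul_zero] at hc'₁
    exact hc'0 ((map_eq_zero (algebraMap k Fk₁)).mp hc'₁.symm)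
  have hnz₂ : N.S₂.red φ ≠ 0 := by
    intro h
    rw [h, mul_zero] at hc'₂
    exact hc'0 ((map_eq_zero (algebraMap k Fk₂)).mp hc'₂.symm)
  have hnzX : ∀ X : Place k Fk₁ ⊕ Place k Fk₂,
      Sum.elim (fun _ => N.S₁.red φ ≠ 0) (fun _ => N.S₂.red φ ≠ 0) X := fun X => by
    cases X with
    | inl Q => exact hnz₁
    | inr Q => exact hnz₂
  have hpc : ∀ X : Place k Fk₁ ⊕ Place k Fk₂,
      pairOrd X (algebraMap k Fk₁ c') (algebraMap k Fk₂ c') = 0 := fun X => by
    cases X with
    | inl Q => exact Fermat.Agent.S24Res.ord_algebraMap Q c'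
    | inr Q => exact Fermat.Agent.S24Res.ord_algebraMap Q c'
  have hmapRb : ∀ i, Finsupp.mapDomain N.r E (some (NS.Rb i)) = 1 := fun i => by
    rw [hmapE (NS.Rb i) (NK.isSm_of_r N (NS.r_R i)) (hnzX _), hDRb_self, hc'₁, hc'₂, hpc,
      add_zero]
  -- choose the points `P i`
  have hex : ∀ i, ∃ P : Place K F, N.r P = some (NS.Rb i) ∧ 0 < E P := by
    intro i
    by_contra hcon
    push Not at hcon
    have : Finsupp.mapDomain N.r E (some (NS.Rb i)) ≤ 0 := by
      rw [mapDomain_apply_eq_sum]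
      apply Finset.sum_nonpos
      intro P _
      split_ifs with h1
      · exact hcon P h1
      · exact le_rfl
    rw [hmapRb] at this
    omega
  choose P hP hPpos using hex
  have hPinj : Function.Injective P := fun i j hij =>
    NS.Rb_inj (Option.some.inj (by rw [← hP i, ← hP j, hij]))
  set EP : Divisor K F := ∑ i, Finsupp.single (P i) (1 : ℤ) with hEP
  have hEP_self : ∀ i, EP (P i) = 1 := fun i => sum_single_apply_self P hPinj i
  have hEP_other : ∀ v, (∀ i, v ≠ P i) → EP v = 0 := fun v hv =>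
    sum_single_apply_other P v hv
  have hdegEP : Divisor.degree EP = g := by
    rw [hEP, map_sum]
    simp [Divisor.degree_single, hF.deg_one]
  have hle : EP ≤ E := by
    rw [Finsupp.le_def]
    intro v
    by_cases hv : ∃ i, v = P i
    · obtain ⟨i, rfl⟩ := hv
      rw [hEP_self]
      have := hPpos i
      omega
    · push Not at hv
      rw [hEP_other v hv]
      exact hEnn v
  have hdegE : Divisor.degree E = g := by
    rw [hE, map_add, map_add, hdeg, hdegR, degree_divOf]
    ring
  have hEeq : EP = E := eq_of_le_of_degree_eq_aux hF hle (by rw [hdegEP, hdegE])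
  refine ⟨φ, P, hφne, hP, fun v => ?_⟩
  have h1 : D v + v.ord φ = E v - DR v := by
    rw [hEapp]
    ring
  rw [h1, ← hEeq, Finset.sum_sub_distrib, hEP, hDR, Finsupp.finsetSum_apply,
    Finsupp.finsetSum_apply]

/-- **(N2c) nodal Jacobi inversion.** -/
theorem nodalJacobi (N : NodalSetup K F k Fk₁ Fk₂ ι) (g : ℕ) (NS : NodalNS N g) :
    NodalJacobiStatement N g NS := by
  intro hg D hdeg hred
  refine exists_jacobi_pair NS hg D hdeg (a := 1) (b := 1) one_ne_zero one_ne_zero
    isNodalFn_one hred.1 (fun X _ => ?_)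
  rw [hred.2 X]
  cases X with
  | inl Q => simp
  | inr Q => simp

/-- **the nodal KEY LEMMA, with `NodalNS` as a hypothesis.** -/
theorem nodalKeyOfNS (N : NodalSetup K F k Fk₁ Fk₂ ι) : NodalKeyOfNS N :=
  nodalKeyOfNS_of_steps N (fun NS => nodalJacobi N _ NS) (fun NS => NK.nodalMain N _ NS)

/-- **(NK') the nodal KEY LEMMA for divisors whose reduction is the divisor of a nodal pair**:
`D` ordinary of degree `0`, `r_* D = div (a, b)` at the smooth points for a nodal pair `(a, b)`
with `a, b ≠ 0`, and `m D` principal, `m` a unit of `A`: then `D` is principal. -/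
theorem nodalKey_pair (NS : NodalNS N (genusFF K F)) (m : ℕ) (hm0 : (m : K) ≠ 0)
    (hmA : ((m : K))⁻¹ ∈ N.S₁.A) (D : Divisor K F) (hdeg : Divisor.degree D = 0)
    {a : Fk₁} {b : Fk₂} (ha : a ≠ 0) (hb : b ≠ 0) (hab : N.IsNodalFn a b)
    (hordD : N.IsOrdDiv D)
    (hred : ∀ X, NK.IsSm N X → Finsupp.mapDomain N.r D (some X) = pairOrd X a b)
    (hmD : (m • D) ∈ Divisor.principal (K := K) (F := F)) :
    D ∈ Divisor.principal (K := K) (F := F) := by
  obtain ⟨φ, P, hφ, hP, hE⟩ := exists_jacobi_pair NS rfl D hdeg ha hb hab hordD hred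
  obtain ⟨f₁, hf₁, hf₁d⟩ := hmD
  have hmain := NK.nodalMain N _ NS m hm0 hmA P hP (f₁ * φ ^ m)
    (mul_ne_zero hf₁ (pow_ne_zero _ hφ))
    (fun v => by
      rw [v.ord_mul hf₁ (pow_ne_zero _ hφ), ← hf₁d, ← hE v, Finsupp.smul_apply]
      have hpow : ∀ n : ℕ, v.ord (φ ^ n) = n * v.ord φ := by
        intro n
        induction n with
        | zero => simp
        | succ k ihk => rw [pow_succ, v.ord_mul (pow_ne_zero _ hφ) hφ, ihk]; push_cast; ring
      rw [hpow m]
      simp only [nsmul_eq_mul]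
      ring)
  refine ⟨φ⁻¹, inv_ne_zero hφ, fun v => ?_⟩
  rw [v.ord_inv]
  have h := hE v
  rw [Finset.sum_eq_zero (fun i _ => by rw [hmain i, sub_self])] at h
  omega

end NJ

end Fermat.Agent.BadRed
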