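import Mathlib
import Fermat.Agent.Lib.BadRed.Nodal.Gluing.ToricKey

set_option autoImplicit false

/-!
# Cluster T / DESC-Kp leaf KP-TB: the toric bound `|W₀[n]| ≤ n ^ (s - 1)`

For a nodal reduction package `N` with `s` nodes (`K` algebraically closed, infinite residue field,
the conclusion of the nodal KEY LEMMA), and `n` a unit of the valuation ring:

* `toricBound` : `ToricBoundStatement N`, i.e. `W₀[n]` is finite of cardinality `≤ n ^ (s - 1)`.

Proof: fix a big base divisor `R`.  Every `x ∈ W₀[n]` has gluing data `d` with a gluing invariant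
`ζ : ι → μ_n(k)` (`Gluing/Ordinary.lean`); rescaling the root `h₁` by `ζ(i₀)⁻¹` normalises
`ζ(i₀) = 1`.  The class `x` is determined by `ζ` (`GData.sub_mem_principal_of_isGlueAt`, the
INJECTIVITY of the gluing map), and there are at most `n ^ (s - 1)` normalised invariants.
-/

noncomputable section

open AlgebraicCurve Fermat.Agent.RR Fermat.Agent.Deuring

namespace Fermat.Agent.BadRed.Gluing

variable {K F k Fk₁ Fk₂ ι : Type*} [Field K] [Field F] [Algebra K F]
  [Field k] [Field Fk₁] [Algebra k Fk₁] [Field Fk₂] [Algebra k Fk₂]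
  {N : NodalSetup K F k Fk₁ Fk₂ ι} {n : ℕ}

/-- rescaling the first root `h₁` of gluing data by an `n`-th root of unity. -/
def GData.scaleData (d : GData N n) (z : k) (hz0 : z ≠ 0) (hz : z ^ n = 1) : GData N n where
  D := d.D
  g := d.g
  c₁ := d.c₁
  c₂ := d.c₂
  c₀ := d.c₀
  h₁ := z • d.h₁
  h₂ := d.h₂
  hdeg := d.hdeg
  hg := d.hg
  hdiv := d.hdiv
  hc₁ := d.hc₁
  hc₂ := d.hc₂
  hc₀0 := d.hc₀0
  hh₁ := smul_ne_zero hz0 d.hh₁
  hh₂ := d.hh₂
  hred₁ := by
    rw [smul_pow, hz, one_smul]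
    exact d.hred₁
  hred₂ := d.hred₂
  hc₀ := d.hc₀

theorem GData.scaleData_D (d : GData N n) (z : k) (hz0 : z ≠ 0) (hz : z ^ n = 1) :
    (d.scaleData z hz0 hz).D = d.D := rfl

theorem GData.scaleData_A (d : GData N n) (z : k) (hz0 : z ≠ 0) (hz : z ^ n = 1) (φ : F) :
    (d.scaleData z hz0 hz).A φ = z • d.A φ := by
  unfold GData.A
  show N.S₁.red φ * (z • d.h₁) = z • (N.S₁.red φ * d.h₁)
  rw [mul_smul_comm]

theorem GData.scaleData_B (d : GData N n) (z : k) (hz0 : z ≠ 0) (hz : z ^ n = 1) (φ : F) :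
    (d.scaleData z hz0 hz).B φ = d.B φ := rfl

theorem GData.scaleData_inLam (d : GData N n) (z : k) (hz0 : z ≠ 0) (hz : z ^ n = 1)
    {R : Divisor K F} {φ : F} (hφ : d.InLam R φ) : (d.scaleData z hz0 hz).InLam R φ := hφ

/-- the gluing invariant of the rescaled data is `z * ζ`. -/
theorem GData.isGlueAt_scaleData [Fintype ι] [Infinite k] (hn : n ≠ 0) (hrel : N.GenusRel)
    (d : GData N n) (z : k) (hz0 : z ≠ 0) (hz : z ^ n = 1) {R : Divisor K F} (hR : IsBig N R)
    {ζ : ι → k} (hζ : d.IsGlueAt R ζ) :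
    (d.scaleData z hz0 hz).IsGlueAt R (fun i => z * ζ i) := by
  obtain ⟨a, b, hab, hgen⟩ := exists_isGenericPair hn hζ.1 hR
  obtain ⟨φ, hφ0, hφ, hA, hB, -⟩ := d.exists_lift_generic hn hR hζ hab hgen
  refine GData.isGlueAt_of_witness hn hrel hR hR le_rfl (d.scaleData_inLam z hz0 hz hφ)
    fun i => ⟨1, one_ne_zero, ?_, ?_⟩
  · rw [mul_one, d.scaleData_A, hA]
    exact (hgen.2.2 i).1.smul z
  · rw [d.scaleData_B, hB]
    exact (hgen.2.2 i).2

/-- counting through a relation which is injective in the first variable. -/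
theorem finite_ncard_le_of_rel {α β : Type*} (s : Set α) (t : Finset β) (P : α → β → Prop)
    (hex : ∀ x ∈ s, ∃ z ∈ t, P x z) (hinj : ∀ x y z, P x z → P y z → x = y) :
    s.Finite ∧ s.ncard ≤ t.card := by
  classical
  choose f hf using fun x : s => hex x.1 x.2
  let f' : s → t := fun x => ⟨f x, (hf x).1⟩
  have hinj' : Function.Injective f' := by
    intro x y hxy
    have e : f x = f y := congrArg Subtype.val hxy
    apply Subtype.ext
    exact hinj x.1 y.1 (f x) (hf x).2 (by rw [e]; exact (hf y).2)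
  have hfin : Finite s := Finite.of_injective f' hinj'
  refine ⟨Set.toFinite s, ?_⟩
  have h1 : Nat.card s ≤ Nat.card t := Nat.card_le_card_of_injective f' hinj'
  rwa [Nat.card_coe_set_eq, Nat.card_eq_fintype_card, Fintype.card_coe] at h1

/-- the finite set of normalised gluing invariants. -/
def normInv [Fintype ι] [DecidableEq ι] (k : Type*) [Field k] (n : ℕ) (i₀ : ι) :
    Finset (ι → k) :=
  Fintype.piFinset fun i : ι =>
    if i = i₀ then ({1} : Finset k) else Polynomial.nthRootsFinset n (1 : k)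

theorem mem_normInv [Fintype ι] [DecidableEq ι] (hn : 0 < n) (i₀ : ι) {ζ : ι → k}
    (hζ : ∀ i, ζ i ^ n = 1) (h0 : ζ i₀ = 1) : ζ ∈ normInv k n i₀ := by
  unfold normInv
  rw [Fintype.mem_piFinset]
  intro i
  by_cases hi : i = i₀
  · rw [if_pos hi, Finset.mem_singleton, hi]
    exact h0
  · rw [if_neg hi, Polynomial.mem_nthRootsFinset hn]
    exact hζ i

theorem card_normInv_le [Fintype ι] [DecidableEq ι] (n : ℕ) (i₀ : ι) :
    (normInv k n i₀).card ≤ n ^ (Fintype.card ι - 1) := by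
  classical
  unfold normInv
  rw [Fintype.card_piFinset]
  have h1 : ∀ i : ι, (if i = i₀ then ({1} : Finset k)
      else Polynomial.nthRootsFinset n (1 : k)).card ≤ (if i = i₀ then 1 else n) := by
    intro i
    by_cases hi : i = i₀
    · rw [if_pos hi, if_pos hi, Finset.card_singleton]
    · rw [if_neg hi, if_neg hi]
      rw [Polynomial.nthRootsFinset_def]
      exact (Multiset.toFinset_card_le _).trans (Polynomial.card_nthRoots n 1)
  refine (Finset.prod_le_prod (fun i _ => Nat.zero_le _) (fun i _ => h1 i)).trans ?_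
  have h2 : ∏ i : ι, (if i = i₀ then 1 else n) = ∏ i ∈ Finset.univ.erase i₀, n := by
    rw [← Finset.prod_erase (Finset.univ : Finset ι) (a := i₀) (by rw [if_pos rfl])]
    exact Finset.prod_congr rfl fun i hi => if_neg (Finset.ne_of_mem_erase hi)
  rw [h2, Finset.prod_const, Finset.card_erase_of_mem (Finset.mem_univ _), Finset.card_univ]

/-- two gluing data with the same gluing invariant define the same class. -/
theorem GData.mk_eq_of_isGlueAt [Fintype ι] (hKey : KeyConcl N)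
    (hn0 : (n : K) ≠ 0) (hnA : ((n : K))⁻¹ ∈ N.S₁.A) (d d' : GData N n)
    {R : Divisor K F} (hR : IsBig N R) {ζ : ι → k} (hζ : d.IsGlueAt R ζ)
    (hζ' : d'.IsGlueAt R ζ) :
    Pic0.mk (⟨d.D, d.hdeg⟩ : Divisor.degZero (K := K) (F := F)) =
      Pic0.mk (⟨d'.D, d'.hdeg⟩ : Divisor.degZero (K := K) (F := F)) := by
  have hprin := GData.sub_mem_principal_of_isGlueAt hKey hn0 hnA d d' hR hζ hζ'
  unfold Pic0.mk
  rw [QuotientAddGroup.eq, AddSubgroup.mem_addSubgroupOf]
  have e : ((-(⟨d.D, d.hdeg⟩ : Divisor.degZero (K := K) (F := F)) +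
      (⟨d'.D, d'.hdeg⟩ : Divisor.degZero (K := K) (F := F)) :
      Divisor.degZero (K := K) (F := F)) : Divisor K F) = -(d.D - d'.D) := by
    simp only [AddSubgroup.coe_add, NegMemClass.coe_neg]
    abel
  rw [e]
  exact neg_mem hprin

/-- **(RK) the toric bound**: `W₀[n]` is finite of cardinality at most `n ^ (s - 1)`. -/
theorem toricBound [Fintype ι] [Infinite k] [IsAlgClosed K] (N : NodalSetup K F k Fk₁ Fk₂ ι)
    (hKey : KeyConcl N) : ToricBoundStatement N := by
  classical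
  intro hrel n hn0 hnA
  have hn : n ≠ 0 := by
    rintro rfl
    exact hn0 Nat.cast_zero
  obtain ⟨R, hR⟩ := exists_isBig N
  let P : Pic0 K F → (ι → k) → Prop := fun x ζ =>
    ∃ d : GData N n,
      Pic0.mk (⟨d.D, d.hdeg⟩ : Divisor.degZero (K := K) (F := F)) = x ∧ d.IsGlueAt R ζ
  have hinj : ∀ x y ζ, P x ζ → P y ζ → x = y := by
    rintro x y ζ ⟨d, rfl, hd⟩ ⟨d', rfl, hd'⟩
    exact GData.mk_eq_of_isGlueAt hKey hn0 hnA d d' hR hd hd'
  have hex : ∀ x ∈ N.W0 n, ∃ d : GData N n,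
      Pic0.mk (⟨d.D, d.hdeg⟩ : Divisor.degZero (K := K) (F := F)) = x := by
    rintro x ⟨D, rfl, hD⟩
    obtain ⟨d, hdD, -⟩ := exists_gData_of_isW0Div hn D.2 hD
    exact ⟨d, congrArg Pic0.mk (Subtype.ext hdD)⟩
  rcases isEmpty_or_nonempty ι with hι | ⟨⟨i₀⟩⟩
  · have hcard : Fintype.card ι = 0 := Fintype.card_eq_zero
    rw [hcard, Nat.zero_sub, pow_zero]
    have := finite_ncard_le_of_rel (N.W0 n) ({fun _ => 1} : Finset (ι → k)) P (fun x hx => by
      obtain ⟨d, hd⟩ := hex x hx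
      obtain ⟨ζ, hζ⟩ := d.exists_isGlueAt hn hrel hR
      refine ⟨ζ, ?_, d, hd, hζ⟩
      rw [Finset.mem_singleton]
      exact Subsingleton.elim _ _) hinj
    rwa [Finset.card_singleton] at this
  · have := finite_ncard_le_of_rel (N.W0 n) (normInv k n i₀) P (fun x hx => by
      obtain ⟨d, hd⟩ := hex x hx
      obtain ⟨ζ, hζ⟩ := d.exists_isGlueAt hn hrel hR
      have hz0 : ζ i₀ ≠ 0 := ne_zero_of_pow_eq_one hn (hζ.1 i₀)
      have hz : (ζ i₀)⁻¹ ^ n = 1 := by rw [inv_pow, hζ.1 i₀, inv_one]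
      have hζ' := d.isGlueAt_scaleData hn hrel (ζ i₀)⁻¹ (inv_ne_zero hz0) hz hR hζ
      refine ⟨fun i => (ζ i₀)⁻¹ * ζ i, mem_normInv (Nat.pos_of_ne_zero hn) i₀ hζ'.1 ?_,
        d.scaleData (ζ i₀)⁻¹ (inv_ne_zero hz0) hz, hd, hζ'⟩
      exact inv_mul_cancel₀ hz0) hinj
    exact ⟨this.1, this.2.trans (card_normInv_le n i₀)⟩

end Fermat.Agent.BadRed.Gluing
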