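import Mathlib
import Fermat.Agent.Lib.BadRed.Nodal.ToricBound
import Fermat.Agent.Lib.BadRed.Nodal.Deuring2.Main

set_option autoImplicit false

/-!
# Cluster T / DESC-Kp leaf KP-TB: the toric package of a SEED, unconditional

For a seed `N : NodalSeed K F k Fk₁ Fk₂ ι` (`K`, `k` algebraically closed, at least one node):

* `NodalSeed.keyConcl` : the conclusion of the nodal KEY LEMMA for `N.nodalSetup`;
* `NodalSeed.toricBound` : `ToricBoundStatement N.nodalSetup`;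
* `NodalSeed.finite_W0`, `NodalSeed.ncard_W0_le` : `W₀[n]` is finite, `|W₀[n]| ≤ n ^ (s - 1)`;
* `NodalSeed.smul_eq_of_mem_W0` : inertial automorphisms fix `W₀[n]` pointwise (in `Pic⁰`);
* `NodalSeed.smul_eq_nsmul_of_mem_W0` : Frobenius-like automorphisms act as `Q` on `W₀[n]`.
-/

noncomputable section

open AlgebraicCurve Fermat.Agent.RR Fermat.Agent.Deuring

namespace Fermat.Agent.BadRed

variable {K F k Fk₁ Fk₂ : Type*} [Field K] [Field F] [Algebra K F]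
  [Field k] [Field Fk₁] [Algebra k Fk₁] [Field Fk₂] [Algebra k Fk₂] {ι : Type*} [Fintype ι]
  [IsAlgClosed k] [Infinite k] [Nonempty ι]

/-- the conclusion of the nodal KEY LEMMA for the nodal package of a seed. -/
theorem NodalSeed.keyConcl (N : NodalSeed K F k Fk₁ Fk₂ ι) : Gluing.KeyConcl N.nodalSetup :=
  Gluing.keyConcl_of_lift N.nodalSetup N.D₀ N.R₁ N.R₂ N.nodalSetup_genusRel
    N.R₁_pos N.R₂_pos N.R₁_node N.R₂_node N.nodalSetup_hasLift

/-- **(RK) the toric bound** for the nodal package of a seed. -/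
theorem NodalSeed.toricBound [IsAlgClosed K] (N : NodalSeed K F k Fk₁ Fk₂ ι) :
    ToricBoundStatement N.nodalSetup :=
  Gluing.toricBound N.nodalSetup N.keyConcl

/-- `W₀[n]` is finite. -/
theorem NodalSeed.finite_W0 [IsAlgClosed K] (N : NodalSeed K F k Fk₁ Fk₂ ι) {n : ℕ}
    (hn0 : (n : K) ≠ 0) (hnA : ((n : K))⁻¹ ∈ N.S₁.A) : (N.nodalSetup.W0 n).Finite :=
  (N.toricBound N.nodalSetup_genusRel n hn0 hnA).1

/-- `|W₀[n]| ≤ n ^ (s - 1)`. -/
theorem NodalSeed.ncard_W0_le [IsAlgClosed K] (N : NodalSeed K F k Fk₁ Fk₂ ι) {n : ℕ}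
    (hn0 : (n : K) ≠ 0) (hnA : ((n : K))⁻¹ ∈ N.S₁.A) :
    (N.nodalSetup.W0 n).ncard ≤ n ^ (Fintype.card ι - 1) :=
  (N.toricBound N.nodalSetup_genusRel n hn0 hnA).2

/-- Frobenius-like automorphisms act as multiplication by `Q` on `W₀[n]`. -/
theorem NodalSeed.smul_eq_nsmul_of_mem_W0 [IsAlgClosed K] (N : NodalSeed K F k Fk₁ Fk₂ ι) {n : ℕ}
    (hn0 : (n : K) ≠ 0) (hnA : ((n : K))⁻¹ ∈ N.S₁.A)
    {t : SemilinearAut K F} {Q : ℕ} {τ₁ : Fk₁ →+* Fk₁} {τ₂ : Fk₂ →+* Fk₂}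
    (ht : Gluing.IsFrobLike N.nodalSetup t Q τ₁ τ₂) {x : Pic0 K F} (hx : x ∈ N.nodalSetup.W0 n) :
    t • x = Q • x :=
  Gluing.smul_eq_nsmul_of_mem_W0 N.keyConcl N.nodalSetup_genusRel hn0 hnA ht hx

/-- inertial automorphisms fix `W₀[n]` pointwise. -/
theorem NodalSeed.smul_eq_of_mem_W0 [IsAlgClosed K] (N : NodalSeed K F k Fk₁ Fk₂ ι) {n : ℕ}
    (hn0 : (n : K) ≠ 0) (hnA : ((n : K))⁻¹ ∈ N.S₁.A) {t : SemilinearAut K F}
    (ht : N.nodalSetup.IsInertial t) {x : Pic0 K F} (hx : x ∈ N.nodalSetup.W0 n) : t • x = x :=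
  Gluing.smul_eq_of_mem_W0 N.keyConcl N.nodalSetup_genusRel hn0 hnA ht hx

end Fermat.Agent.BadRed
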