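import Mathlib
import Fermat.Agent.S18.NSBuild
import Fermat.Agent.Lib.BadRed.Nodal.NSDef
import Fermat.Agent.Lib.BadRed.Nodal.NSGreedy

set_option autoImplicit false
set_option linter.style.haveILetI false
set_option linter.unusedSectionVars false

/-!
# Cluster T, WP N2b: construction of `NodalNS` from N1 (greedy form) and base functions (helper7)

Input: a nodal reduction package `N`, the genus relation, and a pair of *base functions*
`x₁ x₂ ∈ O₁ ∩ O₂` (structure `NodalBaseFn`; for `X₀(q N₀)`: `x₁ = j`, `x₂ = j(q z) = w_q j`, so that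
`red₁ x₁ = red₂ x₂ = j̄` is separable, while `red₂ x₁ = red₁ x₂ = j̄ ^ q` is not; a single function
is allowed, `x₁ = x₂`).  Hypotheses on `x = x₁, x₂` (`NodalGoodFn`):

* `x ∈ O₁ ∩ O₂`, both reductions are non-constant;
* off a finite set `bad` of points of `C₁ ⊔ C₂` the reductions are regular;
* `x` has no pole in the residue disc of a point outside `bad`;

and `red₁ x₁` (resp. `red₂ x₂`) is unramified at the points of `C₁` (resp. `C₂`) outside `bad`.

Output: `Nonempty (NodalNS N (genusFF K F))`, the input of the nodal KEY LEMMA (`NodalKeyOfNS`).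
The parameter at `Rb i` is `t i = x_ε - a i` (`ε` the component of `Rb i`, `a i ∈ A` a lift of the
value of `red_ε x_ε` at `Rb i`); the greedy choice of the `Rb i` (N1, `exists_nodal_nonspecial_fin`)
makes `red_δ (t i)` a unit at every `Rb j`, `j ≠ i`, on both components.
-/

noncomputable section

open AlgebraicCurve Fermat.Agent.RR Fermat.Agent.Deuring

namespace Fermat.Agent.BadRed

variable {K F k Fk₁ Fk₂ : Type*} [Field K] [Field F] [Algebra K F]
  [Field k] [Field Fk₁] [Algebra k Fk₁] [Field Fk₂] [Algebra k Fk₂] {ι : Type*}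

/-! ### generalities on `pairOrd` -/

/-- the order at `Q` of `red f - c`, on the component of `Q`. -/
def NodalSetup.redOrd (N : NodalSetup K F k Fk₁ Fk₂ ι) (Q : Place k Fk₁ ⊕ Place k Fk₂) (f : F)
    (c : k) : ℤ :=
  pairOrd Q (N.S₁.red f - algebraMap k Fk₁ c) (N.S₂.red f - algebraMap k Fk₂ c)

theorem nsb_ord_sub_const_nonneg {k' Fk' : Type*} [Field k'] [Field Fk'] [Algebra k' Fk']
    (Q : Place k' Fk') {y : Fk'} (hy : 0 ≤ Q.ord y) (c : k') :
    0 ≤ Q.ord (y - algebraMap k' Fk' c) := by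
  apply Fermat.Agent.S24Res.ord_nonneg_of_mem
  exact sub_mem (Fermat.Agent.S24Res.mem_of_ord_nonneg Q hy) (Q.algebraMap_mem' c)

theorem nsb_finite_pairOrd_pos (h₁ : IsRRField k Fk₁) (h₂ : IsRRField k Fk₂) (a : Fk₁) (b : Fk₂) :
    {Q : Place k Fk₁ ⊕ Place k Fk₂ | 0 < pairOrd Q a b}.Finite := by
  refine (((finite_zeros h₁ a).image Sum.inl).union ((finite_zeros h₂ b).image Sum.inr)).subset ?_
  rintro (Q | Q) hQ
  · exact Or.inl ⟨Q, hQ, rfl⟩
  · exact Or.inr ⟨Q, hQ, rfl⟩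

variable (N : NodalSetup K F k Fk₁ Fk₂ ι)

theorem NodalSetup.redOrd_unique (Q : Place k Fk₁ ⊕ Place k Fk₂) (f : F) {c c' : k}
    (h : 0 < N.redOrd Q f c) (h' : 0 < N.redOrd Q f c') : c = c' := by
  rcases Q with Q | Q
  · exact Fermat.Agent.S18Key.value_unique Q _ h h'
  · exact Fermat.Agent.S18Key.value_unique Q _ h h'

/-- `red f` takes the same value at `Q'` and at `Q`. -/
def NodalSetup.SameVal (f : F) (Q' Q : Place k Fk₁ ⊕ Place k Fk₂) : Prop :=
  ∃ c : k, 0 < N.redOrd Q' f c ∧ 0 < N.redOrd Q f c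

theorem NodalSetup.SameVal.symm {f : F} {Q' Q : Place k Fk₁ ⊕ Place k Fk₂}
    (h : N.SameVal f Q' Q) : N.SameVal f Q Q' := by
  obtain ⟨c, h1, h2⟩ := h
  exact ⟨c, h2, h1⟩

theorem NodalSetup.finite_sameVal (f : F) (Q' : Place k Fk₁ ⊕ Place k Fk₂) :
    {Q | N.SameVal f Q' Q}.Finite := by
  by_cases h : ∃ c : k, 0 < N.redOrd Q' f c
  · obtain ⟨c₀, hc₀⟩ := h
    refine (nsb_finite_pairOrd_pos N.S₁.hFk N.S₂.hFk (N.S₁.red f - algebraMap k Fk₁ c₀)
      (N.S₂.red f - algebraMap k Fk₂ c₀)).subset ?_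
    rintro Q ⟨c, h1, h2⟩
    have : c = c₀ := N.redOrd_unique Q' f h1 hc₀
    subst this
    exact h2
  · convert Set.finite_empty
    ext Q
    simp only [Set.mem_ofPred_eq, Set.mem_empty_iff_false, iff_false]
    rintro ⟨c, h1, -⟩
    exact h ⟨c, h1⟩

/-! ### good functions -/

/-- a function `x ∈ O₁ ∩ O₂` which is good off the finite set `bad` of points of `C₁ ⊔ C₂`. -/
structure NodalGoodFn (bad : Finset (Place k Fk₁ ⊕ Place k Fk₂)) (x : F) : Prop where
  mem₁ : x ∈ N.S₁.Ov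
  mem₂ : x ∈ N.S₂.Ov
  /-- the first reduction is not constant -/
  nonconst₁ : ∀ c : k, N.S₁.red x ≠ algebraMap k Fk₁ c
  /-- the second reduction is not constant -/
  nonconst₂ : ∀ c : k, N.S₂.red x ≠ algebraMap k Fk₂ c
  /-- the reductions are regular off `bad` -/
  regular : ∀ Q, Q ∉ bad → 0 ≤ pairOrd Q (N.S₁.red x) (N.S₂.red x)
  /-- `x` has no pole in the residue disc of a point outside `bad` -/
  no_pole : ∀ P Q, N.r P = some Q → Q ∉ bad → 0 ≤ P.ord x

namespace NodalGoodFn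

variable {N} {bad : Finset (Place k Fk₁ ⊕ Place k Fk₂)} {x : F} (G : NodalGoodFn N bad x)

include G

theorem mem_A₂ {a : K} (ha : a ∈ N.S₁.A) : a ∈ N.S₂.A := N.A_eq ▸ ha

theorem t_mem₁ {a : K} (ha : a ∈ N.S₁.A) : x - algebraMap K F a ∈ N.S₁.Ov :=
  sub_mem G.mem₁ (N.S₁.algebraMap_mem ha)

theorem t_mem₂ {a : K} (ha : a ∈ N.S₁.A) : x - algebraMap K F a ∈ N.S₂.Ov :=
  sub_mem G.mem₂ (N.S₂.algebraMap_mem (G.mem_A₂ ha))

theorem red₁_t {a : K} (ha : a ∈ N.S₁.A) :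
    N.S₁.red (x - algebraMap K F a) = N.S₁.red x - algebraMap k Fk₁ (N.S₁.res ⟨a, ha⟩) := by
  rw [N.S₁.red_sub G.mem₁ (N.S₁.algebraMap_mem ha), N.S₁.red_algebraMap ha]

theorem red₂_t {a : K} (ha : a ∈ N.S₁.A) :
    N.S₂.red (x - algebraMap K F a) = N.S₂.red x - algebraMap k Fk₂ (N.S₁.res ⟨a, ha⟩) := by
  rw [N.S₂.red_sub G.mem₂ (N.S₂.algebraMap_mem (G.mem_A₂ ha)),
    N.S₂.red_algebraMap (G.mem_A₂ ha), N.res_eq a ha (G.mem_A₂ ha)]

theorem red₁_t_ne_zero {a : K} (ha : a ∈ N.S₁.A) : N.S₁.red (x - algebraMap K F a) ≠ 0 := by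
  rw [G.red₁_t ha]
  exact fun h => G.nonconst₁ _ (sub_eq_zero.mp h)

theorem red₂_t_ne_zero {a : K} (ha : a ∈ N.S₁.A) : N.S₂.red (x - algebraMap K F a) ≠ 0 := by
  rw [G.red₂_t ha]
  exact fun h => G.nonconst₂ _ (sub_eq_zero.mp h)

theorem pairOrd_t {a : K} (ha : a ∈ N.S₁.A) (Q : Place k Fk₁ ⊕ Place k Fk₂) :
    pairOrd Q (N.S₁.red (x - algebraMap K F a)) (N.S₂.red (x - algebraMap K F a)) =
      N.redOrd Q x (N.S₁.res ⟨a, ha⟩) := by
  rw [G.red₁_t ha, G.red₂_t ha]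
  rfl

theorem redOrd_nonneg {Q : Place k Fk₁ ⊕ Place k Fk₂} (hQ : Q ∉ bad) (c : k) :
    0 ≤ N.redOrd Q x c := by
  have h := G.regular Q hQ
  rcases Q with Q | Q
  · exact nsb_ord_sub_const_nonneg Q h c
  · exact nsb_ord_sub_const_nonneg Q h c

/-- the value of the reduction of `x` at a point outside `bad`. -/
theorem exists_value {Q : Place k Fk₁ ⊕ Place k Fk₂} (hQ : Q ∉ bad) :
    ∃ c : k, 0 < N.redOrd Q x c := by
  have h := G.regular Q hQ
  rcases Q with Q | Q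
  · obtain ⟨c, hc | hc⟩ := exists_const_sub N.S₁.hFk Q h
    · exact absurd hc (G.nonconst₁ c)
    · exact ⟨c, hc⟩
  · obtain ⟨c, hc | hc⟩ := exists_const_sub N.S₂.hFk Q h
    · exact absurd hc (G.nonconst₂ c)
    · exact ⟨c, hc⟩

/-- `x - a` has no pole in the residue disc of a point outside `bad`. -/
theorem t_reg (a : K) {P : Place K F} {Q : Place k Fk₁ ⊕ Place k Fk₂} (hP : N.r P = some Q)
    (hQ : Q ∉ bad) : 0 ≤ P.ord (x - algebraMap K F a) := by
  apply Fermat.Agent.S24Res.ord_nonneg_of_mem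
  exact sub_mem (Fermat.Agent.S24Res.mem_of_ord_nonneg P (G.no_pole P Q hP hQ))
    (P.algebraMap_mem' _)

/-- `x - a` has a zero in the residue disc of a smooth point where `red x - res a` vanishes. -/
theorem exists_zero {a : K} (ha : a ∈ N.S₁.A) (Q : Place k Fk₁ ⊕ Place k Fk₂)
    (hn₁ : ∀ i, Q ≠ Sum.inl (N.s₁ i)) (hn₂ : ∀ i, Q ≠ Sum.inr (N.s₂ i))
    (hQ : 0 < N.redOrd Q x (N.S₁.res ⟨a, ha⟩)) :
    ∃ R : Place K F, N.r R = some Q ∧ 0 < R.ord (x - algebraMap K F a) := by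
  rw [← G.pairOrd_t ha] at hQ
  rcases Q with Q | Q
  · have hne := G.red₁_t_ne_zero ha
    have hpush := N.push₁ _ (G.t_mem₁ ha) (N.S₁.inv_mem_of_red_ne_zero hne)
      (N.S₁.ne_zero_of_red_ne_zero hne) Q (fun i h => hn₁ i (h ▸ rfl))
    obtain ⟨R, hR, hpos⟩ := Fermat.Agent.S18Key.exists_of_mapDomain_pos N.r _ _
      (by rw [hpush]; exact hQ)
    rw [divOf_apply] at hpos
    exact ⟨R, hR, hpos⟩
  · have hne := G.red₂_t_ne_zero ha
    have hpush := N.push₂ _ (G.t_mem₂ ha) (N.S₂.inv_mem_of_red_ne_zero hne)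
      (N.S₂.ne_zero_of_red_ne_zero hne) Q (fun i h => hn₂ i (h ▸ rfl))
    obtain ⟨R, hR, hpos⟩ := Fermat.Agent.S18Key.exists_of_mapDomain_pos N.r _ _
      (by rw [hpush]; exact hQ)
    rw [divOf_apply] at hpos
    exact ⟨R, hR, hpos⟩

end NodalGoodFn

/-! ### base functions -/

/-- A pair of base functions for the construction of `NodalNS`: `x₁` is used for the parameters
at the points of the first component, `x₂` at the points of the second. -/
structure NodalBaseFn where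
  /-- the bad points of `C₁ ⊔ C₂` (poles and ramified points of the reductions, ...) -/
  bad : Finset (Place k Fk₁ ⊕ Place k Fk₂)
  /-- the base function of the first component -/
  x₁ : F
  /-- the base function of the second component -/
  x₂ : F
  good₁ : NodalGoodFn N bad x₁
  good₂ : NodalGoodFn N bad x₂
  /-- `red₁ x₁` is unramified off `bad` -/
  unram₁ : ∀ Q : Place k Fk₁, Sum.inl Q ∉ bad → ∀ c : k,
    0 < Q.ord (N.S₁.red x₁ - algebraMap k Fk₁ c) → Q.ord (N.S₁.red x₁ - algebraMap k Fk₁ c) = 1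
  /-- `red₂ x₂` is unramified off `bad` -/
  unram₂ : ∀ Q : Place k Fk₂, Sum.inr Q ∉ bad → ∀ c : k,
    0 < Q.ord (N.S₂.red x₂ - algebraMap k Fk₂ c) → Q.ord (N.S₂.red x₂ - algebraMap k Fk₂ c) = 1

namespace NodalBaseFn

variable {N} (B : NodalBaseFn N)

/-- the base function adapted to the component of `Q`. -/
def xs (Q : Place k Fk₁ ⊕ Place k Fk₂) : F := Sum.elim (fun _ => B.x₁) (fun _ => B.x₂) Q

theorem good (Q : Place k Fk₁ ⊕ Place k Fk₂) : NodalGoodFn N B.bad (B.xs Q) := by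
  rcases Q with Q | Q
  · exact B.good₁
  · exact B.good₂

theorem xs_eq (Q : Place k Fk₁ ⊕ Place k Fk₂) : B.xs Q = B.x₁ ∨ B.xs Q = B.x₂ := by
  rcases Q with Q | Q
  · exact Or.inl rfl
  · exact Or.inr rfl

theorem unram {Q : Place k Fk₁ ⊕ Place k Fk₂} (hQ : Q ∉ B.bad) (c : k)
    (h : 0 < N.redOrd Q (B.xs Q) c) : N.redOrd Q (B.xs Q) c = 1 := by
  rcases Q with Q | Q
  · exact B.unram₁ Q hQ c h
  · exact B.unram₂ Q hQ c h

/-- one of the two base functions takes the same value at `Q'` and `Q`. -/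
def Same (Q' Q : Place k Fk₁ ⊕ Place k Fk₂) : Prop :=
  N.SameVal B.x₁ Q' Q ∨ N.SameVal B.x₂ Q' Q

theorem Same.symm {Q' Q : Place k Fk₁ ⊕ Place k Fk₂} (h : B.Same Q' Q) : B.Same Q Q' :=
  h.imp (fun h => h.symm) (fun h => h.symm)

theorem finite_same (Q' : Place k Fk₁ ⊕ Place k Fk₂) : {Q | B.Same Q' Q}.Finite :=
  (N.finite_sameVal B.x₁ Q').union (N.finite_sameVal B.x₂ Q')

theorem same_of_xs {Q' Q : Place k Fk₁ ⊕ Place k Fk₂} (Q₀ : Place k Fk₁ ⊕ Place k Fk₂)
    (h : N.SameVal (B.xs Q₀) Q' Q) : B.Same Q' Q := by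
  rcases B.xs_eq Q₀ with h0 | h0
  · exact Or.inl (h0 ▸ h)
  · exact Or.inr (h0 ▸ h)

open Classical in
/-- the points to avoid once the points of `T` have been chosen. -/
def avoid (T : Finset (Place k Fk₁ ⊕ Place k Fk₂)) : Finset (Place k Fk₁ ⊕ Place k Fk₂) :=
  B.bad ∪ T.biUnion (fun Q' => (B.finite_same Q').toFinset)

theorem notMem_avoid {T : Finset (Place k Fk₁ ⊕ Place k Fk₂)} {Q : Place k Fk₁ ⊕ Place k Fk₂}
    (h : Q ∉ B.avoid T) : Q ∉ B.bad ∧ ∀ Q' ∈ T, ¬ B.Same Q' Q := by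
  classical
  unfold avoid at h
  rw [Finset.mem_union, not_or] at h
  refine ⟨h.1, fun Q' hQ' hs => h.2 ?_⟩
  rw [Finset.mem_biUnion]
  exact ⟨Q', hQ', by rw [Set.Finite.mem_toFinset]; exact hs⟩

/-- the data at a good smooth point: a constant `a ∈ A` and a zero `R` of `x - a` in the disc. -/
theorem exists_data {Q : Place k Fk₁ ⊕ Place k Fk₂} (hQ : Q ∉ B.bad)
    (hn₁ : ∀ i, Q ≠ Sum.inl (N.s₁ i)) (hn₂ : ∀ i, Q ≠ Sum.inr (N.s₂ i)) :
    ∃ (a : N.S₁.A) (R : Place K F), N.redOrd Q (B.xs Q) (N.S₁.res a) = 1 ∧ N.r R = some Q ∧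
      0 < R.ord (B.xs Q - algebraMap K F (a : K)) := by
  obtain ⟨c, hc⟩ := (B.good Q).exists_value hQ
  obtain ⟨a, rfl⟩ := N.S₁.res_surj c
  obtain ⟨R, hR, hpos⟩ := (B.good Q).exists_zero a.2 Q hn₁ hn₂ hc
  exact ⟨a, R, B.unram hQ _ hc, hR, hpos⟩

/-- **N2b: construction of `NodalNS`.** -/
theorem nonempty_nodalNS [IsAlgClosed k] [Fintype ι] [Nonempty ι] (B : NodalBaseFn N)
    (hg : N.GenusRel) : Nonempty (NodalNS N (genusFF K F)) := by
  classical
  haveI : Infinite k := IsAlgClosed.instInfinite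
  haveI : Infinite (Place k Fk₁) := infinite_place N.S₁.hFk
  obtain ⟨Rb, hinj, havoid, hnode₁, hnode₂, hns⟩ :=
    exists_nodal_nonspecial_fin N.S₁.hFk N.S₂.hFk N.s₁ N.s₂ N.s₁_inj B.avoid (genusFF K F) hg
  have hbad : ∀ i, Rb i ∉ B.bad := fun i => (B.notMem_avoid (havoid i)).1
  -- distinct points have distinct values
  have hsame : ∀ i j, i ≠ j → ¬ B.Same (Rb i) (Rb j) := by
    intro i j hij hs
    rcases lt_or_gt_of_ne hij with h | h
    · exact (B.notMem_avoid (havoid j)).2 (Rb i)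
        (Finset.mem_image.mpr ⟨i, Finset.mem_filter.mpr ⟨Finset.mem_univ _, h⟩, rfl⟩) hs
    · exact (B.notMem_avoid (havoid i)).2 (Rb j)
        (Finset.mem_image.mpr ⟨j, Finset.mem_filter.mpr ⟨Finset.mem_univ _, h⟩, rfl⟩) hs.symm
  have hdata : ∀ i, ∃ (a : N.S₁.A) (R : Place K F),
      N.redOrd (Rb i) (B.xs (Rb i)) (N.S₁.res a) = 1 ∧ N.r R = some (Rb i) ∧
        0 < R.ord (B.xs (Rb i) - algebraMap K F (a : K)) :=
    fun i => B.exists_data (hbad i) (hnode₁ i) (hnode₂ i)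
  choose a R hord hrR hRpos using hdata
  -- the base point
  obtain ⟨Q₀, hQ₀⟩ := Infinite.exists_notMem_finset
    ((Finset.univ.image N.s₁) ∪ (Finset.univ.image Rb).toLeft)
  rw [Finset.mem_union, not_or] at hQ₀
  have hQ₀n : ∀ i, Q₀ ≠ N.s₁ i := fun i h =>
    hQ₀.1 (Finset.mem_image.mpr ⟨i, Finset.mem_univ _, h.symm⟩)
  have hQ₀R : ∀ i, Rb i ≠ Sum.inl Q₀ := fun i h =>
    hQ₀.2 (Finset.mem_toLeft.mpr (Finset.mem_image.mpr ⟨i, Finset.mem_univ _, h⟩))
  obtain ⟨P0, hP0⟩ := N.r_surj₁ Q₀ hQ₀n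
  refine ⟨{
    Rb := Rb
    Rb_inj := hinj
    R := R
    r_R := hrR
    t := fun i => B.xs (Rb i) - algebraMap K F (a i : K)
    t_mem₁ := fun i => (B.good (Rb i)).t_mem₁ (a i).2
    t_mem₂ := fun i => (B.good (Rb i)).t_mem₂ (a i).2
    t_red₁ := fun i => (B.good (Rb i)).red₁_t_ne_zero (a i).2
    t_red₂ := fun i => (B.good (Rb i)).red₂_t_ne_zero (a i).2
    ord_t_self := fun i => by
      rw [(B.good (Rb i)).pairOrd_t (a i).2]
      exact hord i
    ord_t_other := fun i j hij => by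
      rw [(B.good (Rb i)).pairOrd_t (a i).2]
      have h0 := (B.good (Rb i)).redOrd_nonneg (hbad j) (N.S₁.res ⟨(a i : K), (a i).2⟩)
      by_contra hne
      apply hsame i j hij
      apply B.same_of_xs (Rb i)
      refine ⟨N.S₁.res (a i), ?_, ?_⟩
      · rw [hord i]; norm_num
      · exact lt_of_le_of_ne h0 (Ne.symm hne)
    t_reg := fun i j P hP => (B.good (Rb i)).t_reg _ hP (hbad j)
    t_R := hRpos
    nonspecial := fun f b hnod h1 h2 h3 => by
      refine hns f b h1 ?_ h2 ?_ (fun i => (hnod i).2.2)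
      · intro Q
        by_cases hQ : ∃ i, Rb i = Sum.inl Q
        · obtain ⟨i, hi⟩ := hQ
          have := h3 i
          rw [hi] at this
          exact this
        · push Not at hQ
          have := h1 Q hQ
          omega
      · intro Q
        by_cases hQ : ∃ i, Rb i = Sum.inr Q
        · obtain ⟨i, hi⟩ := hQ
          have := h3 i
          rw [hi] at this
          exact this
        · push Not at hQ
          have := h2 Q hQ
          omega
    P0 := P0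
    P0_ord := ⟨_, hP0⟩
    r_P0 := fun i h => hQ₀R i (by
      rw [hP0] at h
      exact (Option.some.inj h).symm) }⟩

end NodalBaseFn

end Fermat.Agent.BadRed
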